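import Fermat.Agent.S24.QL

/-!
# S29, piece AN-ROOT: an `m`-th root in `ℂ((q))` of a series over `ℚ̄` is a series over `ℚ̄`
-/

set_option autoImplicit false

namespace Fermat.Agent.S29

open ModularCurve Fermat.Agent.S24 PowerSeries

theorem anr_mem_range_iff {K L : Type*} [Field K] [Field L] (φ : K →+* L) (P : PowerSeries L) :
    P ∈ (PowerSeries.map φ).range ↔ ∀ n, ∃ r : K, coeff n P = φ r := by
  constructor
  · rintro ⟨Q, rfl⟩ n
    exact ⟨coeff n Q, by simp⟩
  · intro h
    choose r hr using h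
    refine ⟨PowerSeries.mk r, ?_⟩
    ext n
    simp [hr]

theorem anr_root_mem_range {K L : Type*} [Field K] [Field L] (φ : K →+* L) (P : PowerSeries L)
    (h0 : constantCoeff P = 1) (N : ℕ) (hN : (N : L) ≠ 0)
    (h : P ^ N ∈ (PowerSeries.map φ).range) : P ∈ (PowerSeries.map φ).range := by
  rw [anr_mem_range_iff]
  intro n
  induction n using Nat.strong_induction_on with
  | _ n ih =>
    rcases Nat.eq_zero_or_pos n with rfl | hn
    · exact ⟨1, by simp [h0]⟩
    set T : PowerSeries L := ((P.trunc n : Polynomial L) : PowerSeries L) with hT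
    set W : PowerSeries L := PowerSeries.mk fun i => coeff (i + n) P with hW
    have hP : P - T = X ^ n * W := by
      have := P.eq_X_pow_mul_shift_add_trunc n
      rw [← hT, ← hW] at this
      rw [sub_eq_iff_eq_add]
      exact this
    have hTr : T ∈ (PowerSeries.map φ).range := by
      rw [anr_mem_range_iff]
      intro i
      rw [hT, Polynomial.coeff_coe, coeff_trunc]
      split_ifs with hi
      · exact ih i hi
      · exact ⟨0, by simp⟩
    have hT0 : constantCoeff T = 1 := by
      rw [← coeff_zero_eq_constantCoeff_apply, hT, Polynomial.coeff_coe, coeff_trunc, if_pos hn,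
        coeff_zero_eq_constantCoeff_apply, h0]
    have hgeom := geom_sum₂_mul P T N
    rw [hP] at hgeom
    have hc : coeff n (P ^ N - T ^ N) = (N : L) * coeff n P := by
      rw [← hgeom, mul_comm, mul_assoc, coeff_X_pow_mul', if_pos le_rfl, Nat.sub_self,
        coeff_zero_eq_constantCoeff_apply, map_mul, map_sum]
      simp only [map_mul, map_pow, h0, hT0, one_pow, mul_one, Finset.sum_const, Finset.card_range,
        nsmul_eq_mul]
      rw [← coeff_zero_eq_constantCoeff_apply, hW, coeff_mk, zero_add, mul_comm]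
    have hmem : P ^ N - T ^ N ∈ (PowerSeries.map φ).range := sub_mem h (pow_mem hTr N)
    obtain ⟨r, hr⟩ := (anr_mem_range_iff _ _).mp hmem n
    refine ⟨r / N, ?_⟩
    rw [hc] at hr
    rw [map_div₀, map_natCast, ← hr]
    field_simp

/-- a root in `L` of `X ^ m - φ a` comes from `K` when `K` is algebraically closed. -/
theorem anr_exists_of_pow_eq {K L : Type*} [Field K] [Field L] [IsAlgClosed K] (φ : K →+* L)
    {m : ℕ} (hm : m ≠ 0) (b : L) (a : K) (h : b ^ m = φ a) : ∃ b' : K, φ b' = b := by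
  classical
  have hp : (Polynomial.X ^ m - Polynomial.C a : Polynomial K) ≠ 0 :=
    Polynomial.X_pow_sub_C_ne_zero (Nat.pos_of_ne_zero hm) a
  have hsp := IsAlgClosed.splits (Polynomial.X ^ m - Polynomial.C a : Polynomial K)
  have hroot : b ∈ ((Polynomial.X ^ m - Polynomial.C a : Polynomial K).map φ).roots := by
    rw [Polynomial.mem_roots (Polynomial.map_ne_zero hp)]
    simp [h]
  rw [hsp.roots_map φ] at hroot
  obtain ⟨b', -, hb'⟩ := Multiset.mem_map.1 hroot
  exact ⟨b', hb'⟩

theorem exists_coeffMap_eq_of_pow_eq {K L : Type*} [Field K] [Field L] [IsAlgClosed K]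
    (φ : K →+* L) {m : ℕ} (hm : (m : L) ≠ 0) (y : LaurentSeries L) (s : LaurentSeries K)
    (h : y ^ m = coeffMap φ s) : ∃ t : LaurentSeries K, coeffMap φ t = y := by
  have hm0 : m ≠ 0 := by
    rintro rfl
    simp at hm
  rcases eq_or_ne y 0 with rfl | hy
  · exact ⟨0, map_zero _⟩
  set Y := y.powerSeriesPart with hY
  have hyY : (HahnSeries.single y.order 1 : LaurentSeries L) * HahnSeries.ofPowerSeries ℤ L Y = y :=
    y.single_order_mul_powerSeriesPart
  have hb0 : constantCoeff Y ≠ 0 := by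
    rw [← coeff_zero_eq_constantCoeff_apply, hY, LaurentSeries.powerSeriesPart_coeff]
    simpa using (HahnSeries.coeff_order_eq_zero (x := y)).not.2 hy
  -- `Y ^ m` is defined over `K`
  have hYm : HahnSeries.ofPowerSeries ℤ L (Y ^ m) =
      coeffMap φ ((HahnSeries.single (-y.order) 1 : LaurentSeries K) ^ m * s) := by
    rw [map_mul, map_pow, map_pow, coeffMap_single, map_one, ← h, ← mul_pow,
      LaurentSeries.ofPowerSeries_powerSeriesPart]
  have hYr : Y ^ m ∈ (PowerSeries.map φ).range := by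
    rw [anr_mem_range_iff]
    intro n
    refine ⟨((HahnSeries.single (-y.order) 1 : LaurentSeries K) ^ m * s).coeff n, ?_⟩
    rw [← coeffMap_coeff, ← hYm, HahnSeries.ofPowerSeries_apply_coeff]
  obtain ⟨a, ha⟩ := (anr_mem_range_iff _ _).1 hYr 0
  obtain ⟨b', hb'⟩ := anr_exists_of_pow_eq φ hm0 (constantCoeff Y) a (by
    rw [← ha, coeff_zero_eq_constantCoeff_apply, map_pow])
  have hb'0 : b' ≠ 0 := by
    rintro rfl
    rw [map_zero] at hb'
    exact hb0 hb'.symm
  have hC : ∀ c : K, (PowerSeries.C (φ c) : PowerSeries L) ∈ (PowerSeries.map φ).range :=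
    fun c => ⟨PowerSeries.C c, by simp⟩
  have hP : PowerSeries.C (φ b'⁻¹) * Y ∈ (PowerSeries.map φ).range := by
    apply anr_root_mem_range φ _ _ m hm
    · rw [mul_pow]
      exact mul_mem (pow_mem (hC _) m) hYr
    · rw [map_mul, constantCoeff_C, ← hb', ← map_mul, inv_mul_cancel₀ hb'0, map_one]
  have hYmem : Y ∈ (PowerSeries.map φ).range := by
    have h1 : Y = PowerSeries.C (φ b') * (PowerSeries.C (φ b'⁻¹) * Y) := by
      rw [← mul_assoc, ← map_mul, ← map_mul, mul_inv_cancel₀ hb'0, map_one, map_one, one_mul]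
    rw [h1]
    exact mul_mem (hC _) hP
  obtain ⟨Y', hY'⟩ := hYmem
  refine ⟨(HahnSeries.single y.order 1 : LaurentSeries K) * HahnSeries.ofPowerSeries ℤ K Y', ?_⟩
  rw [map_mul, coeffMap_single, map_one, coeffMap_ofPowerSeries, hY', hyY]

/-- **AN-ROOT.** -/
theorem exists_iotaL_eq_of_pow_eq {m : ℕ} (hm : 0 < m) (y : LaurentSeries ℂ)
    (s : LaurentSeries Kb) (h : y ^ m = iotaL s) : ∃ t : LaurentSeries Kb, iotaL t = y ∧ t ^ m = s := by
  obtain ⟨t, ht⟩ := exists_coeffMap_eq_of_pow_eq iota (m := m) (by exact_mod_cast hm.ne') y s h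
  refine ⟨t, ht, iotaL_injective ?_⟩
  rw [map_pow, ← h]
  congr 1

end Fermat.Agent.S29
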