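import Fermat.Agent.S29.ANDefs
import Fermat.Agent.S29.ANRoot
import Fermat.Agent.GR.FormalHecke
import Fermat.Agent.S28.NormForm

/-!
# S29 [AN], piece BR: the `q`-expansion of the multiplicative Hecke operator

`qLf (TTm ℓ F) = Mop (exp (2πi/ℓ)) ℓ (qLf F)` for `F` holomorphic, `1`-periodic and bounded at `i∞`.
-/

set_option autoImplicit false
set_option linter.unusedSectionVars false

namespace Fermat.Agent.S29

open UpperHalfPlane ModularForm Filter Topology ModularCurve Function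
open Fermat.Agent.S23 Fermat.Agent.S24 Fermat.Agent.S28 Fermat.Agent.S28.NormForm
open Fermat.Agent.S28.Core Fermat.Agent.GR
open scoped MatrixGroups Manifold ModularForm Real

local notation "𝕢" => Periodic.qParam

theorem br_periodic_iff {F : ℍ → ℂ} :
    Periodic (F ∘ ofComplex) 1 ↔ ∀ z : ℍ, F ((1 : ℝ) +ᵥ z) = F z := by
  constructor
  · intro h z
    have h1 := h (z : ℂ)
    have h2 : ((z : ℂ) + 1) = (((1 : ℝ) +ᵥ z : ℍ) : ℂ) := by
      rw [coe_vadd]; push_cast; ring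
    rw [h2] at h1
    simpa only [comp_apply, ofComplex_apply] using h1
  · intro h w
    by_cases hw : 0 < w.im
    · have hw' : 0 < (w + 1).im := by simpa using hw
      simp only [comp_apply, ofComplex_apply_of_im_pos hw', ofComplex_apply_of_im_pos hw]
      rw [← h ⟨w, hw⟩]
      congr 1
      apply UpperHalfPlane.ext
      rw [coe_vadd]
      push_cast
      simp [add_comm]
    · have hw1 : (w + 1).im ≤ 0 := by simpa using hw
      have hw0 : w.im ≤ 0 := not_lt.mp hw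
      simp only [comp_apply, ofComplex_apply_eq_of_im_nonpos hw1 hw0]

theorem br_good_iff {F : ℍ → ℂ} : Good 1 F ↔ F ∈ Nice :=
  ⟨fun h => ⟨h.per, h.holo, h.bdd⟩, fun h => ⟨h.1, h.2.1, h.2.2⟩⟩

theorem br_hasSum {F : ℍ → ℂ} (hF : F ∈ Nice) (τ : ℍ) :
    HasSum (fun m ↦ (qExpansion 1 F).coeff m • 𝕢 1 τ ^ m) (F τ) :=
  UpperHalfPlane.hasSum_qExpansion one_pos hF.1 hF.2.1 hF.2.2 τ

variable (ℓ : ℕ) [NeZero ℓ]

/-- `z ↦ F (ℓ z)` -/
noncomputable def brLev (F : ℍ → ℂ) : ℍ → ℂ := fun z => F (heckeDiagMatrix ℓ • z)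

/-- `z ↦ ∏_{j < ℓ} F ((z + j) / ℓ)` -/
noncomputable def brP (F : ℍ → ℂ) : ℍ → ℂ := fun z => ∏ j ∈ Finset.range ℓ, F (heckeMatrix ℓ j • z)

/-- `z ↦ F (z + j / ℓ)` -/
noncomputable def brSh (j : ℕ) (F : ℍ → ℂ) : ℍ → ℂ :=
  fun z => F (heckeMatrix ℓ j • heckeDiagMatrix ℓ • z)

variable {ℓ} {F : ℍ → ℂ}

theorem br_mdiff_comp (hF : MDiff F) {g : GL (Fin 2) ℝ} (hg : 0 < g.det.val) :
    MDiff (fun z : ℍ => F (g • z)) :=
  hF.comp (mdifferentiable_smul hg)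

theorem br_qParam_diag (τ : ℍ) :
    𝕢 1 ((heckeDiagMatrix ℓ • τ : ℍ) : ℂ) = (𝕢 1 τ) ^ ℓ := by
  rw [coe_heckeDiagMatrix_smul (NeZero.ne ℓ), Periodic.qParam, Periodic.qParam,
    ← Complex.exp_nat_mul]
  congr 1
  ring

theorem br_qParam_sh (j : ℕ) (τ : ℍ) :
    𝕢 1 ((heckeMatrix ℓ j • heckeDiagMatrix ℓ • τ : ℍ) : ℂ) = 𝕢 1 τ * ((zetaC ℓ : ℂ) ^ j) := by
  have hp' : (ℓ : ℂ) ≠ 0 := by exact_mod_cast NeZero.ne ℓ
  rw [coe_heckeMatrix_smul (NeZero.ne ℓ), coe_heckeDiagMatrix_smul (NeZero.ne ℓ), Periodic.qParam,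
    Periodic.qParam, zetaC, Units.val_mk0, ← Complex.exp_nat_mul, ← Complex.exp_add]
  congr 1
  push_cast
  field_simp

theorem br_mdiff_lev (hF : F ∈ Nice) : MDiff (brLev ℓ F) :=
  br_mdiff_comp hF.2.1 (det_heckeDiagMatrix_pos ℓ)

theorem br_hasSum_lev (hF : F ∈ Nice) (τ : ℍ) :
    HasSum (fun n ↦ ((qExpansion 1 F).expand ℓ (NeZero.ne ℓ)).coeff n • 𝕢 1 τ ^ n)
      (brLev ℓ F τ) :=
  hasSum_expand _ ℓ _ _ _ (by rw [← br_qParam_diag]; exact br_hasSum hF _)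

theorem brLev_mem (hF : F ∈ Nice) : brLev ℓ F ∈ Nice :=
  br_good_iff.1 (good_of_hasSum one_pos (br_mdiff_lev hF) (br_hasSum_lev hF))

theorem qExpansion_brLev (hF : F ∈ Nice) :
    qExpansion 1 (brLev ℓ F) = (qExpansion 1 F).expand ℓ (NeZero.ne ℓ) :=
  qExpansion_eq_of_hasSum one_pos (br_mdiff_lev hF) (br_hasSum_lev hF)

theorem br_mdiff_sh (hF : F ∈ Nice) (j : ℕ) : MDiff (brSh ℓ j F) :=
  (br_mdiff_comp hF.2.1 (det_heckeMatrix_pos ℓ j)).comp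
    (mdifferentiable_smul (det_heckeDiagMatrix_pos ℓ))

theorem br_hasSum_sh (hF : F ∈ Nice) (j : ℕ) (τ : ℍ) :
    HasSum (fun n ↦ (PowerSeries.rescale ((zetaC ℓ : ℂ) ^ j) (qExpansion 1 F)).coeff n • 𝕢 1 τ ^ n)
      (brSh ℓ j F τ) :=
  hasSum_rescale _ _ _ _ (by rw [← br_qParam_sh]; exact br_hasSum hF _)

theorem brSh_mem (hF : F ∈ Nice) (j : ℕ) : brSh ℓ j F ∈ Nice :=
  br_good_iff.1 (good_of_hasSum one_pos (br_mdiff_sh hF j) (br_hasSum_sh hF j))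

theorem qExpansion_brSh (hF : F ∈ Nice) (j : ℕ) :
    qExpansion 1 (brSh ℓ j F) = PowerSeries.rescale ((zetaC ℓ : ℂ) ^ j) (qExpansion 1 F) :=
  qExpansion_eq_of_hasSum one_pos (br_mdiff_sh hF j) (br_hasSum_sh hF j)

theorem br_tendsto_hecke (j : ℕ) :
    Tendsto (fun z : ℍ => heckeMatrix ℓ j • z) atImInfty atImInfty := by
  have hℓ : (0 : ℝ) < ℓ := by exact_mod_cast Nat.pos_of_ne_zero (NeZero.ne ℓ)
  rw [atImInfty, tendsto_comap_iff]
  have h1 : (im ∘ fun z : ℍ => heckeMatrix ℓ j • z) = fun z : ℍ => z.im / ℓ := by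
    funext z
    have h2 := congrArg Complex.im (coe_heckeMatrix_smul (NeZero.ne ℓ) j z)
    simp only [comp_apply]
    rw [← coe_im, h2]
    have h3 : (((z : ℂ) + j) / (ℓ : ℂ)) = (((z : ℂ) + j) / ((ℓ : ℝ) : ℂ)) := by push_cast; rfl
    rw [h3, Complex.div_ofReal_im]
    simp
  rw [h1]
  exact (tendsto_comap (f := im) (x := atTop)).atTop_div_const hℓ

theorem brP_mem (hF : F ∈ Nice) : brP ℓ F ∈ Nice := by
  refine ⟨?_, ?_, ?_⟩
  · rw [br_periodic_iff]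
    intro z
    have hper := br_periodic_iff.1 hF.1
    have hp' : (ℓ : ℂ) ≠ 0 := by exact_mod_cast NeZero.ne ℓ
    have h1 : ∀ j : ℕ, heckeMatrix ℓ j • ((1 : ℝ) +ᵥ z) = heckeMatrix ℓ (j + 1) • z := by
      intro j
      apply UpperHalfPlane.ext
      rw [coe_heckeMatrix_smul (NeZero.ne ℓ), coe_heckeMatrix_smul (NeZero.ne ℓ), coe_vadd]
      push_cast
      ring
    have h2 : heckeMatrix ℓ ℓ • z = (1 : ℝ) +ᵥ (heckeMatrix ℓ 0 • z) := by
      apply UpperHalfPlane.ext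
      rw [coe_vadd, coe_heckeMatrix_smul (NeZero.ne ℓ), coe_heckeMatrix_smul (NeZero.ne ℓ)]
      push_cast
      field_simp
      ring
    simp only [brP, h1]
    obtain ⟨k, hk⟩ : ∃ k, ℓ = k + 1 := Nat.exists_eq_succ_of_ne_zero (NeZero.ne ℓ)
    have h3 : F (heckeMatrix ℓ (k + 1) • z) = F (heckeMatrix ℓ 0 • z) := by
      rw [← hk, h2, hper]
    have h4 : ∀ g : ℕ → ℂ, g (k + 1) = g 0 →
        ∏ j ∈ Finset.range (k + 1), g (j + 1) = ∏ j ∈ Finset.range (k + 1), g j := by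
      intro g hg
      rw [Finset.prod_range_succ, Finset.prod_range_succ', hg]
    have h5 := h4 (fun j => F (heckeMatrix ℓ j • z)) h3
    rw [← hk] at h5
    exact h5
  · have h1 : brP ℓ F = ∏ j ∈ Finset.range ℓ, fun z : ℍ => F (heckeMatrix ℓ j • z) := by
      funext z
      simp [brP, Finset.prod_apply]
    rw [h1]
    exact MDifferentiable.prod (t := Finset.range ℓ)
      (fun j _ => br_mdiff_comp hF.2.1 (det_heckeMatrix_pos ℓ j))
  · have h1 : brP ℓ F = ∏ j ∈ Finset.range ℓ, fun z : ℍ => F (heckeMatrix ℓ j • z) := by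
      funext z
      simp [brP, Finset.prod_apply]
    rw [h1]
    exact Filter.BoundedAtFilter.prod (s := Finset.range ℓ)
      fun j _ => hF.2.2.comp_tendsto (br_tendsto_hecke j)

theorem brLev_brP (F : ℍ → ℂ) : brLev ℓ (brP ℓ F) = ∏ j ∈ Finset.range ℓ, brSh ℓ j F := by
  funext z
  simp [brLev, brP, brSh, Finset.prod_apply]

theorem br_TTm_eq (F : ℍ → ℂ) : TTm ℓ F = brP ℓ F * brLev ℓ F := rfl

theorem TTm_mem_Nice (hF : F ∈ Nice) : TTm ℓ F ∈ Nice := by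
  rw [br_TTm_eq]
  exact mul_mem (brP_mem hF) (brLev_mem hF)

theorem qLf_brLev (hF : F ∈ Nice) : qLf (brLev ℓ F) = qExpand ℂ ℓ (qLf F) := by
  rw [qLf, qExpansion_brLev hF]
  exact ops_expand ℓ _

theorem qLf_brP (hF : F ∈ Nice) : qLf (brP ℓ F) = Uop ℓ (Pop (zetaC ℓ) ℓ (qLf F)) := by
  have h1 : qExpand ℂ ℓ (qLf (brP ℓ F)) = Pop (zetaC ℓ) ℓ (qLf F) := by
    rw [← qLf_brLev (brP_mem hF), brLev_brP, qLf, UpperHalfPlane.qExpansion_prod _
      (fun j _ => Nice.analyticAt (brSh_mem hF j)), map_prod, Pop]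
    refine Finset.prod_congr rfl fun j _ => ?_
    rw [qExpansion_brSh hF, ← Units.val_pow_eq_pow_val]
    exact ops_rescale _ _
  rw [← h1, Uop_qExpand]

/-- **AN-BR.** -/
theorem qLf_TTm_zetaC (hF : F ∈ Nice) : qLf (TTm ℓ F) = Mop (zetaC ℓ) ℓ (qLf F) := by
  rw [br_TTm_eq, qLf_mul (brP_mem hF) (brLev_mem hF), qLf_brP hF, qLf_brLev hF, Mop, mul_comm]

/-- the primitive `ℓ`-th root of unity of `ℚ̄` mapping to `exp (2πi/ℓ)`. -/
theorem exists_zetaKb (ℓ : ℕ) [NeZero ℓ] :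
    ∃ ζ : Kbˣ, IsPrimitiveRoot ζ ℓ ∧ Units.map (iota : Kb →* ℂ) ζ = zetaC ℓ := by
  have h1 : ((zetaC ℓ : ℂˣ) : ℂ) ^ ℓ = iota 1 := by
    rw [map_one, ← Units.val_pow_eq_pow_val, (isPrimitiveRoot_zetaC ℓ).pow_eq_one, Units.val_one]
  obtain ⟨b, hb⟩ := anr_exists_of_pow_eq iota (NeZero.ne ℓ) _ 1 h1
  have hb0 : b ≠ 0 := by
    rintro rfl
    rw [map_zero] at hb
    exact (zetaC ℓ).ne_zero hb.symm
  have hmap : Units.map (iota : Kb →* ℂ) (Units.mk0 b hb0) = zetaC ℓ := by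
    apply Units.ext
    simpa using hb
  refine ⟨Units.mk0 b hb0, ?_, hmap⟩
  have hinj : Function.Injective (Units.map (iota : Kb →* ℂ)) :=
    Units.map_injective iota_injective
  refine IsPrimitiveRoot.of_map_of_injective (f := Units.map (iota : Kb →* ℂ)) ?_ hinj
  rw [hmap]
  exact isPrimitiveRoot_zetaC ℓ

theorem iotaL_Mop {ζ : Kbˣ} (hζ : Units.map (iota : Kb →* ℂ) ζ = zetaC ℓ) (s : LaurentSeries Kb) :
    iotaL (Mop ζ ℓ s) = Mop (zetaC ℓ) ℓ (iotaL s) := by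
  rw [← hζ]
  exact coeffMap_Mop iota ζ ℓ s

end Fermat.Agent.S29
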