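import Fermat.Agent.S29.ANDefs
import Fermat.Agent.GR.FormalHecke
import Fermat.Agent.S29.ANBridgeAux

/-!
# S29 [AN], piece BR: the `q`-expansion of the multiplicative Hecke operator
-/

set_option autoImplicit false

namespace Fermat.Agent.S29

open UpperHalfPlane ModularForm Filter Topology CongruenceSubgroup ModularCurve
open Fermat.Agent.S20 Fermat.Agent.S24
open scoped MatrixGroups Manifold ModularForm

/-- **BR.**  For `F` nice (holomorphic, `1`-periodic, bounded at `i∞`; `F(z) = ∑ a_n q^n`):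
`F(ℓ z) = ∑ a_n q^{ℓ n}` (`S24.qLf_lev`-style), `F((z + j)/ℓ) = ∑ a_n ζ^{j n} q^{n/ℓ}`.
To avoid `q^{1/ℓ}`: `G(z) := ∏_{j<ℓ} F((z + j)/ℓ)` is nice, and `G(ℓ z) = ∏_j F(z + j/ℓ)` has `q`-expansion `Pop ζ ℓ (qLf F)`
(`z ↦ F(z + j/ℓ)` has `q`-expansion `scale (ζ^j) (qLf F)`; products: `qLf_mul`), while `qLf (G(ℓ ·)) = qExpand ℓ (qLf G)`; so
`qLf G = Uop ℓ (Pop ζ ℓ (qLf F))` (`Uop_qExpand`). -/
theorem qLf_TTm {ℓ : ℕ} [NeZero ℓ] {F : ℍ → ℂ} (hF : F ∈ Fermat.Agent.S23.Nice) (ζ : ℂˣ)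
    (hζ : (ζ : ℂ) = Complex.exp (2 * Real.pi * Complex.I / ℓ)) :
    qLf (TTm ℓ F) = Fermat.Agent.GR.Mop ζ ℓ (qLf F) := by
  have h : ζ = Fermat.Agent.S28.zetaC ℓ := Units.ext hζ
  rw [h]
  exact qLf_TTm_zetaC hF

end Fermat.Agent.S29
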