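import Fermat.Agent.S29.ANDefs
import Fermat.Agent.S28.NormForm

/-!
# S29 / GR, block [AN], piece HK: the multiplicative Hecke operator on forms with character
-/

set_option autoImplicit false

namespace Fermat.Agent.S29.HK

open UpperHalfPlane ModularForm Filter Topology CongruenceSubgroup ModularCurve
open Fermat.Agent.S20 Fermat.Agent.S24
open scoped MatrixGroups Manifold ModularForm
open P2MW.S_ModularForm_heckeT_slash_eq_self_of_mem_Gamma0.ModularForm.HeckeSlashInvariance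
open Matrix.SpecialLinearGroup

variable {ℓ : ℕ} [Fact ℓ.Prime]

/-- the product of the slashes `E ∣[k] δ_x`, `x ∈ P¹(𝔽_ℓ)`. -/
noncomputable def PS (ℓ : ℕ) [Fact ℓ.Prime] (k : ℤ) (E : ℍ → ℂ) : ℍ → ℂ :=
  ∏ x : OnePoint (ZMod ℓ), E ∣[k] heckeRep ℓ x

theorem l_ne_zero : ℓ ≠ 0 := (Fact.out : ℓ.Prime).ne_zero

theorem lC_ne_zero : (ℓ : ℂ) ≠ 0 := by exact_mod_cast (l_ne_zero (ℓ := ℓ))

omit [Fact ℓ.Prime] in
theorem σ_heckeRep (x : OnePoint (ZMod ℓ)) : UpperHalfPlane.σ (heckeRep ℓ x) = .refl ℝ ℂ := by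
  induction x using OnePoint.rec with
  | infty => rw [heckeRep_infty, σ_heckeDiagMatrix]
  | coe j => rw [heckeRep_coe, σ_heckeMatrix]

theorem PS_apply (k : ℤ) (E : ℍ → ℂ) (z : ℍ) :
    PS ℓ k E z = ((ℓ : ℂ) ^ (k - 1) * ((ℓ : ℂ)⁻¹) ^ ℓ) * TTm ℓ E z := by
  have h1 : PS ℓ k E z = ∏ x : Option (ZMod ℓ), (E ∣[k] heckeRep ℓ x) z := by
    rw [PS, Finset.prod_apply]
    rfl
  rw [h1, Fintype.prod_option]
  have h2 : (E ∣[k] heckeRep ℓ (none : Option (ZMod ℓ))) z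
      = (ℓ : ℂ) ^ (k - 1) * E (heckeDiagMatrix ℓ • z) :=
    slash_heckeDiagMatrix_apply k l_ne_zero E z
  have h3 : ∀ j : ZMod ℓ, (E ∣[k] heckeRep ℓ (some j : Option (ZMod ℓ))) z
      = (ℓ : ℂ)⁻¹ * E (heckeMatrix ℓ j.val • z) := fun j =>
    slash_heckeMatrix_apply k l_ne_zero j.val E z
  rw [h2]
  simp_rw [h3]
  rw [Finset.prod_mul_distrib, Finset.prod_const, Finset.card_univ, ZMod.card, TTm,
    Fermat.Agent.S28.NormForm.prod_range_eq_prod_zmod ℓ (fun j => E (heckeMatrix ℓ j • z))]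
  ring

theorem TTm_eq (k : ℤ) (E : ℍ → ℂ) :
    TTm ℓ E = ((ℓ : ℂ) ^ (1 - k) * (ℓ : ℂ) ^ ℓ) • PS ℓ k E := by
  funext z
  rw [Pi.smul_apply, smul_eq_mul, PS_apply, ← mul_assoc]
  have h : ((ℓ : ℂ) ^ (1 - k) * (ℓ : ℂ) ^ ℓ) * ((ℓ : ℂ) ^ (k - 1) * ((ℓ : ℂ)⁻¹) ^ ℓ) = 1 := by
    have h1 : (ℓ : ℂ) ^ (1 - k) * (ℓ : ℂ) ^ (k - 1) = 1 := by
      rw [← zpow_add₀ lC_ne_zero]; simp
    have h2 : (ℓ : ℂ) ^ ℓ * ((ℓ : ℂ)⁻¹) ^ ℓ = 1 := by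
      rw [← mul_pow, mul_inv_cancel₀ lC_ne_zero, one_pow]
    calc _ = ((ℓ : ℂ) ^ (1 - k) * (ℓ : ℂ) ^ (k - 1)) * ((ℓ : ℂ) ^ ℓ * ((ℓ : ℂ)⁻¹) ^ ℓ) := by ring
      _ = 1 := by rw [h1, h2, one_mul]
  rw [h, one_mul]

theorem PS_mdiff (k : ℤ) {E : ℍ → ℂ} (hE : MDiff E) : MDiff (PS ℓ k E) :=
  MDifferentiable.prod (t := Finset.univ) (fun _ _ => hE.slash k _)

/-- slash of the product by `g ∈ SL₂(ℤ)`. -/
theorem PS_slash (k : ℤ) (E : ℍ → ℂ) (g : SL(2, ℤ)) (g' : OnePoint (ZMod ℓ) → SL(2, ℤ))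
    (hg' : ∀ x, heckeRep ℓ x * mapGL ℝ g = mapGL ℝ (g' x) * heckeRep ℓ (redMatrix ℓ g • x)) :
    PS ℓ k E ∣[k * ((ℓ : ℤ) + 1)] g
      = ∏ x : OnePoint (ZMod ℓ), (E ∣[k] g' x) ∣[k] heckeRep ℓ (redMatrix ℓ g • x) := by
  change PS ℓ k E ∣[k * ((ℓ : ℤ) + 1)] (mapGL ℝ g) = _
  rw [PS, ← Fermat.Agent.S28.NormForm.card_univ_onePoint, prod_slash]
  have hdet : |(mapGL ℝ g).det.val| = 1 := by simp
  rw [hdet, one_zpow, one_smul]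
  refine Finset.prod_congr rfl fun x _ => ?_
  rw [← SlashAction.slash_mul, hg' x, SlashAction.slash_mul]
  rfl

theorem exists_g' (g : SL(2, ℤ)) : ∃ g' : OnePoint (ZMod ℓ) → SL(2, ℤ),
    ∀ x, heckeRep ℓ x * mapGL ℝ g = mapGL ℝ (g' x) * heckeRep ℓ (redMatrix ℓ g • x) := by
  have := fun x => heckeRep_mul (p := ℓ) (N := 1)
    (fun h => (Fact.out : ℓ.Prime).one_lt.ne' (Nat.dvd_one.mp h)) g (by simp) x
  choose g' _ hg' using this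
  exact ⟨g', hg'⟩

theorem exists_g'_Gamma0 {N : ℕ} (hN : ¬ ℓ ∣ N) (g : Gamma0 N) :
    ∃ g' : OnePoint (ZMod ℓ) → Gamma0 N,
    ∀ x, heckeRep ℓ x * mapGL ℝ (g : SL(2, ℤ))
      = mapGL ℝ (g' x : SL(2, ℤ)) * heckeRep ℓ (redMatrix ℓ (g : SL(2, ℤ)) • x) := by
  have hcN : (N : ℤ) ∣ (g : SL(2, ℤ)) 1 0 :=
    (ZMod.intCast_zmod_eq_zero_iff_dvd _ _).mp (Gamma0_mem.mp g.2)
  have := fun x => heckeRep_mul (p := ℓ) hN (g : SL(2, ℤ)) hcN x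
  choose g' h1 hg' using this
  exact ⟨fun x => ⟨g' x, Gamma0_mem.mpr ((ZMod.intCast_zmod_eq_zero_iff_dvd _ _).mpr (h1 x))⟩, hg'⟩

theorem PS_bdd (k : ℤ) {E : ℍ → ℂ} (hE : ∀ g : SL(2, ℤ), IsBoundedAtImInfty (E ∣[k] g))
    (g : SL(2, ℤ)) : IsBoundedAtImInfty (PS ℓ k E ∣[k * ((ℓ : ℤ) + 1)] g) := by
  obtain ⟨g', hg'⟩ := exists_g' (ℓ := ℓ) g
  rw [PS_slash k E g g' hg']
  exact Filter.BoundedAtFilter.prod (s := Finset.univ) fun x _ =>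
    (hE (g' x)).slash k (Fermat.Agent.S28.NormForm.heckeRep_one_zero ℓ _)

theorem PS_char {N : ℕ} (hN : ¬ ℓ ∣ N) (k : ℤ) {E : ℍ → ℂ} {χ ψ : Gamma0 N →* ℂˣ}
    (hE : ∀ g : Gamma0 N, E ∣[k] (g : SL(2, ℤ)) = (χ g : ℂ) • E) (hψ : IsHeckeChar N ℓ χ ψ)
    (g : Gamma0 N) :
    PS ℓ k E ∣[k * ((ℓ : ℤ) + 1)] (g : SL(2, ℤ)) = (ψ g : ℂ) • PS ℓ k E := by
  obtain ⟨g', hg'⟩ := exists_g'_Gamma0 (ℓ := ℓ) hN g
  rw [PS_slash k E g (fun x => (g' x : SL(2, ℤ))) hg', hψ g g' hg']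
  have h1 : ∀ x, (E ∣[k] (g' x : SL(2, ℤ))) ∣[k] heckeRep ℓ (redMatrix ℓ (g : SL(2, ℤ)) • x)
      = (χ (g' x) : ℂ) • (E ∣[k] heckeRep ℓ (redMatrix ℓ (g : SL(2, ℤ)) • x)) := by
    intro x
    rw [hE (g' x), ModularForm.smul_slash, σ_heckeRep]
    rfl
  simp_rw [h1]
  rw [Finset.prod_smul, Units.coe_prod]
  congr 1
  exact Equiv.prod_comp (MulAction.toPerm (redMatrix ℓ (g : SL(2, ℤ))))
    (fun x ↦ E ∣[k] heckeRep ℓ x)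

/-- **HK1** (unbundled). -/
theorem TTm_core {N : ℕ} (hN : ¬ ℓ ∣ N) (k : ℤ) {E : ℍ → ℂ} {χ ψ : Gamma0 N →* ℂˣ}
    (hE1 : MDiff E) (hE2 : ∀ g : Gamma0 N, E ∣[k] (g : SL(2, ℤ)) = (χ g : ℂ) • E)
    (hE3 : ∀ g : SL(2, ℤ), IsBoundedAtImInfty (E ∣[k] g)) (hψ : IsHeckeChar N ℓ χ ψ) :
    MDiff (TTm ℓ E) ∧
      (∀ g : Gamma0 N, TTm ℓ E ∣[k * ((ℓ : ℤ) + 1)] (g : SL(2, ℤ)) = (ψ g : ℂ) • TTm ℓ E) ∧
      ∀ g : SL(2, ℤ), IsBoundedAtImInfty (TTm ℓ E ∣[k * ((ℓ : ℤ) + 1)] g) := by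
  rw [TTm_eq k E]
  refine ⟨(PS_mdiff k hE1).const_smul _, fun g => ?_, fun g => ?_⟩
  · rw [ModularForm.SL_smul_slash, PS_char hN k hE2 hψ g, smul_comm]
  · rw [ModularForm.SL_smul_slash]
    exact (PS_bdd k hE3 g).const_smul_left _

/-! ### non vanishing -/

theorem comp_smul_mdiff (δ : GL (Fin 2) ℝ) (hδ : 0 < δ.det.val) {E : ℍ → ℂ} (hE : MDiff E) :
    MDiff (fun z : ℍ => E (δ • z)) := by
  have h1 : MDiff (E ∣[(0 : ℤ)] δ) := hE.slash 0 δ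
  have h2 : (fun z : ℍ => E (δ • z)) = ((|δ.det.val| : ℝ) : ℂ) • (E ∣[(0 : ℤ)] δ) := by
    funext z
    have hσ : UpperHalfPlane.σ δ = .refl ℝ ℂ := by rw [UpperHalfPlane.σ, if_pos hδ]
    have h3 : ((|δ.det.val| : ℝ) : ℂ) ≠ 0 := by
      rw [abs_of_pos hδ]
      exact_mod_cast hδ.ne'
    rw [Pi.smul_apply, ModularForm.slash_apply, hσ]
    simp only [ContinuousAlgEquiv.refl_apply, zero_sub, neg_zero, zpow_zero, mul_one, smul_eq_mul,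
      zpow_neg_one]
    field_simp
  rw [h2]
  exact h1.const_smul _

theorem comp_smul_ne_zero (δ : GL (Fin 2) ℝ) {E : ℍ → ℂ} (hE0 : E ≠ 0) :
    (fun z : ℍ => E (δ • z)) ≠ 0 := by
  intro h
  apply hE0
  funext w
  have := congrFun h (δ⁻¹ • w)
  simpa using this

theorem prod_ne_zero_of_mdiff {ι : Type} (s : Finset ι) (F : ι → ℍ → ℂ)
    (h1 : ∀ i ∈ s, MDiff (F i)) (h0 : ∀ i ∈ s, F i ≠ 0) : ∏ i ∈ s, F i ≠ 0 := by
  classical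
  induction s using Finset.induction_on with
  | empty =>
    rw [Finset.prod_empty]
    exact one_ne_zero
  | insert a t ha ih =>
    rw [Finset.prod_insert ha]
    intro h
    have hm : MDiff (∏ i ∈ t, F i) :=
      MDifferentiable.prod (t := t) (fun i hi => h1 i (Finset.mem_insert_of_mem hi))
    rcases eq_zero_or_eq_zero_of_mul_eq_zero (h1 a (Finset.mem_insert_self a t)) hm h with h | h
    · exact h0 a (Finset.mem_insert_self a t) h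
    · exact ih (fun i hi => h1 i (Finset.mem_insert_of_mem hi))
        (fun i hi => h0 i (Finset.mem_insert_of_mem hi)) h

omit [Fact ℓ.Prime] in
theorem TTm_ne_zero_aux (_hℓ : ℓ ≠ 0) {E : ℍ → ℂ} (hE : MDiff E) (hE0 : E ≠ 0) :
    TTm ℓ E ≠ 0 := by
  have h1 : TTm ℓ E = (∏ j ∈ Finset.range ℓ, fun z : ℍ => E (heckeMatrix ℓ j • z))
      * fun z : ℍ => E (heckeDiagMatrix ℓ • z) := by
    funext z
    rw [TTm, Pi.mul_apply, Finset.prod_apply]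
  rw [h1]
  intro h
  have hm : ∀ j ∈ Finset.range ℓ, MDiff (fun z : ℍ => E (heckeMatrix ℓ j • z)) := fun j _ =>
    comp_smul_mdiff _ (det_heckeMatrix_pos ℓ j) hE
  rcases eq_zero_or_eq_zero_of_mul_eq_zero (MDifferentiable.prod (t := Finset.range ℓ) hm)
    (comp_smul_mdiff _ (det_heckeDiagMatrix_pos ℓ) hE) h with h | h
  · exact prod_ne_zero_of_mdiff _ _ hm (fun j _ => comp_smul_ne_zero _ hE0) h
  · exact comp_smul_ne_zero _ hE0 h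

end Fermat.Agent.S29.HK
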