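import Fermat.Agent.S29.ANKum
import Fermat.Agent.S29.ANHeckeAux

/-!
# S29 [AN], piece HK: the multiplicative Hecke operator on forms with character
-/

set_option autoImplicit false

namespace Fermat.Agent.S29

open UpperHalfPlane ModularForm Filter Topology CongruenceSubgroup ModularCurve
open Fermat.Agent.S20 Fermat.Agent.S24
open scoped MatrixGroups Manifold ModularForm

variable {N : ℕ} [NeZero N] {m : ℕ} {χ ψ : Gamma0 N →* ℂˣ} {u : FN N} {k : ℤ} {E D : ℍ → ℂ}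

/-- **HK-a.**  `TTm ℓ E = c ∏_x E ∣[k] δ_x`, `δ_x = heckeRep ℓ x`, `x ∈ ℙ¹(𝔽_ℓ)`, `c = ℓ^{..} ≠ 0` a constant
(`(E ∣[k] [1,j;0,ℓ])(z) = ℓ^{k-1} ℓ^{-k} E((z+j)/ℓ)`, `(E ∣[k] [ℓ,0;0,1])(z) = ℓ^{k-1} E(ℓ z)`).
* holomorphic: each factor is (`z ↦ δ • z` is holomorphic; see Prelude `Thm_ModularForm_mdifferentiable_heckeT`).
* character: for `g ∈ Γ₀(N)`, `δ_x g = g'_x δ_{π x}` (`heckeRep_mul`, `π = redMatrix ℓ g`), so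
  `(∏_x E ∣ δ_x) ∣ g = ∏_x E ∣ g'_x ∣ δ_{π x} = (∏_x χ(g'_x)) ∏_x E ∣ δ_x` (model: `S16/CohEquiv.lean IsIntEquiv.sum_of / .TT`).
* bounded at the cusps: for `g ∈ SL₂(ℤ)`, `δ_x g = g' [a,b;0,d]` with `g' ∈ SL₂(ℤ)`, `a d = ℓ` (Hermite normal form), and
  `(E ∣ g') ∣ [a,b;0,d]` is bounded (see Prelude `Thm_ModularForm_isBoundedAtImInfty_heckeT`, `S28/NormForm.lean`). -/
theorem TTm_mem_Mchi {ℓ : ℕ} [Fact ℓ.Prime] (hℓN : ¬ ℓ ∣ N) (hψ : IsHeckeChar N ℓ χ ψ)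
    (hE : E ∈ Mchi (Gamma0 N) χ k) : TTm ℓ E ∈ Mchi (Gamma0 N) ψ (k * (ℓ + 1)) :=
  HK.TTm_core hℓN k hE.1 hE.2.1 hE.2.2 hψ

/-- the trivial character is its own transfer. -/
theorem isHeckeChar_one (ℓ : ℕ) [Fact ℓ.Prime] : IsHeckeChar N ℓ 1 1 := by
  intro g g' _
  simp

theorem TTm_mem_MFs {ℓ : ℕ} [Fact ℓ.Prime] (hℓN : ¬ ℓ ∣ N) (hD : D ∈ MFs (Gamma0 N) k) :
    TTm ℓ D ∈ MFs (Gamma0 N) (k * (ℓ + 1)) := by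
  rw [← Mchi_one] at hD ⊢
  exact TTm_mem_Mchi hℓN (isHeckeChar_one ℓ) hD

omit [NeZero N] in
/-- a finite product of nonzero holomorphic functions on `ℍ` is nonzero (identity theorem; each factor `z ↦ E (δ • z)` is
holomorphic and nonzero because `δ •` is a bijection of `ℍ`). -/
theorem TTm_ne_zero {ℓ : ℕ} (hℓ : ℓ ≠ 0) (hE : MDiff E) (hE0 : E ≠ 0) : TTm ℓ E ≠ 0 :=
  HK.TTm_ne_zero_aux hℓ hE hE0

omit [NeZero N] in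
theorem TTm_mul (ℓ : ℕ) (F G : ℍ → ℂ) : TTm ℓ (F * G) = TTm ℓ F * TTm ℓ G := by
  funext z
  simp only [TTm, Pi.mul_apply, Finset.prod_mul_distrib]
  ring

omit [NeZero N] in
theorem TTm_pow (ℓ : ℕ) (F : ℍ → ℂ) (n : ℕ) : TTm ℓ (F ^ n) = TTm ℓ F ^ n := by
  funext z
  simp only [TTm, Pi.pow_apply, Finset.prod_pow, mul_pow]

/-- **HK-b.**  Any ALGEBRAIC series `s` with `s = (TTm ℓ E / TTm ℓ D)^m` is a Kummer element of `ψ = T_ℓ χ`.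
(From HK-a, `TTm_ne_zero`, `pow_mem_Mchi` and **Q**.)  In the application `s = Mop ζ ℓ u` (formal multiplicative Hecke operator,
`GR/FormalHecke.lean`), the hypothesis `hs` comes from helper16's bridge `qLf (TTm ℓ F) = Mop (exp (2πi/ℓ)) ℓ (qLf F)` for `F ∈ Nice`. -/
theorem isKumChi_of_TTm {ℓ : ℕ} [Fact ℓ.Prime] (hℓN : ¬ ℓ ∣ N) (hm : 0 < m)
    (hψ : IsHeckeChar N ℓ χ ψ) (hψm : ψ ^ m = 1) (hψpar : IsPar N ψ)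
    (hE : E ∈ Mchi (Gamma0 N) χ k) (hD : D ∈ MFs (Gamma0 N) k) (hE0 : E ≠ 0) (hD0 : D ≠ 0)
    {s : LaurentSeries Kb} (hs : iotaL s * qLf (TTm ℓ D) ^ m = qLf (TTm ℓ E) ^ m) :
    ∃ hs' : s ∈ FN N, IsKumChi N m ψ ⟨s, hs'⟩ := by
  have hℓ0 : ℓ ≠ 0 := (Fact.out : ℓ.Prime).ne_zero
  have hE' := TTm_mem_Mchi hℓN hψ hE
  have hD' := TTm_mem_MFs (ℓ := ℓ) hℓN hD
  have hE0' := TTm_ne_zero hℓ0 hE.1 hE0
  have hD0' := TTm_ne_zero hℓ0 hD.1 hD0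
  have hT : ∃ h : ModularGroup.T ∈ Gamma0 N, ψ ⟨_, h⟩ = 1 :=
    ⟨T_mem_Gamma0 N, hψpar 1 ⟨_, T_mem_Gamma0 N⟩ (by
      rw [inv_one, one_mul, mul_one]
      simp [ModularGroup.T])⟩
  have hEN : TTm ℓ E ∈ Fermat.Agent.S23.Nice := mem_Nice_of_mem_Mchi hT hE'
  have hDN : TTm ℓ D ∈ Fermat.Agent.S23.Nice := mem_Nice_of_mem_MFs_Gamma0 hD'
  have hEm : TTm ℓ E ^ m ∈ MFs (Gamma0 N) (m * (k * (ℓ + 1))) :=
    mem_MFs_of_mem_Mchi hψm (pow_mem_Mchi hE' m)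
  have hDm : TTm ℓ D ^ m ∈ MFs (Gamma0 N) (m * (k * (ℓ + 1))) := by
    have h1 : TTm ℓ D ∈ Mchi (Gamma0 N) 1 (k * (ℓ + 1)) := by rw [Mchi_one]; exact hD'
    have h2 : (1 : Gamma0 N →* ℂˣ) ^ m = 1 := by
      ext g
      simp
    exact mem_MFs_of_mem_Mchi h2 (pow_mem_Mchi h1 m)
  have hDm0 : TTm ℓ D ^ m ≠ 0 := by
    intro h0
    apply hD0'
    have h1 : qLf (TTm ℓ D) ^ m = 0 := by rw [← qLf_pow hDN, h0, qLf_zero]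
    exact (qLf_eq_zero_iff hDN).mp (pow_eq_zero_iff (Nat.pos_iff_ne_zero.mp hm) |>.mp h1)
  have hs' : s ∈ FN N :=
    mem_FN_of_quot N hEm hDm hDm0 (by rw [qLf_pow hDN, qLf_pow hEN]; exact hs)
  exact ⟨hs', hψm, hψpar, _, _, _, hE', hD', hE0', hD0', hs⟩

end Fermat.Agent.S29
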