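import Fermat.Agent.S29.ANDefs
import Fermat.Agent.S22.LatHecke
import Fermat.Agent.S22.LatFG
import Fermat.Agent.S22.LatSep
import Fermat.Agent.S22.Alg
import Fermat.Agent.S21.Parab
import Fermat.Agent.S21.Prim
import Fermat.Prelude.Def_CuspForm_HeckeAlgebra

/-!
# S29 [AN], piece LAT: the lattice `H = Module.Dual ℤ (S22.Lat N 0)` and its characters

`Lat = S22.Lat N 0 ⊆ Module.Dual ℂ S₂(Γ₀(N))` is spanned by the `per N g`.  (For `w = 0` the functional `perL N 0 g v` does not depend on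
`v`: `Gfun 0 J v τ = J 0 τ`.)
-/

set_option autoImplicit false

namespace Fermat.Agent.S29

open UpperHalfPlane ModularForm Filter Topology CongruenceSubgroup ModularCurve
open Fermat.Agent.S20 Fermat.Agent.S24
open scoped MatrixGroups Manifold ModularForm

variable {N : ℕ} [NeZero N]

section aux
open Fermat.Agent.S22

theorem evL_zero_apply (u : ℂ × ℂ) (τ : ℍ) (f : CuspForm (Gamma0 N) (((0 : ℕ) : ℤ) + 2)) :
    evL N 0 u τ f = tower f 0 τ := by
  rw [evL_apply]
  simp [Gfun]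

/-- in weight two the period does not depend on the vector. -/
theorem perL_zero_eq (g : GL (Fin 2) ℝ) (v v' : ℂ × ℂ) : perL N 0 g v = perL N 0 g v' := by
  ext f
  simp only [perL, LinearMap.sub_apply, evL_zero_apply]

omit [NeZero N] in
theorem mapGL_mem_Gamma0 (g : Gamma0 N) :
    Matrix.SpecialLinearGroup.mapGL ℝ (g : SL(2, ℤ)) ∈ (Gamma0 N : Subgroup (GL (Fin 2) ℝ)) :=
  Subgroup.mem_map_of_mem _ g.2

theorem coe_per (g : Gamma0 N) (v : ℂ × ℂ) :
    ((per N g : Lat N 0) : Module.Dual ℂ (CuspForm (Gamma0 N) (((0 : ℕ) : ℤ) + 2))) =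
      perL N 0 (Matrix.SpecialLinearGroup.mapGL ℝ (g : SL(2, ℤ))) v :=
  perL_zero_eq _ _ _

end aux

/-- `perL_mul` + independence of `v`. -/
theorem per_mul (g h : Gamma0 N) : per N (g * h) = per N g + per N h := by
  apply Subtype.ext
  rw [Submodule.coe_add, coe_per _ (0, 1), coe_per g (0, 1),
    coe_per h (Fermat.Agent.S22.act (Matrix.SpecialLinearGroup.mapGL ℝ (g : SL(2, ℤ))) (0, 1))]
  rw [Subgroup.coe_mul, map_mul]
  exact Fermat.Agent.S22.perL_mul (mapGL_mem_Gamma0 g) (mapGL_mem_Gamma0 h) _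

theorem per_one : per N (1 : Gamma0 N) = 0 := by
  have := per_mul (1 : Gamma0 N) 1
  rw [mul_one] at this
  exact left_eq_add.mp this

theorem per_pow (g : Gamma0 N) (n : ℕ) : per N (g ^ n) = n • per N g := by
  induction n with
  | zero => rw [pow_zero, zero_smul, per_one]
  | succ n ih => rw [pow_succ, per_mul, ih, succ_nsmul]

/-- the `per N g` span the lattice. -/
theorem span_range_per : Submodule.span ℤ (Set.range (per N)) = ⊤ := by
  rw [eq_top_iff]
  rintro ⟨l, hl⟩ -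
  induction hl using Submodule.span_induction with
  | mem l hl =>
    obtain ⟨g, ⟨g0, hg0, rfl⟩, v, hv, rfl⟩ := hl
    apply Submodule.subset_span
    refine ⟨⟨g0, hg0⟩, ?_⟩
    apply Subtype.ext
    exact coe_per _ v
  | zero => exact zero_mem _
  | add l₁ l₂ h₁ h₂ ih₁ ih₂ => exact add_mem ih₁ ih₂
  | smul a l h ih => exact Submodule.smul_mem _ a ih

instance instFiniteLat : Module.Finite ℤ (Fermat.Agent.S22.Lat N 0) :=
  Module.Finite.iff_fg.mpr (Fermat.Agent.S22.Lat_fg N 0)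

instance instFreeLat : Module.Free ℤ (Fermat.Agent.S22.Lat N 0) := by
  infer_instance

/-- `Lat` is finitely generated (`S22.Lat_fg`) and torsion free (a subgroup of a `ℂ`-vector space), hence free; so is its dual. -/
instance instFreeHLat : Module.Free ℤ (HLat N) := by
  infer_instance

instance instFiniteHLat : Module.Finite ℤ (HLat N) := by
  infer_instance

theorem per_apply (g : Gamma0 N) (f : CuspForm (Gamma0 N) 2) :
    ((per N g : Fermat.Agent.S22.Lat N 0) :
      Module.Dual ℂ (CuspForm (Gamma0 N) (((0 : ℕ) : ℤ) + 2))) f =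
      periodMap N f (Additive.ofMul g) := by
  rw [Fermat.Agent.S21.periodMap_apply N f g UpperHalfPlane.I]
  show Fermat.Agent.S22.perL N 0 _ _ f = _
  simp only [Fermat.Agent.S22.perL, LinearMap.sub_apply, evL_zero_apply]
  rfl

theorem trace_sq_eq_four_of_conj (a g : SL(2, ℤ)) (h : (a⁻¹ * g * a) 1 0 = 0) :
    (g : Matrix (Fin 2) (Fin 2) ℤ).trace ^ 2 = 4 := by
  have htr : (g : Matrix (Fin 2) (Fin 2) ℤ).trace =
      ((a⁻¹ * g * a : SL(2, ℤ)) : Matrix (Fin 2) (Fin 2) ℤ).trace := by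
    rw [Matrix.SpecialLinearGroup.coe_mul, Matrix.trace_mul_comm, ← Matrix.SpecialLinearGroup.coe_mul,
      mul_inv_cancel_left]
  rw [htr]
  set u := a⁻¹ * g * a with hu
  have hdet := Matrix.SpecialLinearGroup.det_coe u
  rw [Matrix.det_fin_two, h, mul_zero, sub_zero] at hdet
  rw [Matrix.trace_fin_two]
  rcases Int.eq_one_or_neg_one_of_mul_eq_one' hdet with ⟨h1, h2⟩ | ⟨h1, h2⟩ <;> rw [h1, h2] <;> norm_num

/-- periods of parabolic elements (and `± 1`) vanish.
(`S21/Parab.lean`: the period homomorphism of a cusp form is parabolic; or directly: `a⁻¹ g a = ± T^n`, so `g` fixes the cusp `a ∞`;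
`perL N 0 g v f = J(g τ) - J(τ)` for all `τ`, `J` the decaying primitive; let `τ → a ∞`.) -/
theorem per_eq_zero_of_par (a : SL(2, ℤ)) (g : Gamma0 N)
    (h : (a⁻¹ * (g : SL(2, ℤ)) * a) 1 0 = 0) : per N g = 0 := by
  apply Subtype.ext
  refine LinearMap.ext fun f => ?_
  rw [per_apply g f]
  have hp := Fermat.Agent.S21.periodMap_mem_parabolicHoms N f
  rw [Period.mem_parabolicHoms_iff] at hp
  exact hp g (trace_sq_eq_four_of_conj a g h)

/-- `n • per g = per (g^n) = per 1 = 0` in a torsion free group. -/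
theorem per_eq_zero_of_isOfFinOrder (g : Gamma0 N) (h : IsOfFinOrder g) : per N g = 0 := by
  obtain ⟨n, hn, hg⟩ := isOfFinOrder_iff_pow_eq_one.mp h
  have h1 := per_pow g n
  rw [hg, per_one] at h1
  exact (smul_eq_zero_iff_right hn.ne').mp h1.symm

section chi
variable {m : ℕ} {lam lam' : HLat N} {χ χ' : Gamma0 N →* ℂˣ}

theorem exists_isChiOf (m : ℕ) (lam : HLat N) : ∃ χ : Gamma0 N →* ℂˣ, IsChiOf m lam χ := by
  refine ⟨{ toFun := fun g => Units.mk0
              (Complex.exp (2 * Real.pi * Complex.I * (lam (per N g) : ℂ) / (m : ℂ)))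
              (Complex.exp_ne_zero _)
            map_one' := ?_
            map_mul' := ?_ }, fun g => rfl⟩
  · ext
    simp [per_one]
  · intro g h
    ext
    simp only [Units.val_mk0, Units.val_mul, per_mul, map_add, Int.cast_add, ← Complex.exp_add]
    congr 1
    ring

theorem IsChiOf.unique (h : IsChiOf m lam χ) (h' : IsChiOf m lam χ') : χ = χ' := by
  ext g
  rw [h g, h' g]

theorem IsChiOf.pow_eq_one (hm : 0 < m) (h : IsChiOf m lam χ) : χ ^ m = 1 := by
  ext g
  rw [MonoidHom.pow_apply, Units.val_pow_eq_pow_val, h g, ← Complex.exp_nat_mul, MonoidHom.one_apply,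
    Units.val_one]
  have hm' : (m : ℂ) ≠ 0 := Nat.cast_ne_zero.mpr hm.ne'
  rw [← Complex.exp_int_mul_two_pi_mul_I (lam (per N g))]
  congr 1
  field_simp

theorem IsChiOf.eq_one_of_per (h : IsChiOf m lam χ) {g : Gamma0 N} (hg : per N g = 0) :
    χ g = 1 := by
  ext
  rw [h g, hg]
  simp

theorem IsChiOf.isPar (h : IsChiOf m lam χ) : IsPar N χ :=
  fun a g hg => h.eq_one_of_per (per_eq_zero_of_par a g hg)

theorem IsChiOf.tor (h : IsChiOf m lam χ) (g : Gamma0 N) (hg : IsOfFinOrder g) : χ g = 1 :=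
  h.eq_one_of_per (per_eq_zero_of_isOfFinOrder g hg)

theorem IsChiOf.add (h : IsChiOf m lam χ) (h' : IsChiOf m lam' χ') :
    IsChiOf m (lam + lam') (χ * χ') := by
  intro g
  rw [MonoidHom.mul_apply, Units.val_mul, h g, h' g, ← Complex.exp_add, LinearMap.add_apply,
    Int.cast_add]
  congr 1
  ring

theorem IsChiOf.pow {r : ℕ} (hr : 0 < r) (h : IsChiOf (m * r) lam χ) : IsChiOf m lam (χ ^ r) := by
  intro g
  rw [MonoidHom.pow_apply, Units.val_pow_eq_pow_val, h g, ← Complex.exp_nat_mul]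
  have hr' : (r : ℂ) ≠ 0 := Nat.cast_ne_zero.mpr hr.ne'
  congr 1
  rcases Nat.eq_zero_or_pos m with rfl | hm
  · simp
  · have hm' : (m : ℂ) ≠ 0 := Nat.cast_ne_zero.mpr hm.ne'
    push_cast
    field_simp

/-- `exp (2 π i lam(per g)/m) = 1` for all `g` ⟹ `lam (Lat) ⊆ m ℤ` (`span_range_per`) ⟹ `lam = m • lam'`. -/
theorem IsChiOf.eq_smul_of_one (hm : 0 < m) (h : IsChiOf m lam 1) :
    ∃ lam' : HLat N, lam = m • lam' := by
  have hm' : (m : ℂ) ≠ 0 := Nat.cast_ne_zero.mpr hm.ne'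
  have h1 : ∀ g : Gamma0 N, (m : ℤ) ∣ lam (per N g) := by
    intro g
    have h2 := (h g).symm
    rw [MonoidHom.one_apply, Units.val_one, Complex.exp_eq_one_iff] at h2
    obtain ⟨n, hn⟩ := h2
    refine ⟨n, ?_⟩
    have h3 : (2 * (Real.pi : ℂ) * Complex.I) ≠ 0 := Complex.two_pi_I_ne_zero
    have h4 : ((lam (per N g) : ℤ) : ℂ) = (m : ℂ) * (n : ℂ) := by
      have h5 : (2 * (Real.pi : ℂ) * Complex.I) * ((lam (per N g) : ℤ) : ℂ) =
          (2 * (Real.pi : ℂ) * Complex.I) * ((m : ℂ) * (n : ℂ)) := by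
        rw [div_eq_iff hm'] at hn
        linear_combination hn
      exact mul_left_cancel₀ h3 h5
    exact_mod_cast h4
  have h2 : ∀ l : Fermat.Agent.S22.Lat N 0, (m : ℤ) ∣ lam l := by
    intro l
    have hl : l ∈ Submodule.span ℤ (Set.range (per N)) := by
      rw [span_range_per]; trivial
    induction hl using Submodule.span_induction with
    | mem l hl =>
      obtain ⟨g, rfl⟩ := hl
      exact h1 g
    | zero => simp
    | add l₁ l₂ _ _ ih₁ ih₂ => rw [map_add]; exact dvd_add ih₁ ih₂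
    | smul a l _ ih => rw [map_smul]; exact Dvd.dvd.mul_left ih a
  refine ⟨{ toFun := fun l => lam l / (m : ℤ)
            map_add' := fun x y => by rw [map_add, Int.add_ediv_of_dvd_right (h2 y)]
            map_smul' := fun r x => by
              rw [map_smul, smul_eq_mul, RingHom.id_apply, smul_eq_mul,
                Int.mul_ediv_assoc _ (h2 x)] }, ?_⟩
  ext l
  rw [LinearMap.smul_apply, nsmul_eq_mul]
  exact (Int.mul_ediv_cancel' (h2 l)).symm

end chi

section hecke
open Fermat.Agent.S22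

variable (N)

theorem comp_mem_Lat (t : CuspForm.heckeAlgebra N (((0 : ℕ) : ℤ) + 2) (∅ : Set ℕ))
    (l : Lat N 0) : (l : Module.Dual ℂ (CuspForm (Gamma0 N) (((0 : ℕ) : ℤ) + 2))) ∘ₗ
      (t : Module.End ℂ (CuspForm (Gamma0 N) (((0 : ℕ) : ℤ) + 2))) ∈ Lat N 0 :=
  comp_mem_of_mem_adjoin _ (Lat N 0) (Lat_stable N 0 ∅) t t.2 l l.2

/-- `l ↦ l ∘ t` on the period lattice. -/
noncomputable def latComp (t : CuspForm.heckeAlgebra N (((0 : ℕ) : ℤ) + 2) (∅ : Set ℕ)) :
    Lat N 0 →ₗ[ℤ] Lat N 0 where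
  toFun l := ⟨_, comp_mem_Lat N t l⟩
  map_add' l l' := by
    apply Subtype.ext
    simp [LinearMap.add_comp]
  map_smul' r l := by
    apply Subtype.ext
    ext v
    simp

theorem coe_latComp (t : CuspForm.heckeAlgebra N (((0 : ℕ) : ℤ) + 2) (∅ : Set ℕ)) (l : Lat N 0) :
    ((latComp N t l : Lat N 0) : Module.Dual ℂ (CuspForm (Gamma0 N) (((0 : ℕ) : ℤ) + 2))) =
      (l : Module.Dual ℂ (CuspForm (Gamma0 N) (((0 : ℕ) : ℤ) + 2))) ∘ₗ
      (t : Module.End ℂ (CuspForm (Gamma0 N) (((0 : ℕ) : ℤ) + 2))) := rfl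

/-- the action of the Hecke algebra on `H` (weight written as `0 + 2`). -/
noncomputable def actH' : CuspForm.heckeAlgebra N (((0 : ℕ) : ℤ) + 2) (∅ : Set ℕ) →+*
    Module.End ℤ (HLat N) where
  toFun t := LinearMap.lcomp ℤ ℤ (latComp N t)
  map_one' := by
    ext lam l
    simp only [LinearMap.lcomp_apply, Module.End.one_apply]
    congr 1
  map_mul' t t' := by
    ext lam l
    simp only [LinearMap.lcomp_apply, Module.End.mul_apply]
    congr 1
  map_zero' := by
    ext lam l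
    simp only [LinearMap.lcomp_apply, LinearMap.zero_apply]
    have : latComp N 0 l = 0 := by
      apply Subtype.ext
      rw [coe_latComp]
      simp
    rw [this, map_zero]
  map_add' t t' := by
    ext lam l
    simp only [LinearMap.lcomp_apply, LinearMap.add_apply]
    have : latComp N (t + t') l = latComp N t l + latComp N t' l := by
      apply Subtype.ext
      rw [Submodule.coe_add, coe_latComp, coe_latComp, coe_latComp]
      simp [LinearMap.comp_add]
    rw [this, map_add]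

theorem actH'_apply (t : CuspForm.heckeAlgebra N (((0 : ℕ) : ℤ) + 2) (∅ : Set ℕ)) (lam : HLat N)
    (l : Lat N 0) : actH' N t lam l = lam (latComp N t l) := rfl

theorem actH'_injective : Function.Injective (actH' N) := by
  rw [injective_iff_map_eq_zero]
  intro t ht
  apply Subtype.ext
  refine LinearMap.ext fun f => ?_
  apply Lat_sep N 0
  intro l hl
  have h1 : latComp N t ⟨l, hl⟩ = 0 := by
    rw [← Module.forall_dual_apply_eq_zero_iff ℤ]
    intro lam
    rw [← actH'_apply, ht]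
    rfl
  have h2 := congrArg (fun x : Lat N 0 =>
    (x : Module.Dual ℂ (CuspForm (Gamma0 N) (((0 : ℕ) : ℤ) + 2))) f) h1
  exact h2

open P2MW.S_ModularForm_heckeT_slash_eq_self_of_mem_Gamma0.ModularForm.HeckeSlashInvariance in
/-- the transfer formula `per g ∘ T_ℓ = ∑_x per (g'_x)`. -/
theorem latComp_T_per {ℓ : ℕ} [Fact ℓ.Prime] (hℓ : ℓ.Prime) (hℓN : ¬ ℓ ∣ N)
    (g : Gamma0 N) (g' : OnePoint (ZMod ℓ) → Gamma0 N)
    (hmul : ∀ x, heckeRep ℓ x * Matrix.SpecialLinearGroup.mapGL ℝ (g : SL(2, ℤ)) =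
      Matrix.SpecialLinearGroup.mapGL ℝ (g' x : SL(2, ℤ)) *
        heckeRep ℓ (redMatrix ℓ (g : SL(2, ℤ)) • x)) :
    latComp N (CuspForm.heckeAlgebra.T hℓ hℓN (Set.notMem_empty ℓ)) (per N g) =
      ∑ x, per N (g' x) := by
  have hp0 : ℓ ≠ 0 := hℓ.ne_zero
  apply Subtype.ext
  rw [coe_latComp, CuspForm.heckeAlgebra.coe_T, coe_per g (0, 1), AddSubmonoidClass.coe_finsetSum]
  rw [perL_comp_eq_sum (heckeRep ℓ) (D := (ℓ : ℝ)) ?_ (by exact_mod_cast hℓ.pos) ?_ _ ?_
    (mapGL_mem_Gamma0 g) (MulAction.toPerm (redMatrix ℓ (g : SL(2, ℤ))))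
    (fun x => Matrix.SpecialLinearGroup.mapGL ℝ (g' x : SL(2, ℤ)))
    (fun x => mapGL_mem_Gamma0 (g' x)) hmul (0, 1)]
  · exact Finset.sum_congr rfl fun x _ => (coe_per (g' x) _).symm
  · intro x
    induction x using OnePoint.rec with
    | infty => exact val_det_heckeDiagMatrix hp0
    | coe j => exact val_det_heckeMatrix hp0 _
  · intro x
    induction x using OnePoint.rec with
    | infty => exact heckeDiagMatrix_one_zero hp0
    | coe j => exact heckeMatrix_one_zero hp0 _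
  · intro f
    rw [CuspForm.coe_heckeTLin_apply, heckeT_eq_sum_onePoint]

/-- the action of the Hecke algebra on `H`. -/
noncomputable def actH : CuspForm.heckeAlgebra N 2 (∅ : Set ℕ) →+* Module.End ℤ (HLat N) :=
  actH' N

theorem actH_injective : Function.Injective (actH N) := actH'_injective N

variable {N}

theorem IsChiOf.isHeckeChar {ℓ : ℕ} [Fact ℓ.Prime] (hℓ : ℓ.Prime) (hℓN : ¬ ℓ ∣ N) {m : ℕ}
    {lam : HLat N} {χ ψ : Gamma0 N →* ℂˣ} (h : IsChiOf m lam χ)
    (h' : IsChiOf m (actH N (CuspForm.heckeAlgebra.T hℓ hℓN (Set.notMem_empty ℓ)) lam) ψ) :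
    IsHeckeChar N ℓ χ ψ := by
  intro g g' hmul
  ext
  rw [h' g, Units.coe_prod]
  have h1 : actH N (CuspForm.heckeAlgebra.T hℓ hℓN (Set.notMem_empty ℓ)) lam (per N g) =
      ∑ x, lam (per N (g' x)) := by
    rw [← map_sum, ← latComp_T_per N hℓ hℓN g g' hmul]
    rfl
  rw [h1, Finset.prod_congr rfl fun x _ => h (g' x), ← Complex.exp_sum]
  congr 1
  rw [Int.cast_sum, Finset.mul_sum, Finset.sum_div]

end hecke

/-- **The Hecke action on `H`.**  `actH t lam = lam ∘ (l ↦ l ∘ₗ t)`; `l ∘ₗ t ∈ Lat` for `t` in the Hecke algebra by `S22.Lat_stable` +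
`Algebra.adjoin_induction`; it is a ring homomorphism because the Hecke algebra is commutative.
Injective: `actH t = 0` ⟹ `l ∘ₗ t = 0` for all `l ∈ Lat` (`Lat` is free of finite rank, so the dual separates its points) ⟹
`l (t f) = 0` for all `l ∈ Lat` ⟹ `t f = 0` (`S22.Lat_sep`).
Transfer: `per g ∘ₗ T_ℓ = ∑_x per (g'_x)` (`S22.perL_comp_eq_sum` as in `perL_comp_heckeTLin_mem`), apply `lam` and `exp`.
NB the weight in `S22` is `((0 : ℕ) : ℤ) + 2`, definitionally equal to `2`. -/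
theorem exists_actH (N : ℕ) [NeZero N] :
    ∃ actH : CuspForm.heckeAlgebra N 2 (∅ : Set ℕ) →+* Module.End ℤ (HLat N),
      Function.Injective actH ∧
      ∀ (ℓ : ℕ) [Fact ℓ.Prime] (hℓ : ℓ.Prime) (hℓN : ¬ ℓ ∣ N) (m : ℕ) (lam : HLat N)
        (χ ψ : Gamma0 N →* ℂˣ), IsChiOf m lam χ →
        IsChiOf m (actH (CuspForm.heckeAlgebra.T hℓ hℓN (Set.notMem_empty ℓ)) lam) ψ →
        IsHeckeChar N ℓ χ ψ :=
  ⟨actH N, actH_injective N, fun _ _ hℓ hℓN _ _ _ _ h h' => h.isHeckeChar hℓ hℓN h'⟩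

end Fermat.Agent.S29
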