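import Fermat.Agent.S29.ANOrd1
import Fermat.Agent.S29.ANHecke
import Fermat.Agent.S29.ANLat
import Fermat.Agent.S29.ANBridge
import Fermat.Agent.GR.AnData

/-!
# S29 [AN]: assembly: `Nonempty (GR.AnData p N)`
-/

set_option autoImplicit false

namespace Fermat.Agent.S29

open UpperHalfPlane ModularForm Filter Topology CongruenceSubgroup ModularCurve AlgebraicCurve
open Fermat.Agent.S20 Fermat.Agent.S24
open scoped MatrixGroups Manifold ModularForm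

variable {N : ℕ} [NeZero N] {m : ℕ} {lam lam' : HLat N} {u v : FN N}

theorem exists_isKumL (hm : 0 < m) (lam : HLat N) : ∃ u : FN N, IsKumL m lam u := by
  obtain ⟨χ, hχ⟩ := exists_isChiOf m lam
  obtain ⟨u, hu⟩ := exists_isKumChi hm (hχ.pow_eq_one hm) hχ.isPar
  exact ⟨u, χ, hχ, hu⟩

theorem IsKumL.ne_zero (h : IsKumL m lam u) : u ≠ 0 := by
  obtain ⟨χ, -, hu⟩ := h
  exact hu.ne_zero

theorem IsKumL.add (h : IsKumL m lam u) (h' : IsKumL m lam' v) : IsKumL m (lam + lam') (u * v) := by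
  obtain ⟨χ, hχ, hu⟩ := h
  obtain ⟨χ', hχ', hv⟩ := h'
  exact ⟨χ * χ', hχ.add hχ', hu.mul hv⟩

theorem IsKumL.unique (hm : 0 < m) (h : IsKumL m lam u) (h' : IsKumL m lam v) :
    ∃ w : FN N, w ≠ 0 ∧ v = u * w ^ m := by
  obtain ⟨χ, hχ, hu⟩ := h
  obtain ⟨χ', hχ', hv⟩ := h'
  obtain rfl := hχ.unique hχ'
  exact hu.unique hm hv

theorem IsKumL.ker (hm : 0 < m) (h : IsKumL m lam u) (hw : ∃ w : FN N, u = w ^ m) :
    ∃ lam' : HLat N, lam = m • lam' := by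
  obtain ⟨χ, hχ, hu⟩ := h
  obtain rfl := hu.eq_one hm hw
  exact hχ.eq_smul_of_one hm

theorem IsKumL.of_mul {r : ℕ} (hr : 0 < r) (h : IsKumL (m * r) lam u) : IsKumL m lam u := by
  obtain ⟨χ, hχ, hu⟩ := h
  exact ⟨χ ^ r, hχ.pow hr, hu.of_mul⟩

/-- via ORD1 (`S29/ANOrd1.lean`): the characters `χ_{lam,m}` kill the elements of finite order. -/
theorem IsKumL.dvd_ord (hm : 0 < m) (h : IsKumL m lam u) (P : Place Kb (FN N)) :
    (m : ℤ) ∣ P.ord u := by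
  obtain ⟨χ, hχ, hu⟩ := h
  exact hu.dvd_ord hm hχ.tor P

/-- the multiplicative Hecke operator on Kummer elements. -/
theorem IsKumL.hecke {lamT : HLat N} {ℓ : ℕ} [Fact ℓ.Prime] [NeZero ℓ] (hℓN : ¬ ℓ ∣ N) (hm : 0 < m)
    (hT : ∀ χ ψ : Gamma0 N →* ℂˣ, IsChiOf m lam χ → IsChiOf m lamT ψ → IsHeckeChar N ℓ χ ψ)
    (h : IsKumL m lam u) {ζ : Kbˣ} (hζ : IsPrimitiveRoot ζ ℓ) :
    ∃ hs : Fermat.Agent.GR.Mop ζ ℓ (u : LaurentSeries Kb) ∈ FN N,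
      IsKumL m lamT ⟨Fermat.Agent.GR.Mop ζ ℓ (u : LaurentSeries Kb), hs⟩ := by
  obtain ⟨χ, hχ, hχm, hpar, k, E, D, hE, hD, hE0, hD0, hu⟩ := h
  obtain ⟨ψ, hψ⟩ := exists_isChiOf m lamT
  have hℓ0 : ℓ ≠ 0 := NeZero.ne ℓ
  -- the standard root of unity in `ℂ`
  have hprim : IsPrimitiveRoot (Complex.exp (2 * Real.pi * Complex.I / ℓ)) ℓ :=
    Complex.isPrimitiveRoot_exp ℓ hℓ0
  set ζc : ℂˣ := hprim.isUnit hℓ0 |>.unit with hζc
  have hζc' : (ζc : ℂ) = Complex.exp (2 * Real.pi * Complex.I / ℓ) := rfl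
  have hζcp : IsPrimitiveRoot ζc ℓ := by
    rw [← IsPrimitiveRoot.coe_units_iff]; exact hprim
  have hζi : IsPrimitiveRoot (Units.map (iota : Kb →* ℂ) ζ) ℓ :=
    hζ.map_of_injective (Units.map_injective iota_injective)
  have nE : E ∈ Fermat.Agent.S23.Nice :=
    mem_Nice_of_mem_Mchi ⟨T_mem_Gamma0 N, hpar 1 ⟨_, T_mem_Gamma0 N⟩
      (by rw [inv_one, one_mul, mul_one]; simp [ModularGroup.T])⟩ hE
  have nD : D ∈ Fermat.Agent.S23.Nice := mem_Nice_of_mem_MFs_Gamma0 hD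
  have key : iotaL (Fermat.Agent.GR.Mop ζ ℓ (u : LaurentSeries Kb)) * qLf (TTm ℓ D) ^ m
      = qLf (TTm ℓ E) ^ m := by
    rw [qLf_TTm nD ζc hζc', qLf_TTm nE ζc hζc', iotaL, Fermat.Agent.GR.coeffMap_Mop,
      Fermat.Agent.GR.Mop_eq_of_isPrimitiveRoot hζi hζcp, ← Fermat.Agent.GR.Mop_pow hζcp,
      ← Fermat.Agent.GR.Mop_pow hζcp, ← Fermat.Agent.GR.Mop_mul hζcp]
    exact congrArg _ hu
  obtain ⟨hs, hk⟩ := isKumChi_of_TTm hℓN hm (hT χ ψ hχ hψ) (hψ.pow_eq_one hm) hψ.isPar hE hD hE0 hD0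
    key
  exact ⟨hs, ψ, hψ, hk⟩

/-- **The deliverable of [AN].** -/
theorem exists_anData (p : ℕ) [Fact p.Prime] (N : ℕ) [NeZero N] :
    Nonempty (Fermat.Agent.GR.AnData p N) := by
  classical
  have hp : 0 < p := (Fact.out : p.Prime).pos
  have hpn : ∀ n : ℕ, 0 < p ^ n := fun n => pow_pos hp n
  obtain ⟨actH, hinj, hT⟩ := exists_actH N
  choose U hU using fun (n : ℕ) (h : HLat N) => exists_isKumL (hpn n) h
  refine ⟨{
    H := HLat N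
    actH := actH
    actH_inj := hinj
    u := U
    u_ne := fun n h => (hU n h).ne_zero
    u_ord := fun n h P => (hU n h).dvd_ord (hpn n) P
    u_add := fun n h h' => ?_
    u_ker := fun n h hw => (hU n h).ker (hpn n) hw
    u_tr := fun n h => ?_
    u_T := ?_ }⟩
  · obtain ⟨w, -, hw⟩ := ((hU n h).add (hU n h')).unique (hpn n) (hU n (h + h'))
    exact ⟨w, hw⟩
  · have h1 : IsKumL (p ^ n) h (U (n + 1) h) := by
      have := hU (n + 1) h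
      rw [pow_succ] at this
      exact this.of_mul hp
    obtain ⟨w, -, hw⟩ := (hU n h).unique (hpn n) h1
    exact ⟨w, hw⟩
  · intro n ℓ _ hℓ hℓN _ h
    have : Fact ℓ.Prime := ⟨hℓ⟩
    obtain ⟨ζ₀, hζ₀⟩ := HasEnoughRootsOfUnity.exists_primitiveRoot Kb ℓ
    set ζ : Kbˣ := hζ₀.isUnit (NeZero.ne ℓ) |>.unit with hζ
    have hζp : IsPrimitiveRoot ζ ℓ := by
      rw [← IsPrimitiveRoot.coe_units_iff]; exact hζ₀
    obtain ⟨hs, hk⟩ := (hU n h).hecke hℓN (hpn n)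
      (fun χ ψ hχ hψ => hT ℓ hℓ hℓN (p ^ n) h χ ψ hχ hψ) hζp
    obtain ⟨w, -, hw⟩ := (hU n _).unique (hpn n) hk
    refine ⟨ζ, w, hζp, ?_⟩
    exact congrArg Subtype.val hw

end Fermat.Agent.S29
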