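import Mathlib

/-!
# S29 [EIGP]: eigenvectors modulo `p`

`R` a commutative ring acting faithfully on a finitely generated free `ℤ`-module `H`, `χ : R → κ` a ring
homomorphism to a field of characteristic `p`.  Then `κ ⊗ H` contains a nonzero `χ`-eigenvector.

Proof.  `R` is integral over `ℤ` (Cayley-Hamilton), so `𝔪 = ker χ` is maximal.  `D = Hom(H, ℤ)` is a faithful
finitely generated `R`-module (transposed action), so `D ≠ 𝔪 D` (Nakayama).  A nonzero `R/𝔪`-linear form on
`D / 𝔪 D` gives a nonzero additive `Λ : D → κ` with `Λ (r y) = χ r Λ y`; `v = ∑ Λ(b_i^*) ⊗ b_i`.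
-/

set_option autoImplicit false
set_option linter.style.haveILetI false
set_option linter.unusedSectionVars false

namespace Fermat.Agent.S29

open TensorProduct

section

variable {R H : Type} [CommRing R] [AddCommGroup H] [Module.Free ℤ H] [Module.Finite ℤ H]
  (φ : R →+* Module.End ℤ H)

/-- every element of `R` is integral over `ℤ`. -/
theorem eigp_isIntegral (hφ : Function.Injective φ) (r : R) : IsIntegral ℤ r := by
  refine ⟨(φ r).charpoly, LinearMap.charpoly_monic _, ?_⟩
  apply hφ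
  rw [map_zero]
  have h1 := LinearMap.aeval_self_charpoly (φ r)
  have h2 : φ (Polynomial.eval₂ (algebraMap ℤ R) r (φ r).charpoly)
      = Polynomial.aeval (φ r) (φ r).charpoly := by
    rw [Polynomial.hom_eval₂, Polynomial.aeval_def]
    congr 1
    exact Subsingleton.elim _ _
  rw [h2, h1]

/-- the transposed action on the dual. -/
noncomputable def eigpDual : R →+* Module.End ℤ (Module.Dual ℤ H) where
  toFun r := (φ r).dualMap
  map_one' := by rw [map_one]; exact LinearMap.dualMap_id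
  map_mul' r s := by
    rw [mul_comm r s, map_mul]
    exact (LinearMap.dualMap_comp_dualMap (φ r) (φ s)).symm
  map_zero' := by rw [map_zero]; ext; simp
  map_add' r s := by rw [map_add]; ext; simp

theorem eigpDual_apply (r : R) (y : Module.Dual ℤ H) (x : H) :
    eigpDual φ r y x = y (φ r x) := rfl

theorem eigp_ker_isMaximal (hφ : Function.Injective φ) {κ : Type} [Field κ] {p : ℕ} (hp : p.Prime)
    [CharP κ p] (χ : R →+* κ) : (RingHom.ker χ).IsMaximal := by
  haveI : (RingHom.ker χ).IsPrime := RingHom.ker_isPrime χ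
  haveI : Algebra.IsIntegral ℤ R := ⟨eigp_isIntegral φ hφ⟩
  apply Ideal.isMaximal_of_isIntegral_of_isMaximal_comap (R := ℤ) (RingHom.ker χ)
  have h : (RingHom.ker χ).comap (algebraMap ℤ R) = Ideal.span {(p : ℤ)} := by
    ext n
    rw [Ideal.mem_comap, RingHom.mem_ker, Ideal.mem_span_singleton, eq_intCast, map_intCast,
      CharP.intCast_eq_zero_iff κ p]
  rw [h]
  exact PrincipalIdealRing.isMaximal_of_irreducible
    (Nat.prime_iff_prime_int.mp hp).irreducible

/-- a nonzero `χ`-semilinear form on the dual. -/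
theorem eigp_exists_form (hφ : Function.Injective φ) {κ : Type} [Field κ] {p : ℕ} (hp : p.Prime)
    [CharP κ p] (χ : R →+* κ) :
    ∃ Λ : Module.Dual ℤ H →+ κ, Λ ≠ 0 ∧ ∀ r y, Λ (eigpDual φ r y) = χ r * Λ y := by
  letI : Module R (Module.Dual ℤ H) := Module.compHom _ (eigpDual φ)
  have hsmul : ∀ (r : R) (y : Module.Dual ℤ H), r • y = eigpDual φ r y := fun _ _ => rfl
  haveI : Module.Finite R (Module.Dual ℤ H) := Module.Finite.of_restrictScalars_finite ℤ R _
  haveI h𝔪 : (RingHom.ker χ).IsMaximal := eigp_ker_isMaximal φ hφ hp χ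
  letI : Field (R ⧸ RingHom.ker χ) := Ideal.Quotient.field _
  have hne : (RingHom.ker χ) • (⊤ : Submodule R (Module.Dual ℤ H)) ≠ ⊤ := by
    intro htop
    obtain ⟨r, hr1, hr2⟩ := Submodule.exists_sub_one_mem_and_smul_eq_zero_of_fg_of_le_smul
      (RingHom.ker χ) (⊤ : Submodule R (Module.Dual ℤ H)) Module.Finite.fg_top (by rw [htop])
    have h0 : φ r = 0 := by
      ext x
      rw [LinearMap.zero_apply, ← Module.forall_dual_apply_eq_zero_iff ℤ]
      intro y
      have := hr2 y trivial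
      rw [hsmul] at this
      have h2 := congrArg (fun f : Module.Dual ℤ H => f x) this
      simpa [eigpDual_apply] using h2
    have hr0 : r = 0 := hφ (by rw [h0, map_zero])
    rw [hr0, zero_sub, RingHom.mem_ker, map_neg, map_one, neg_eq_zero] at hr1
    exact one_ne_zero hr1
  obtain ⟨y₀, hy₀⟩ : ∃ y₀ : Module.Dual ℤ H,
      y₀ ∉ (RingHom.ker χ) • (⊤ : Submodule R (Module.Dual ℤ H)) := by
    by_contra hcon
    push Not at hcon
    exact hne (eq_top_iff.mpr fun y _ => hcon y)
  have hx : Submodule.Quotient.mk (p := (RingHom.ker χ) • (⊤ : Submodule R (Module.Dual ℤ H))) y₀ ≠ 0 := by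
    rwa [Ne, Submodule.Quotient.mk_eq_zero]
  obtain ⟨f, hf⟩ : ∃ f : Module.Dual (R ⧸ RingHom.ker χ)
      (Module.Dual ℤ H ⧸ (RingHom.ker χ) • (⊤ : Submodule R (Module.Dual ℤ H))),
      f (Submodule.Quotient.mk y₀) ≠ 0 := by
    by_contra hcon
    push Not at hcon
    exact hx ((Module.forall_dual_apply_eq_zero_iff (R ⧸ RingHom.ker χ) _).mp hcon)
  refine ⟨((RingHom.kerLift χ).toAddMonoidHom.comp f.toAddMonoidHom).comp
    (Submodule.mkQ ((RingHom.ker χ) • (⊤ : Submodule R (Module.Dual ℤ H)))).toAddMonoidHom, ?_, ?_⟩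
  · intro h
    have h1 := DFunLike.congr_fun h y₀
    have h2 : RingHom.kerLift χ (f (Submodule.Quotient.mk y₀)) = 0 := h1
    exact hf ((map_eq_zero_iff _ (RingHom.kerLift_injective χ)).mp h2)
  · intro r y
    change RingHom.kerLift χ (f (Submodule.Quotient.mk (r • y))) =
      χ r * RingHom.kerLift χ (f (Submodule.Quotient.mk y))
    have h1 : (Submodule.Quotient.mk (r • y) :
        Module.Dual ℤ H ⧸ (RingHom.ker χ) • (⊤ : Submodule R (Module.Dual ℤ H))) =
        (Ideal.Quotient.mk (RingHom.ker χ) r) • Submodule.Quotient.mk y := rfl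
    rw [h1, map_smul, smul_eq_mul, map_mul, RingHom.kerLift_mk]

/-- **Eigenvectors modulo `p`.** -/
theorem exists_eigenvector_modp (hφ : Function.Injective φ) {κ : Type} [Field κ] {p : ℕ}
    (hp : p.Prime) [CharP κ p] (χ : R →+* κ) :
    ∃ h : κ ⊗[ℤ] H, h ≠ 0 ∧ ∀ r : R, (φ r).baseChange κ h = χ r • h := by
  obtain ⟨Λ, hΛ0, hΛ⟩ := eigp_exists_form φ hφ hp χ
  let b := Module.Free.chooseBasis ℤ H
  have hexp : ∀ f : Module.Dual ℤ H, Λ f = ∑ i, f (b i) • Λ (b.coord i) := by
    intro f
    conv_lhs => rw [← b.sum_dual_apply_smul_coord f]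
    rw [map_sum]
    exact Finset.sum_congr rfl fun i _ => map_zsmul Λ _ _
  refine ⟨∑ i, Λ (b.coord i) ⊗ₜ[ℤ] b i, ?_, ?_⟩
  · intro h0
    apply hΛ0
    have hli := (Algebra.TensorProduct.basis κ b).linearIndependent
    have h1 : ∑ i, Λ (b.coord i) • (Algebra.TensorProduct.basis κ b) i = 0 := by
      rw [← h0]
      refine Finset.sum_congr rfl fun i _ => ?_
      rw [Algebra.TensorProduct.basis_apply, TensorProduct.smul_tmul', smul_eq_mul, mul_one]
    have h2 := Fintype.linearIndependent_iff.mp hli _ h1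
    ext f
    rw [hexp f]
    simp [h2]
  · intro r
    rw [map_sum, Finset.smul_sum]
    have h1 : ∀ i, (φ r).baseChange κ (Λ (b.coord i) ⊗ₜ[ℤ] b i) =
        ∑ j, ((eigpDual φ r (b.coord j)) (b i) • Λ (b.coord i)) ⊗ₜ[ℤ] b j := by
      intro i
      rw [LinearMap.baseChange_tmul]
      conv_lhs => rw [← b.sum_repr (φ r (b i))]
      rw [TensorProduct.tmul_sum]
      refine Finset.sum_congr rfl fun j _ => ?_
      rw [TensorProduct.tmul_smul, TensorProduct.smul_tmul']
      rfl
    rw [Finset.sum_congr rfl fun i _ => h1 i, Finset.sum_comm]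
    refine Finset.sum_congr rfl fun j _ => ?_
    rw [← TensorProduct.sum_tmul, ← hexp, hΛ, TensorProduct.smul_tmul', smul_eq_mul]

end

/-- `κ ⊗ H → κ ⊗ A` is injective if `A` is killed by `p` and `ker (H → A) ⊆ p H`. -/
theorem baseChange_ne_zero_modp_aux {H A : Type} [AddCommGroup H] [Module.Free ℤ H]
    [Module.Finite ℤ H] [AddCommGroup A] {κ : Type} [Field κ] {p : ℕ} [Fact p.Prime]
    [Algebra (ZMod p) κ] [Module (ZMod p) A]
    (ι : H →+ A) (hker : ∀ h, ι h = 0 → ∃ h' : H, h = p • h')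
    (v : κ ⊗[ℤ] H) (hv : v ≠ 0) : (ι.toIntLinearMap).baseChange κ v ≠ 0 := by
  let b := Module.Free.chooseBasis ℤ H
  have hli : LinearIndependent (ZMod p) fun i => ι (b i) := by
    rw [Fintype.linearIndependent_iff]
    intro g hg i
    have h1 : ι (∑ i, (g i).val • b i) = 0 := by
      rw [map_sum, ← hg]
      refine Finset.sum_congr rfl fun j _ => ?_
      rw [map_nsmul, ← Nat.cast_smul_eq_nsmul (ZMod p), ZMod.natCast_zmod_val]
    obtain ⟨h', hh'⟩ := hker _ h1
    have h2 := congrArg (fun x => b.repr x i) hh'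
    simp only [map_sum, map_nsmul, Finsupp.coe_finsetSum, Finsupp.coe_smul, Finset.sum_apply,
      Pi.smul_apply, Module.Basis.repr_self, Finsupp.single_apply] at h2
    rw [Finset.sum_eq_single i (by intro j _ hj; simp [hj]) (by simp)] at h2
    simp only [if_true, mul_one, nsmul_eq_mul] at h2
    have h3 : (p : ℤ) ∣ ((g i).val : ℤ) := ⟨_, h2⟩
    have h4 : p ∣ (g i).val := by exact_mod_cast h3
    rw [← ZMod.natCast_zmod_val (g i)]
    exact (ZMod.natCast_eq_zero_iff _ _).mpr h4
  obtain ⟨i₀, hi₀⟩ : ∃ i₀, (Algebra.TensorProduct.basis κ b).repr v i₀ ≠ 0 := by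
    by_contra hcon
    apply hv
    apply (Algebra.TensorProduct.basis κ b).repr.injective
    ext i
    by_contra hi
    exact hcon ⟨i, by simpa using hi⟩
  obtain ⟨g, hg⟩ := LinearMap.exists_leftInverse_of_injective
    (Finsupp.linearCombination (ZMod p) fun i => ι (b i)) (LinearMap.ker_eq_bot.mpr hli)
  let f : A →ₗ[ZMod p] ZMod p := (Finsupp.lapply i₀) ∘ₗ g
  have hf : ∀ i, f (ι (b i)) = if i = i₀ then 1 else 0 := by
    intro i
    have h1 := LinearMap.congr_fun hg (Finsupp.single i 1)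
    simp only [LinearMap.comp_apply, Finsupp.linearCombination_single, one_smul,
      LinearMap.id_apply] at h1
    change (g (ι (b i))) i₀ = _
    rw [h1, Finsupp.single_apply]
  let g' : A →ₗ[ℤ] κ :=
    ((algebraMap (ZMod p) κ).toAddMonoidHom.comp f.toAddMonoidHom).toIntLinearMap
  have hg' : ∀ i, g' (ι (b i)) = if i = i₀ then 1 else 0 := by
    intro i
    change algebraMap (ZMod p) κ (f (ι (b i))) = _
    rw [hf]
    split_ifs <;> simp
  let F : κ ⊗[ℤ] A →ₗ[ℤ] κ := TensorProduct.lift ((LinearMap.mul ℤ κ).compl₂ g')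
  have hF : ∀ (c : κ) (x : A), F (c ⊗ₜ x) = c * g' x := by
    intro c x
    change TensorProduct.lift ((LinearMap.mul ℤ κ).compl₂ g') (c ⊗ₜ x) = _
    rw [TensorProduct.lift.tmul]
    rfl
  intro h0
  apply hi₀
  have h1 : F ((ι.toIntLinearMap).baseChange κ v) = (Algebra.TensorProduct.basis κ b).repr v i₀ := by
    conv_lhs => rw [← (Algebra.TensorProduct.basis κ b).sum_repr v]
    rw [map_sum, map_sum]
    rw [Finset.sum_eq_single i₀]
    · rw [Algebra.TensorProduct.basis_apply, TensorProduct.smul_tmul', LinearMap.baseChange_tmul, hF]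
      change _ * g' (ι (b i₀)) = _
      rw [hg', if_pos rfl, smul_eq_mul, mul_one, mul_one]
    · intro j _ hj
      rw [Algebra.TensorProduct.basis_apply, TensorProduct.smul_tmul', LinearMap.baseChange_tmul, hF]
      change _ * g' (ι (b j)) = _
      rw [hg', if_neg hj, mul_zero]
    · intro h; exact absurd (Finset.mem_univ _) h
  rw [← h1, h0, map_zero]

/-- `κ ⊗ H → κ ⊗ A` is injective if `A` is killed by `p` and `ker (H → A) ⊆ p H`. -/
theorem baseChange_ne_zero_modp {H A : Type} [AddCommGroup H] [Module.Free ℤ H] [Module.Finite ℤ H]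
    [AddCommGroup A] {κ : Type} [Field κ] {p : ℕ} (hp : p.Prime) [CharP κ p]
    (ι : H →+ A) (hA : ∀ x : A, p • x = 0) (hker : ∀ h, ι h = 0 → ∃ h' : H, h = p • h')
    (v : κ ⊗[ℤ] H) (hv : v ≠ 0) : (ι.toIntLinearMap).baseChange κ v ≠ 0 := by
  haveI : Fact p.Prime := ⟨hp⟩
  letI : Module (ZMod p) A := AddCommGroup.zmodModule hA
  letI : Algebra (ZMod p) κ := ZMod.algebra κ p
  exact baseChange_ne_zero_modp_aux ι hker v hv

end Fermat.Agent.S29
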