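import Fermat.Agent.S49.Hecke
import Fermat.Agent.S29.EigenP

/-!
# S29 [EIGCHAR]: the character of the Hecke algebra attached to a normalized eigenform
-/

set_option autoImplicit false
set_option linter.style.haveILetI false

namespace Fermat.Agent.S29

open CuspForm CongruenceSubgroup ModularFormClass Fermat.Agent.S49

section

variable {N : ℕ} [NeZero N] {g : CuspForm (Gamma0 N) 2}

theorem ec_ext {f f' : CuspForm (Gamma0 N) 2} (h : ∀ n, qc N n f = qc N n f') : f = f' := by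
  rw [← sub_eq_zero]
  apply eq_zero_of_qc
  intro n
  rw [map_sub, h n, sub_self]

theorem ec_heckeT (hg : g.IsNormalizedEigenform) {p : ℕ} (hp : p.Prime) (hpN : ¬ p ∣ N) :
    heckeTLin 2 hp hpN g = qCoeff g p • g := by
  apply ec_ext
  intro n
  rw [qc_heckeT, map_smul, smul_eq_mul]
  simp only [qc_apply]
  rcases Nat.eq_zero_or_pos n with rfl | hn
  · have h0 : qCoeff g 0 = 0 := qc_zero g
    simp [h0]
  · obtain ⟨r, m, hm, rfl⟩ := Nat.exists_eq_pow_mul_and_not_dvd hn.ne' p hp.ne_one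
    have hcop : ∀ k, Nat.Coprime (p ^ k) m := fun k =>
      Nat.Coprime.pow_left k ((Nat.Prime.coprime_iff_not_dvd hp).mpr hm)
    rcases r with _ | s
    · rw [pow_zero, one_mul, if_neg hm, add_zero, hg.qCoeff_mul_of_coprime m p
        ((Nat.Prime.coprime_iff_not_dvd hp).mpr hm).symm, mul_comm]
    · have h1 : p ∣ p ^ (s + 1) * m := Dvd.dvd.mul_right (dvd_pow_self p (Nat.succ_ne_zero s)) m
      have h2 : p ^ (s + 1) * m * p = p ^ (s + 2) * m := by ring
      have h3 : p ^ (s + 1) * m / p = p ^ s * m := by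
        rw [pow_succ, mul_assoc, mul_comm p m, ← mul_assoc]
        exact Nat.mul_div_cancel _ hp.pos
      rw [if_pos h1, h2, h3, hg.qCoeff_mul_of_coprime _ _ (hcop _),
        hg.qCoeff_mul_of_coprime _ _ (hcop _), hg.qCoeff_mul_of_coprime _ _ (hcop _),
        hg.qCoeff_prime_pow_of_not_dvd p s hp hpN]
      ring

theorem ec_heckeU (hg : g.IsNormalizedEigenform) {p : ℕ} (hp : p.Prime) (hpN : p ∣ N) :
    heckeULin 2 hpN g = qCoeff g p • g := by
  apply ec_ext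
  intro n
  rw [qc_heckeU hp, map_smul, smul_eq_mul]
  simp only [qc_apply]
  rcases Nat.eq_zero_or_pos n with rfl | hn
  · have h0 : qCoeff g 0 = 0 := qc_zero g
    simp [h0]
  · obtain ⟨r, m, hm, rfl⟩ := Nat.exists_eq_pow_mul_and_not_dvd hn.ne' p hp.ne_one
    have hcop : ∀ k, Nat.Coprime (p ^ k) m := fun k =>
      Nat.Coprime.pow_left k ((Nat.Prime.coprime_iff_not_dvd hp).mpr hm)
    rcases r with _ | s
    · rw [pow_zero, one_mul, hg.qCoeff_mul_of_coprime m p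
        ((Nat.Prime.coprime_iff_not_dvd hp).mpr hm).symm, mul_comm]
    · have h2 : p ^ (s + 1) * m * p = p ^ (s + 2) * m := by ring
      rw [h2, hg.qCoeff_mul_of_coprime _ _ (hcop _),
        hg.qCoeff_mul_of_coprime _ _ (hcop _), hg.qCoeff_prime_pow_of_dvd p s hp hpN]
      ring

theorem ec_eigen (hg : g.IsNormalizedEigenform)
    (t : Module.End ℂ (CuspForm (Gamma0 N) 2)) (ht : t ∈ heckeAlgebra N 2 (∅ : Set ℕ)) :
    ∃ c : ℂ, t g = c • g := by
  induction ht using Algebra.adjoin_induction with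
  | mem x hx =>
    rcases hx with ⟨ℓ, hℓ, hℓN, -, rfl⟩ | ⟨q, hqN, hq, -, rfl⟩
    · exact ⟨_, ec_heckeT hg hℓ hℓN⟩
    · exact ⟨_, ec_heckeU hg hq hqN⟩
  | algebraMap r =>
    refine ⟨(r : ℂ), ?_⟩
    rw [Algebra.algebraMap_eq_smul_one, LinearMap.smul_apply, Module.End.one_apply,
      Int.cast_smul_eq_zsmul]
  | add x y _ _ hx hy =>
    obtain ⟨c, hc⟩ := hx
    obtain ⟨d, hd⟩ := hy
    exact ⟨c + d, by rw [LinearMap.add_apply, hc, hd, add_smul]⟩
  | mul x y _ _ hx hy =>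
    obtain ⟨c, hc⟩ := hx
    obtain ⟨d, hd⟩ := hy
    exact ⟨d * c, by rw [Module.End.mul_apply, hd, map_smul, hc, smul_smul]⟩

theorem ec_eigen' (hg : g.IsNormalizedEigenform)
    (t : Module.End ℂ (CuspForm (Gamma0 N) 2)) (ht : t ∈ heckeAlgebra N 2 (∅ : Set ℕ)) :
    t g = qc N 1 (t g) • g := by
  obtain ⟨c, hc⟩ := ec_eigen hg t ht
  have h1 : qc N 1 g = 1 := hg.qCoeff_one
  rw [hc, map_smul, h1, smul_eq_mul, mul_one]

/-- the eigencharacter with values in `ℂ`. -/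
noncomputable def ecChar (hg : g.IsNormalizedEigenform) : heckeAlgebra N 2 (∅ : Set ℕ) →+* ℂ where
  toFun t := qc N 1 ((t : Module.End ℂ (CuspForm (Gamma0 N) 2)) g)
  map_one' := hg.qCoeff_one
  map_zero' := by
    have h1 : ((0 : heckeAlgebra N 2 (∅ : Set ℕ)) : Module.End ℂ (CuspForm (Gamma0 N) 2)) g = 0 := rfl
    rw [h1, map_zero]
  map_add' s t := by
    have h1 : ((s + t : heckeAlgebra N 2 (∅ : Set ℕ)) : Module.End ℂ (CuspForm (Gamma0 N) 2)) g
        = (s : Module.End ℂ (CuspForm (Gamma0 N) 2)) g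
          + (t : Module.End ℂ (CuspForm (Gamma0 N) 2)) g := rfl
    rw [h1, map_add]
  map_mul' s t := by
    have h1 : ((s * t : heckeAlgebra N 2 (∅ : Set ℕ)) : Module.End ℂ (CuspForm (Gamma0 N) 2)) g
        = (s : Module.End ℂ (CuspForm (Gamma0 N) 2))
          ((t : Module.End ℂ (CuspForm (Gamma0 N) 2)) g) := rfl
    rw [h1, ec_eigen' hg t t.2, map_smul, map_smul, map_smul, smul_eq_mul, smul_eq_mul]
    have h2 : qc N 1 g = 1 := hg.qCoeff_one
    rw [h2, mul_one, mul_comm]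

theorem ecChar_T (hg : g.IsNormalizedEigenform) {ℓ : ℕ} (hℓ : ℓ.Prime) (hℓN : ¬ ℓ ∣ N) :
    ecChar hg (heckeAlgebra.T hℓ hℓN (Set.notMem_empty ℓ)) = qCoeff g ℓ := by
  change qc N 1 (heckeTLin 2 hℓ hℓN g) = _
  have h2 : qc N 1 g = 1 := hg.qCoeff_one
  rw [ec_heckeT hg hℓ hℓN, map_smul, h2, smul_eq_mul, mul_one]

/-- **The eigencharacter** with values in `ℤ̄`. -/
theorem exists_eigenChar (hg : g.IsNormalizedEigenform)
    {H : Type} [AddCommGroup H] [Module.Free ℤ H] [Module.Finite ℤ H]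
    (actH : heckeAlgebra N 2 (∅ : Set ℕ) →+* Module.End ℤ H) (hinj : Function.Injective actH) :
    ∃ χ : heckeAlgebra N 2 (∅ : Set ℕ) →+* integralClosure ℤ ℂ,
      ∀ (ℓ : ℕ) (hℓ : ℓ.Prime) (hℓN : ¬ ℓ ∣ N),
        ((χ (heckeAlgebra.T hℓ hℓN (Set.notMem_empty ℓ)) : integralClosure ℤ ℂ) : ℂ)
          = qCoeff g ℓ := by
  refine ⟨(ecChar hg).codRestrict (integralClosure ℤ ℂ) fun r =>
    map_isIntegral_int (ecChar hg) (eigp_isIntegral actH hinj r), fun ℓ hℓ hℓN => ?_⟩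
  exact ecChar_T hg hℓ hℓN

end

end Fermat.Agent.S29
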