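import Mathlib
import Fermat.Prelude.Def_GaloisRep_Residual
import Fermat.Agent.GR.Cyclo
import Fermat.Agent.S14.Trans1

/-!
# S29 [CYC]: the mod `p` cyclotomic character with values in a field of characteristic `p`

Paper proof: `ζ` a primitive `p`-th root of unity in `ℚ̄`; `σ ζ = ζ ^ m(σ)`, `δ σ = (m(σ) : K)`
(Mathlib: `modularCyclotomicCharacter`; S14 `Trans1.lean` has `om p σ : ZMod p` with API).
* finite level: `L = ℚ(ζ)`.
* Frobenius lift at `A ∣ ℓ ≠ p`: `σ ζ ≡ ζ ^ ℓ mod 𝔪_A`, and the `p`-th roots of unity are distinct mod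
  `𝔪_A` (`∏_{i=1}^{p-1} (1 - ζ^i) = p` is a unit of `A`), so `σ ζ = ζ ^ ℓ`.
* inertia at `A ∣ ℓ ≠ p`: `σ ζ ≡ ζ`, so `σ ζ = ζ`.
-/

set_option autoImplicit false

namespace Fermat.Agent.S29

open Fermat.Agent.S14 Fermat.Agent.S14.T1 in
theorem exists_cyclo (p : ℕ) (hp : p.Prime) (K : Type) [Field K] [CharP K p] :
    ∃ δ : (AlgebraicClosure ℚ ≃ₐ[ℚ] AlgebraicClosure ℚ) →* Kˣ,
      GaloisFactorsThroughFiniteLevel δ ∧
      (∀ ℓ : ℕ, ℓ.Prime → ℓ ≠ p → ∀ A : ValuationSubring (AlgebraicClosure ℚ), A.LiesOverPrime ℓ →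
        (∀ σ : AlgebraicClosure ℚ ≃ₐ[ℚ] AlgebraicClosure ℚ, A.IsFrobeniusAt σ ℓ →
          ((δ σ : Kˣ) : K) = (ℓ : K)) ∧
        (∀ σ ∈ A.inertiaSubgroupIn ℚ, δ σ = 1)) := by
  have : Fact p.Prime := ⟨hp⟩
  let f : (AlgebraicClosure ℚ ≃ₐ[ℚ] AlgebraicClosure ℚ) →* K :=
    { toFun := fun σ => ZMod.castHom (dvd_refl p) K (om p σ)
      map_one' := by rw [om_one, map_one]
      map_mul' := fun σ τ => by rw [om_mul, map_mul] }
  have hf : ∀ σ, ((f.toHomUnits σ : Kˣ) : K) = ZMod.castHom (dvd_refl p) K (om p σ) := fun σ => rfl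
  have hone : ∀ σ : AlgebraicClosure ℚ ≃ₐ[ℚ] AlgebraicClosure ℚ, σ (zetaQb p) = zetaQb p →
      f.toHomUnits σ = 1 := by
    intro σ hσ
    apply Units.ext
    rw [hf, (om_eq_one_iff p σ).mpr hσ, map_one]
    rfl
  have hζ : zetaQb p ^ p = 1 := (zetaQb_prim p).pow_eq_one
  refine ⟨f.toHomUnits, ⟨KQ p, inferInstance, fun σ hσ => ?_⟩, fun ℓ hℓ hℓp A hA => ⟨fun σ hσ => ?_,
    fun σ hσ => ?_⟩⟩
  · exact hone σ (hσ _ (IntermediateField.mem_adjoin_simple_self ℚ _))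
  · have hnd : ¬ ℓ ∣ p := fun h => hℓp ((Nat.prime_dvd_prime_iff_eq hℓ hp).mp h)
    have h1 := Fermat.Agent.GR.frob_root hℓ hA hσ hnd hζ
    rw [hf, om_of_pow p σ ℓ h1, map_natCast]
  · have hnd : ¬ ℓ ∣ p := fun h => hℓp ((Nat.prime_dvd_prime_iff_eq hℓ hp).mp h)
    exact hone σ (Fermat.Agent.GR.inertia_root hℓ hA hσ hnd hζ)

end Fermat.Agent.S29
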