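import Fermat.Agent.FD.Main

/-!
# S29 [FD]: Frobenius' density theorem (existence form)

Every `τ ∈ G_ℚ` coincides, on a given number field `L ⊆ ℚ̄`, with a power of a Frobenius lift at some
prime `ℓ` outside a given finite set.

## Paper proof  (tools: `Fermat/Agent/S14/{Euler,ZetaBound}.lean` valid for EVERY number field,
`Fermat/Agent/S54/Frobenius.lean : exists_frobenius`)
Enlarge `L` to a finite Galois `K/ℚ`, `G = Gal(K/ℚ)`, `C = ⟨τ|K⟩` of order `n`, `F = K^C`.
* [FD1] for every number field `E`:  `S_E(s) := ∑_{P ∈ degOne E} N(P)^{-s} = log(1/(s-1)) + O(1)`, `s → 1+`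
  (`S14.log_zetaR_le`, `S14.exp_primeSum_le_zetaR`, `S14.eventually_zetaR_bounds`).
* [FD2] `E/F` Galois of degree `d`.  Up to finitely many primes, a degree one prime `Q` of `E` lies over
  a degree one prime `P` of `F` which splits completely in `E`, and each such `P` has exactly `d`
  primes above it, all of norm `N(P)`.  Hence
  `∑_{P ∈ degOne F, P splits completely in E} N(P)^{-s} = (1/d) S_E(s) + O(1)`.
* [FD3] for `d ∣ n` let `F_d` be the subextension of degree `d` of the cyclic extension `K/F`.  An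
  unramified `P` which is not inert in `K` has a proper decomposition group, which is contained in the
  subgroup of index `r` for a prime `r ∣ n`, i.e. `P` splits completely in `F_r`; `P` splits completely
  in `F_r` for all `r ∣ d` (`d` squarefree) iff it splits completely in `F_d`.  Inclusion-exclusion:
  `∑_{P ∈ degOne F inert in K} N(P)^{-s} = ∑_{d ∣ rad n} μ(d)/d · log(1/(s-1)) + O(1)
     = ∏_{r ∣ n} (1 - 1/r) · log(1/(s-1)) + O(1) → ∞`.
  So there are infinitely many degree one primes `P` of `F` inert in `K`; choose one, unramified over `ℚ`,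
  over a rational prime `ℓ ∉ S`.
* [FD4] `𝔓` the prime of `K` over `P`: `D(𝔓 | ℓ) ⊇ D(𝔓 | P) = C` and `|D(𝔓|ℓ)| = f(𝔓|ℓ) = n`, so
  `D(𝔓|ℓ) = C`.  Take `(A₀, σ₀)` from `S54.exists_frobenius ℓ`; `G_ℚ` is transitive on the primes of `K` over
  `ℓ`, so after conjugation `A ∩ K` has maximal ideal `𝔓`.  `σ|K` lies in `D(𝔓|ℓ)`, acts on the residue
  field `𝓞_K/𝔓` (of degree `n`) as `x ↦ x^ℓ`, so it has order `n` (inertia is trivial) and generates `C`.
-/

set_option autoImplicit false

namespace Fermat.Agent.S29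

theorem exists_frobenius_pow (L : IntermediateField ℚ (AlgebraicClosure ℚ)) [FiniteDimensional ℚ L]
    (τ : AlgebraicClosure ℚ ≃ₐ[ℚ] AlgebraicClosure ℚ) (S : Finset ℕ) :
    ∃ ℓ : ℕ, ℓ.Prime ∧ ℓ ∉ S ∧ ∃ A : ValuationSubring (AlgebraicClosure ℚ), A.LiesOverPrime ℓ ∧
      ∃ σ : AlgebraicClosure ℚ ≃ₐ[ℚ] AlgebraicClosure ℚ, A.IsFrobeniusAt σ ℓ ∧
        ∃ b : ℕ, ∀ x ∈ L, τ x = (σ ^ b) x := by
  obtain ⟨ℓ, P, σ, k, h1, h2, h3, h4, _, h6⟩ := FD.exists_frobenius_pow_eq L τ S
  exact ⟨ℓ, h1, h2, P, h3, σ, h4, k, fun x hx => (h6 x hx).symm⟩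

end Fermat.Agent.S29
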