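import Fermat.Agent.S29.Alg
import Fermat.Agent.S29.FrobDens
import Fermat.Agent.S29.Cyclo
import Fermat.Agent.GR.Lucas

/-!
# S29 [COMB]: from an Eichler-Shimura package to a residual Galois representation

`ESPack N p K a`: a nonzero finite dimensional `K`-representation `W` of `G_ℚ`, of finite level,
unramified at all `ℓ ∤ N p`, on which every Frobenius lift `σ` at `ℓ ∤ N p` satisfies
`σ² - a(ℓ) σ + ℓ = 0`.

## Paper proof of `exists_residualRep`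
`δ` from `exists_cyclo`.  `L` = compositum of the finite levels of `E.ρ` and `δ`.  For `τ ∈ G_ℚ` take
`(ℓ, A, σ, b)` from `exists_frobenius_pow L τ (primes dividing N p)`: `ρ τ = (ρ σ)^b`, `δ τ = δ(σ)^b = ℓ^b`.
If `x² - a x + d = 0` (`d` a unit) then `s_m := x^m + d^m x^{-m}` is a scalar for all `m`
(`s_0 = 2, s_1 = a, s_{m+1} = a s_m - d s_{m-1}`), i.e. `(x^m)² - s_m x^m + d^m = 0`.
So `∀ τ, ∃ t, ρ(τ)² - t ρ(τ) + δ(τ) = 0`; choose `a' τ`, with `a' τ` arbitrary such.  Apply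
`exists_rep_of_quadratic`: `ρ'` on `K²` with `charpoly ρ'(τ) = X² - a'(τ) X + δ(τ)`.
For a Frobenius lift `σ` at `ℓ ∤ Np`:  both `a'(σ)` and `a(ℓ)` satisfy `ρ(σ)² - t ρ(σ) + ℓ = 0`, so
`(a'(σ) - a(ℓ)) ρ(σ) = 0` and `ρ(σ)` is invertible on `W ≠ 0`: `a'(σ) = a(ℓ)`.
Unramified + finite level: `ρ' τ = 1` if `ρ τ = 1` and `δ τ = 1`.
-/

set_option autoImplicit false

namespace Fermat.Agent.S29

open Polynomial

/-- `G_ℚ`. -/
abbrev GQ : Type := AlgebraicClosure ℚ ≃ₐ[ℚ] AlgebraicClosure ℚ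

structure ESPack (N p : ℕ) (K : Type) [Field K] (a : ℕ → K) where
  W : Type
  [acg : AddCommGroup W]
  [mod : Module K W]
  fin : FiniteDimensional K W
  nt : Nontrivial W
  ρ : GQ →* Module.End K W
  level : GaloisFactorsThroughFiniteLevel ρ
  unram : ∀ ℓ : ℕ, ℓ.Prime → ¬ ℓ ∣ N * p → ∀ A : ValuationSubring (AlgebraicClosure ℚ),
    A.LiesOverPrime ℓ → ∀ σ ∈ A.inertiaSubgroupIn ℚ, ρ σ = 1
  quad : ∀ ℓ : ℕ, ℓ.Prime → ¬ ℓ ∣ N * p → ∀ A : ValuationSubring (AlgebraicClosure ℚ),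
    A.LiesOverPrime ℓ → ∀ σ : GQ, A.IsFrobeniusAt σ ℓ →
      ρ σ * ρ σ - a ℓ • ρ σ + (ℓ : K) • (1 : Module.End K W) = 0

attribute [instance] ESPack.acg ESPack.mod

/-- a homomorphism of finite level `L` only depends on the restriction to `L`. -/
theorem comb_eq_of_level {M : Type*} [Monoid M] (f : GQ →* M)
    (L : IntermediateField ℚ (AlgebraicClosure ℚ))
    (hL : ∀ σ : GQ, (∀ x ∈ L, σ x = x) → f σ = 1) {τ τ' : GQ} (h : ∀ x ∈ L, τ x = τ' x) :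
    f τ = f τ' := by
  have h1 : f (τ'⁻¹ * τ) = 1 := by
    apply hL
    intro x hx
    rw [AlgEquiv.mul_apply, h x hx, ← AlgEquiv.mul_apply, inv_mul_cancel, AlgEquiv.one_apply]
  have h2 : τ = τ' * (τ'⁻¹ * τ) := by group
  rw [h2, map_mul, h1, mul_one]

theorem exists_residualRep {N p : ℕ} (hN : N ≠ 0) (hp : p.Prime) {K : Type} [Field K] [CharP K p]
    [IsAlgClosed K] {a : ℕ → K} (E : ESPack N p K a) :
    ∃ ρ : ResidualGaloisRep K,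
      (∀ ℓ : ℕ, ℓ.Prime → ¬ ℓ ∣ N * p → ∀ A : ValuationSubring (AlgebraicClosure ℚ),
        A.LiesOverPrime ℓ → ∀ σ : GQ, A.IsFrobeniusAt σ ℓ →
          LinearMap.charpoly (ρ.ρ σ) = X ^ 2 - C (a ℓ) * X + C ((ℓ : K))) ∧
      (∀ ℓ : ℕ, ℓ.Prime → ¬ ℓ ∣ N * p → ρ.IsUnramifiedAt ℓ) := by
  classical
  have := E.fin
  have := E.nt
  obtain ⟨δ, ⟨L₂, hL₂fin, hL₂⟩, hδ⟩ := exists_cyclo p hp K
  obtain ⟨L₁, hL₁fin, hL₁⟩ := E.level
  let L : IntermediateField ℚ (AlgebraicClosure ℚ) := L₁ ⊔ L₂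
  have hLfin : FiniteDimensional ℚ L := IntermediateField.finiteDimensional_sup L₁ L₂
  have hρL : ∀ σ : GQ, (∀ x ∈ L, σ x = x) → E.ρ σ = 1 := fun σ hσ =>
    hL₁ σ fun x hx => hσ x ((le_sup_left : L₁ ≤ L) hx)
  have hδL : ∀ σ : GQ, (∀ x ∈ L, σ x = x) → δ σ = 1 := fun σ hσ =>
    hL₂ σ fun x hx => hσ x ((le_sup_right : L₂ ≤ L) hx)
  have hNp : N * p ≠ 0 := mul_ne_zero hN hp.ne_zero
  have hne : ∀ ℓ : ℕ, ¬ ℓ ∣ N * p → ℓ ≠ p := by
    rintro ℓ h rfl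
    exact h (dvd_mul_left _ _)
  have hquad : ∀ τ : GQ, ∃ t : K,
      E.ρ τ * E.ρ τ - t • E.ρ τ + ((δ τ : Kˣ) : K) • (1 : Module.End K E.W) = 0 := by
    intro τ
    obtain ⟨ℓ, hℓ, hℓS, A, hA, σ, hσ, b, hb⟩ := exists_frobenius_pow L τ (N * p).primeFactors
    have hnd : ¬ ℓ ∣ N * p := fun h => hℓS (Nat.mem_primeFactors.mpr ⟨hℓ, h, hNp⟩)
    have h1 : E.ρ τ = E.ρ σ ^ b := by
      rw [comb_eq_of_level E.ρ L hρL hb, map_pow]
    have h2 : ((δ τ : Kˣ) : K) = (ℓ : K) ^ b := by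
      rw [comb_eq_of_level δ L hδL hb, map_pow, Units.val_pow_eq_pow_val,
        (hδ ℓ hℓ (hne ℓ hnd) A hA).1 σ hσ]
    refine ⟨Fermat.Agent.GR.luc (a ℓ) (ℓ : K) b, ?_⟩
    rw [h1, h2]
    exact Fermat.Agent.GR.luc_relation (E.ρ σ) (a ℓ) (ℓ : K) (E.quad ℓ hℓ hnd A hA σ hσ) b
  choose a' ha' using hquad
  obtain ⟨ρ', hchar, hone⟩ := exists_rep_of_quadratic E.ρ δ a' ha'
  refine ⟨{ V := Fin 2 → K
            finrank_eq := by simp
            ρ := ρ'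
            factorsThroughFiniteLevel := ⟨L, hLfin, fun σ hσ => hone σ (hρL σ hσ) (hδL σ hσ)⟩ },
    fun ℓ hℓ hnd A hA σ hσ => ?_, fun ℓ hℓ hnd A hA σ hσ => ?_⟩
  · change LinearMap.charpoly (ρ' σ) = _
    have hδσ : ((δ σ : Kˣ) : K) = (ℓ : K) := (hδ ℓ hℓ (hne ℓ hnd) A hA).1 σ hσ
    have h1 := ha' σ
    have h2 := E.quad ℓ hℓ hnd A hA σ hσ
    rw [hδσ] at h1
    have h3 : (a' σ - a ℓ) • E.ρ σ = 0 := by
      rw [sub_smul]
      have h0 : a' σ • E.ρ σ - a ℓ • E.ρ σ =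
          (E.ρ σ * E.ρ σ - a ℓ • E.ρ σ + (ℓ : K) • (1 : Module.End K E.W)) -
          (E.ρ σ * E.ρ σ - a' σ • E.ρ σ + (ℓ : K) • (1 : Module.End K E.W)) := by abel
      rw [h0, h2, h1, sub_zero]
    have h4 : (a' σ - a ℓ) • (1 : Module.End K E.W) = 0 := by
      have h5 : E.ρ σ * E.ρ σ⁻¹ = 1 := by rw [← map_mul, mul_inv_cancel, map_one]
      rw [← h5, ← smul_mul_assoc, h3, zero_mul]
    have h6 : a' σ = a ℓ := by
      obtain ⟨w, hw⟩ := exists_ne (0 : E.W)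
      have h7 := congrArg (fun φ : Module.End K E.W => φ w) h4
      simp only [LinearMap.smul_apply, Module.End.one_apply, LinearMap.zero_apply] at h7
      exact sub_eq_zero.mp ((smul_eq_zero.mp h7).resolve_right hw)
    rw [hchar σ, hδσ, h6]
  · exact hone σ (E.unram ℓ hℓ hnd A hA σ hσ) ((hδ ℓ hℓ (hne ℓ hnd) A hA).2 σ hσ)

end Fermat.Agent.S29
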