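import Fermat.Agent.GR.Lim
import Fermat.Agent.S29.EigenP
import Fermat.Agent.S29.Comb

/-!
# S29 [TPACK]: `Tower p N` + a character `χ` of the Hecke algebra with values in a field `κ` of
characteristic `p`  ⟹  `ESPack N p κ (ℓ ↦ χ T_ℓ)`

`h ∈ κ ⊗ H` a `χ`-eigenvector (`exists_eigenvector_modp`), `y = (1 ⊗ ι 1) h ≠ 0` in `κ ⊗ A 1`
(`baseChange_ne_zero_modp`), `W` = the `κ`-span of the Galois orbit of `y`.
-/

set_option autoImplicit false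
set_option linter.style.haveILetI false
set_option linter.unusedSectionVars false

namespace Fermat.Agent.S29

open TensorProduct

section

variable {p N : ℕ} [NeZero N] (𝔗 : GR.Tower p N) (κ : Type) [Field κ] (n : ℕ)

theorem tp_actM_tmul (σ : GR.GQ) (c : κ) (x : 𝔗.A n) :
    𝔗.actM κ n σ (c ⊗ₜ x) = c ⊗ₜ 𝔗.act n σ x := rfl

theorem tp_TM_tmul (ℓ : ℕ) (c : κ) (x : 𝔗.A n) :
    𝔗.TM κ n ℓ (c ⊗ₜ x) = c ⊗ₜ 𝔗.T n ℓ x := rfl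

theorem tp_ιM_tmul (c : κ) (x : 𝔗.H) :
    𝔗.ιM κ n (c ⊗ₜ x) = c ⊗ₜ 𝔗.ι n x := rfl

theorem tp_actM_one : 𝔗.actM κ n 1 = LinearMap.id := by
  apply TensorProduct.AlgebraTensorModule.ext
  intro c x
  rw [tp_actM_tmul, map_one]
  rfl

theorem tp_actM_mul (σ τ : GR.GQ) : 𝔗.actM κ n (σ * τ) = 𝔗.actM κ n σ ∘ₗ 𝔗.actM κ n τ := by
  apply TensorProduct.AlgebraTensorModule.ext
  intro c x
  rw [tp_actM_tmul, map_mul, LinearMap.comp_apply, tp_actM_tmul, tp_actM_tmul]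
  rfl

theorem tp_actM_mul_apply (σ τ : GR.GQ) (z : 𝔗.M κ n) :
    𝔗.actM κ n (σ * τ) z = 𝔗.actM κ n σ (𝔗.actM κ n τ z) := by
  rw [tp_actM_mul]; rfl

theorem tp_TM_actM (ℓ : ℕ) (σ : GR.GQ) (z : 𝔗.M κ n) :
    𝔗.TM κ n ℓ (𝔗.actM κ n σ z) = 𝔗.actM κ n σ (𝔗.TM κ n ℓ z) := by
  have : 𝔗.TM κ n ℓ ∘ₗ 𝔗.actM κ n σ = 𝔗.actM κ n σ ∘ₗ 𝔗.TM κ n ℓ := by
    apply TensorProduct.AlgebraTensorModule.ext
    intro c x
    simp only [LinearMap.comp_apply, tp_actM_tmul, tp_TM_tmul, 𝔗.T_act]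
  exact LinearMap.congr_fun this z

theorem tp_TM_ιM {ℓ : ℕ} (hℓ : ℓ.Prime) (hℓN : ¬ ℓ ∣ N) (hℓp : ℓ ≠ p) (h : κ ⊗[ℤ] 𝔗.H) :
    𝔗.TM κ n ℓ (𝔗.ιM κ n h) = 𝔗.ιM κ n
      ((𝔗.actH (CuspForm.heckeAlgebra.T hℓ hℓN (Set.notMem_empty ℓ))).baseChange κ h) := by
  have : 𝔗.TM κ n ℓ ∘ₗ 𝔗.ιM κ n = 𝔗.ιM κ n ∘ₗ
      (𝔗.actH (CuspForm.heckeAlgebra.T hℓ hℓN (Set.notMem_empty ℓ))).baseChange κ := by
    apply TensorProduct.AlgebraTensorModule.ext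
    intro c x
    simp only [LinearMap.comp_apply, tp_ιM_tmul, tp_TM_tmul, LinearMap.baseChange_tmul,
      𝔗.ι_T n ℓ hℓ hℓN hℓp]
  exact LinearMap.congr_fun this h

theorem tp_es {ℓ : ℕ} (hℓ : ℓ.Prime) (hℓN : ¬ ℓ ∣ N) (hℓp : ℓ ≠ p)
    {P : ValuationSubring GR.Qb} (hP : P.LiesOverPrime ℓ) {σ : GR.GQ} (hσ : P.IsFrobeniusAt σ ℓ)
    (z : 𝔗.M κ n) :
    𝔗.actM κ n σ (𝔗.actM κ n σ z) - 𝔗.TM κ n ℓ (𝔗.actM κ n σ z) + (ℓ : κ) • z = 0 := by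
  have : 𝔗.actM κ n σ ∘ₗ 𝔗.actM κ n σ - 𝔗.TM κ n ℓ ∘ₗ 𝔗.actM κ n σ
      + (ℓ : κ) • (LinearMap.id : 𝔗.M κ n →ₗ[κ] 𝔗.M κ n) = 0 := by
    apply TensorProduct.AlgebraTensorModule.ext
    intro c x
    simp only [LinearMap.add_apply, LinearMap.sub_apply, LinearMap.comp_apply, tp_actM_tmul,
      tp_TM_tmul, LinearMap.smul_apply, LinearMap.id_apply, LinearMap.zero_apply]
    rw [Nat.cast_smul_eq_nsmul, ← TensorProduct.tmul_sub, ← TensorProduct.tmul_smul,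
      ← TensorProduct.tmul_add, 𝔗.es n ℓ hℓ hℓN hℓp P hP σ hσ x, TensorProduct.tmul_zero]
  exact LinearMap.congr_fun this z

theorem tp_unram {q : ℕ} (hq : q.Prime) (hqN : ¬ q ∣ N) (hqp : q ≠ p)
    {P : ValuationSubring GR.Qb} (hP : P.LiesOverPrime q) {σ : GR.GQ}
    (hσ : σ ∈ P.inertiaSubgroupIn ℚ) : 𝔗.actM κ n σ = LinearMap.id := by
  apply TensorProduct.AlgebraTensorModule.ext
  intro c x
  rw [tp_actM_tmul, 𝔗.unram n q hq hqN hqp P hP σ hσ x]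
  rfl

end

/-- a function on `G_ℚ` which only depends on the restriction to a number field has finite range. -/
theorem tp_finite_range {X : Type*} (L : IntermediateField ℚ GR.Qb) [FiniteDimensional ℚ L]
    (f : GR.GQ → X) (hf : ∀ g g' : GR.GQ, (∀ z ∈ L, g z = g' z) → f g = f g') :
    (Set.range f).Finite := by
  classical
  let r : GR.GQ → (L →ₐ[ℚ] GR.Qb) := fun g => (g : GR.Qb →ₐ[ℚ] GR.Qb).comp L.val
  have hr : ∀ g g', r g = r g' → f g = f g' := by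
    intro g g' h
    apply hf
    intro z hz
    exact DFunLike.congr_fun h (⟨z, hz⟩ : L)
  have hsub : Set.range f ⊆ Set.range
      (fun t : L →ₐ[ℚ] GR.Qb => if h : ∃ g, r g = t then f h.choose else f 1) := by
    rintro _ ⟨g, rfl⟩
    refine ⟨r g, ?_⟩
    have hex : ∃ g', r g' = r g := ⟨g, rfl⟩
    simp only [dif_pos hex]
    exact hr _ _ hex.choose_spec
  exact (Set.finite_range _).subset hsub

theorem exists_esPack_of_tower {p N : ℕ} [NeZero N] (𝔗 : GR.Tower p N) {κ : Type} [Field κ]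
    (hp : p.Prime) [CharP κ p] (χ : CuspForm.heckeAlgebra N 2 (∅ : Set ℕ) →+* κ) (a : ℕ → κ)
    (ha : ∀ (ℓ : ℕ) (hℓ : ℓ.Prime) (hℓN : ¬ ℓ ∣ N),
      a ℓ = χ (CuspForm.heckeAlgebra.T hℓ hℓN (Set.notMem_empty ℓ))) :
    Nonempty (ESPack N p κ a) := by
  obtain ⟨h, hh0, hh⟩ := exists_eigenvector_modp 𝔗.actH 𝔗.actH_inj hp χ
  set y : 𝔗.M κ 1 := 𝔗.ιM κ 1 h with hy
  have hy0 : y ≠ 0 :=
    baseChange_ne_zero_modp hp (𝔗.ι 1) (fun x => by simpa using 𝔗.pow_smul 1 x)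
      (fun x hx => by simpa using 𝔗.ι_ker 1 x hx) h hh0
  have hsplit : ∀ ℓ : ℕ, ℓ.Prime → ¬ ℓ ∣ N * p → ¬ ℓ ∣ N ∧ ℓ ≠ p := by
    intro ℓ _ hℓ
    exact ⟨fun h => hℓ (Dvd.dvd.mul_right h p), fun h => hℓ (h ▸ Dvd.intro_left N rfl)⟩
  have hyT : ∀ ℓ : ℕ, ℓ.Prime → ¬ ℓ ∣ N → ℓ ≠ p → 𝔗.TM κ 1 ℓ y = a ℓ • y := by
    intro ℓ hℓ hℓN hℓp
    rw [hy, tp_TM_ιM 𝔗 κ 1 hℓ hℓN hℓp, hh, map_smul, ha ℓ hℓ hℓN]
  haveI : Fact p.Prime := ⟨hp⟩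
  obtain ⟨L, hL, -, hfix⟩ := 𝔗.exists_field_fixing 1 y
  let W : Submodule κ (𝔗.M κ 1) := Submodule.span κ (Set.range fun g : GR.GQ => 𝔗.actM κ 1 g y)
  have hstab : ∀ σ : GR.GQ, ∀ w ∈ W, 𝔗.actM κ 1 σ w ∈ W := by
    intro σ
    have : W ≤ W.comap (𝔗.actM κ 1 σ) := by
      apply Submodule.span_le.mpr
      rintro _ ⟨g, rfl⟩
      change 𝔗.actM κ 1 σ (𝔗.actM κ 1 g y) ∈ W
      rw [← tp_actM_mul_apply]
      exact Submodule.subset_span ⟨σ * g, rfl⟩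
    exact this
  have hyW : y ∈ W := Submodule.subset_span ⟨1, by simp only [tp_actM_one]; rfl⟩
  have hTW : ∀ ℓ : ℕ, ℓ.Prime → ¬ ℓ ∣ N → ℓ ≠ p → ∀ w ∈ W, 𝔗.TM κ 1 ℓ w = a ℓ • w := by
    intro ℓ hℓ hℓN hℓp
    have : ∀ w ∈ W, 𝔗.TM κ 1 ℓ w = (a ℓ • (LinearMap.id : 𝔗.M κ 1 →ₗ[κ] 𝔗.M κ 1)) w := by
      apply LinearMap.eqOn_span
      rintro _ ⟨g, rfl⟩
      change 𝔗.TM κ 1 ℓ (𝔗.actM κ 1 g y) = a ℓ • 𝔗.actM κ 1 g y
      rw [tp_TM_actM, hyT ℓ hℓ hℓN hℓp, map_smul]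
    exact fun w hw => this w hw
  have hfixW : ∀ σ : GR.GQ, (∀ z ∈ L, σ z = z) → ∀ w ∈ W, 𝔗.actM κ 1 σ w = w := by
    intro σ hσ
    have : ∀ w ∈ W, 𝔗.actM κ 1 σ w = (LinearMap.id : 𝔗.M κ 1 →ₗ[κ] 𝔗.M κ 1) w := by
      apply LinearMap.eqOn_span
      rintro _ ⟨g, rfl⟩
      exact hfix σ hσ g
    exact fun w hw => this w hw
  have hfin : (Set.range fun g : GR.GQ => 𝔗.actM κ 1 g y).Finite := by
    apply tp_finite_range L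
    intro g g' hgg'
    have h1 : ∀ z ∈ L, (g'⁻¹ * g) z = z := by
      intro z hz
      rw [AlgEquiv.mul_apply, hgg' z hz]
      exact g'.symm_apply_apply z
    have h2 := hfixW (g'⁻¹ * g) h1 y hyW
    have h3 : g = g' * (g'⁻¹ * g) := by group
    rw [h3, tp_actM_mul_apply, h2]
  let ρ : GQ →* Module.End κ W :=
    { toFun := fun σ => (𝔗.actM κ 1 σ).restrict (hstab σ)
      map_one' := by
        ext w
        simp only [LinearMap.coe_restrict_apply, tp_actM_one]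
        rfl
      map_mul' := by
        intro σ τ
        ext w
        simp only [LinearMap.coe_restrict_apply, Module.End.mul_apply]
        exact tp_actM_mul_apply 𝔗 κ 1 σ τ w }
  have hρ : ∀ (σ : GQ) (w : W), ((ρ σ w : W) : 𝔗.M κ 1) = 𝔗.actM κ 1 σ w := fun _ _ => rfl
  refine ⟨{ W := W, fin := FiniteDimensional.span_of_finite κ hfin,
            nt := ⟨⟨⟨y, hyW⟩, 0, fun h => hy0 (congrArg Subtype.val h)⟩⟩,
            ρ := ρ, level := ⟨L, hL, ?_⟩, unram := ?_, quad := ?_ }⟩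
  · intro σ hσ
    ext w
    rw [hρ, hfixW σ hσ w w.2]
    rfl
  · intro ℓ hℓ hℓNp A hA σ hσ
    obtain ⟨hℓN, hℓp⟩ := hsplit ℓ hℓ hℓNp
    ext w
    rw [hρ, tp_unram 𝔗 κ 1 hℓ hℓN hℓp hA hσ]
    rfl
  · intro ℓ hℓ hℓNp A hA σ hσ
    obtain ⟨hℓN, hℓp⟩ := hsplit ℓ hℓ hℓNp
    ext w
    have h1 := tp_es 𝔗 κ 1 hℓ hℓN hℓp hA hσ (w : 𝔗.M κ 1)
    rw [hTW ℓ hℓ hℓN hℓp _ (hstab σ w w.2)] at h1
    simp only [LinearMap.add_apply, LinearMap.sub_apply, Module.End.mul_apply,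
      LinearMap.smul_apply, Module.End.one_apply, LinearMap.zero_apply, Submodule.coe_add,
      Submodule.coe_sub, Submodule.coe_smul, hρ, Submodule.coe_zero]
    exact h1

end Fermat.Agent.S29
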