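import Fermat.Agent.GR.Provider
import Fermat.Agent.S29.TowerPack
import Fermat.Agent.S29.EigenChar

/-!
# S29 [CORE]: final assembly
-/

set_option autoImplicit false
set_option linter.style.haveILetI false

namespace Fermat.Agent.S29

open Polynomial

/-- `ℤ̄ ⊆ ℂ`. -/
abbrev Zbar : Type := integralClosure ℤ ℂ

/-- every monic polynomial of positive degree over `ℤ̄` has a root in `ℤ̄`. -/
theorem exists_root_Zbar (f : Zbar[X]) (hf : f.Monic) (hd : f.degree ≠ 0) :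
    ∃ x : Zbar, f.eval x = 0 := by
  have hd' : (f.map (algebraMap Zbar ℂ)).degree ≠ 0 := by
    rwa [hf.degree_map]
  obtain ⟨z, hz⟩ := IsAlgClosed.exists_root (f.map (algebraMap Zbar ℂ)) hd'
  have hz' : eval₂ (algebraMap Zbar ℂ) z f = 0 := by
    rwa [IsRoot.def, eval_map] at hz
  have hint : IsIntegral Zbar z := ⟨f, hf, hz'⟩
  have hint2 : IsIntegral ℤ z := isIntegral_trans (A := Zbar) z hint
  refine ⟨⟨z, hint2⟩, ?_⟩
  apply Subtype.ext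
  have := hz'
  rw [eval₂_eq_eval_map, eval_map] at this
  have h2 : ((f.eval (⟨z, hint2⟩ : Zbar) : Zbar) : ℂ) = eval₂ (algebraMap Zbar ℂ) z f := by
    have := Polynomial.hom_eval₂ f (RingHom.id Zbar) (algebraMap Zbar ℂ) (⟨z, hint2⟩ : Zbar)
    simpa [eval₂_id] using this
  rw [h2, hz']
  rfl

theorem isAlgClosed_quot (𝔪 : Ideal Zbar) [h𝔪 : 𝔪.IsMaximal] :
    letI := Ideal.Quotient.field 𝔪
    IsAlgClosed (Zbar ⧸ 𝔪) := by
  letI := Ideal.Quotient.field 𝔪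
  apply IsAlgClosed.of_exists_root
  intro q hq hirr
  obtain ⟨f, hfq, hfdeg, hf⟩ := Polynomial.lifts_and_degree_eq_and_monic
    (f := Ideal.Quotient.mk 𝔪) (p := q)
    ((Polynomial.mem_lifts q).mpr (Polynomial.map_surjective _ Ideal.Quotient.mk_surjective q)) hq
  have hd : f.degree ≠ 0 := by
    rw [hfdeg]
    exact fun h => hirr.not_isUnit (Polynomial.isUnit_iff_degree_eq_zero.mpr h)
  obtain ⟨x, hx⟩ := exists_root_Zbar f hf hd
  refine ⟨Ideal.Quotient.mk 𝔪 x, ?_⟩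
  rw [← hfq, eval_map, eval₂_hom, hx, map_zero]

theorem ker_isMaximal {p : ℕ} (hp : p.Prime) {k : Type} [Field k] [CharP k p] (φ : Zbar →+* k) :
    (RingHom.ker φ).IsMaximal := by
  haveI : (RingHom.ker φ).IsPrime := RingHom.ker_isPrime φ
  haveI : Algebra.IsIntegral ℤ Zbar := inferInstance
  apply Ideal.isMaximal_of_isIntegral_of_isMaximal_comap (R := ℤ) (RingHom.ker φ)
  have h : (RingHom.ker φ).comap (algebraMap ℤ Zbar) = Ideal.span {(p : ℤ)} := by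
    ext n
    rw [Ideal.mem_comap, RingHom.mem_ker, Ideal.mem_span_singleton, eq_intCast, map_intCast,
      CharP.intCast_eq_zero_iff k p]
  rw [h]
  exact PrincipalIdealRing.isMaximal_of_irreducible
    (Nat.prime_iff_prime_int.mp hp).irreducible

/-- the main theorem for `N ≠ 0`. -/
theorem core {N : ℕ} [NeZero N] {g : CuspForm (CongruenceSubgroup.Gamma0 N) 2}
    (hg : g.IsNormalizedEigenform) {p : ℕ} (hp : p.Prime) {k : Type} [Field k] [CharP k p]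
    (φ : Zbar →+* k) :
    ∃ ρ : ResidualGaloisRep k, ρ.IsAttachedTo g φ ∧
      ∀ ℓ : ℕ, ℓ.Prime → ¬ ℓ ∣ N * p → ρ.IsUnramifiedAt ℓ := by
  haveI h𝔪 : (RingHom.ker φ).IsMaximal := ker_isMaximal hp φ
  letI : Field (Zbar ⧸ RingHom.ker φ) := Ideal.Quotient.field _
  haveI : IsAlgClosed (Zbar ⧸ RingHom.ker φ) := isAlgClosed_quot _
  let ι : (Zbar ⧸ RingHom.ker φ) →+* k := RingHom.kerLift φ
  have hι : ∀ x, ι (Ideal.Quotient.mk _ x) = φ x := fun x => RingHom.kerLift_mk φ x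
  haveI : CharP (Zbar ⧸ RingHom.ker φ) p := (RingHom.charP_iff ι ι.injective p).mpr inferInstance
  haveI : Fact p.Prime := ⟨hp⟩
  obtain ⟨𝔗⟩ := GR.exists_tower p N
  obtain ⟨χ₀, hχ₀⟩ := exists_eigenChar hg 𝔗.actH 𝔗.actH_inj
  let a : ℕ → Zbar := fun ℓ =>
    if h : ℓ.Prime ∧ ¬ ℓ ∣ N then χ₀ (CuspForm.heckeAlgebra.T h.1 h.2 (Set.notMem_empty ℓ)) else 0
  have ha' : ∀ (ℓ : ℕ) (hℓ : ℓ.Prime) (hℓN : ¬ ℓ ∣ N),
      a ℓ = χ₀ (CuspForm.heckeAlgebra.T hℓ hℓN (Set.notMem_empty ℓ)) := by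
    intro ℓ hℓ hℓN
    simp only [a]
    rw [dif_pos ⟨hℓ, hℓN⟩]
  have ha : ∀ ℓ : ℕ, ℓ.Prime → ¬ ℓ ∣ N → (a ℓ : ℂ) = ModularFormClass.qCoeff g ℓ := by
    intro ℓ hℓ hℓN
    rw [ha' ℓ hℓ hℓN, hχ₀]
  obtain ⟨E⟩ := exists_esPack_of_tower 𝔗 hp ((Ideal.Quotient.mk (RingHom.ker φ)).comp χ₀)
    (fun ℓ => Ideal.Quotient.mk (RingHom.ker φ) (a ℓ))
    (fun ℓ hℓ hℓN => by rw [ha' ℓ hℓ hℓN]; rfl)
  obtain ⟨ρ₀, hchar, hunr⟩ := exists_residualRep (NeZero.ne N) hp E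
  have hdvd : ∀ ℓ : ℕ, ℓ.Prime → ¬ ℓ ∣ N * p → ¬ ℓ ∣ N * p := fun _ _ h => h
  refine ⟨ρ₀.baseChangeAlong ι, ?_, ?_⟩
  · intro ℓ hℓ hℓN hℓk A hA σ hσ
    refine ⟨a ℓ, ha ℓ hℓ hℓN, ?_⟩
    have hℓp : ¬ ℓ ∣ N * p := by
      intro h
      rcases (Nat.Prime.dvd_mul hℓ).mp h with h1 | h1
      · exact hℓN h1
      · have : ℓ = p := (Nat.prime_dvd_prime_iff_eq hℓ hp).mp h1
        exact hℓk (by rw [this]; exact CharP.cast_eq_zero k p)
    have h1 := hchar ℓ hℓ (hdvd ℓ hℓ hℓp) A hA σ hσ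
    letI : Algebra (Zbar ⧸ RingHom.ker φ) k := ι.toAlgebra
    have h2 : LinearMap.charpoly ((ρ₀.baseChangeAlong ι).ρ σ) =
        (LinearMap.charpoly (ρ₀.ρ σ)).map (algebraMap (Zbar ⧸ RingHom.ker φ) k) :=
      LinearMap.charpoly_baseChange (A := k) (ρ₀.ρ σ)
    rw [h2, h1]
    have h3 : algebraMap (Zbar ⧸ RingHom.ker φ) k = ι := rfl
    simp only [Polynomial.map_add, Polynomial.map_sub, Polynomial.map_mul, Polynomial.map_pow,
      Polynomial.map_X, Polynomial.map_C, h3, hι, map_natCast, Polynomial.map_natCast]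
  · intro ℓ hℓ hℓp A hA σ hσ
    have h1 := hunr ℓ hℓ (hdvd ℓ hℓ hℓp) A hA σ hσ
    letI : Algebra (Zbar ⧸ RingHom.ker φ) k := ι.toAlgebra
    show (ρ₀.ρ σ).baseChange k = 1
    rw [h1, LinearMap.baseChange_one]

end Fermat.Agent.S29
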