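import Fermat.Agent.S29.Mchi
import Fermat.Agent.S22.Lattice
import Fermat.Prelude.Thm_ModularForm_heckeT_slash_eq_self_of_mem_Gamma0

/-!
# S29 / GR, block [AN]: shared definitions (no sorry in this file)

`Γ = Γ₀(N)`, `Kb = ℚ̄`, `FN N = ℚ̄(j(q^d) : d ∣ N) ⊆ ℚ̄((q))` (S24), `Mchi H χ k` (helper21, `S29/Mchi.lean`).

* `IsPar N χ`    : `χ` kills every element of `Γ` which is `SL₂(ℤ)`-conjugate to an upper triangular matrix;
* `IsAlgQ f`     : the `q`-expansion of `f` has coefficients in `ℚ̄`;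
* `IsKumChi N m χ u`: `χ^m = 1`, `IsPar N χ` and `u = (E / D) ^ m` with `0 ≠ E ∈ Mchi Γ χ k`, `0 ≠ D ∈ M_k(Γ)`
  ("`u` is a Kummer element of `χ`"); `E`, `D` are arbitrary COMPLEX forms;
* `IsHeckeChar N ℓ χ ψ` : `ψ = T_ℓ χ` (transfer);
* `TTm ℓ F`      : the multiplicative Hecke operator `F(ℓ z) ∏_j F((z + j)/ℓ)` on functions;
* `HLat N`       : `Module.Dual ℤ (S22.Lat N 0)`, `per N g`, `IsChiOf m lam χ`, `IsKumL m lam u`.
-/

set_option autoImplicit false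

namespace Fermat.Agent.S29

open UpperHalfPlane ModularForm Filter Topology CongruenceSubgroup ModularCurve
open Fermat.Agent.S20 Fermat.Agent.S24
open scoped MatrixGroups Manifold ModularForm

/-- `χ` is trivial on all elements which are conjugate in `SL₂(ℤ)` to an upper triangular matrix
(parabolic elements and `± 1`). -/
def IsPar (N : ℕ) (χ : Gamma0 N →* ℂˣ) : Prop :=
  ∀ (a : SL(2, ℤ)) (g : Gamma0 N), (a⁻¹ * (g : SL(2, ℤ)) * a) 1 0 = 0 → χ g = 1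

/-- The `q`-expansion has coefficients in `ℚ̄`. -/
def IsAlgQ (f : ℍ → ℂ) : Prop :=
  ∃ s : PowerSeries Kb, ∀ n : ℕ, (qExpansion 1 f).coeff n = iota (s.coeff n)

/-- `u = (E / D) ^ m`, `E` a form with character `χ`, `D` a form with trivial character. -/
def IsKumChi (N m : ℕ) (χ : Gamma0 N →* ℂˣ) (u : FN N) : Prop :=
  χ ^ m = 1 ∧ IsPar N χ ∧
  ∃ (k : ℤ) (E D : ℍ → ℂ), E ∈ Mchi (Gamma0 N) χ k ∧ D ∈ MFs (Gamma0 N) k ∧ E ≠ 0 ∧ D ≠ 0 ∧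
    iotaL (u : LaurentSeries Kb) * qLf D ^ m = qLf E ^ m

open P2MW.S_ModularForm_heckeT_slash_eq_self_of_mem_Gamma0.ModularForm.HeckeSlashInvariance in
/-- `ψ = T_ℓ χ`: `ψ(g) = ∏_x χ(g'_x)` whenever `δ_x g = g'_x δ_{π x}`. -/
def IsHeckeChar (N ℓ : ℕ) [Fact ℓ.Prime] (χ ψ : Gamma0 N →* ℂˣ) : Prop :=
  ∀ (g : Gamma0 N) (g' : OnePoint (ZMod ℓ) → Gamma0 N),
    (∀ x, heckeRep ℓ x * Matrix.SpecialLinearGroup.mapGL ℝ (g : SL(2, ℤ)) =
      Matrix.SpecialLinearGroup.mapGL ℝ (g' x : SL(2, ℤ)) *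
        heckeRep ℓ (redMatrix ℓ (g : SL(2, ℤ)) • x)) →
    ψ g = ∏ x, χ (g' x)

/-- The multiplicative Hecke operator on functions: `F(ℓ z) ∏_{j < ℓ} F((z + j)/ℓ)`. -/
noncomputable def TTm (ℓ : ℕ) (F : ℍ → ℂ) (z : ℍ) : ℂ :=
  (∏ j ∈ Finset.range ℓ, F (heckeMatrix ℓ j • z)) * F (heckeDiagMatrix ℓ • z)

section lattice

variable (N : ℕ) [NeZero N]

/-- The lattice `H`: the `ℤ`-dual of the period lattice of weight `2`. -/
abbrev HLat : Type := Module.Dual ℤ (Fermat.Agent.S22.Lat N 0)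

/-- The period of `g ∈ Γ₀(N)`: the functional `f ↦ ∫_z^{g z} f`. -/
noncomputable def per (g : Gamma0 N) : Fermat.Agent.S22.Lat N 0 :=
  ⟨Fermat.Agent.S22.perL N 0 (Matrix.SpecialLinearGroup.mapGL ℝ (g : SL(2, ℤ))) (0, 1),
    Fermat.Agent.S22.perL_mem_Lat (Subgroup.mem_map_of_mem _ g.2) ⟨0, 1, by simp⟩⟩

variable {N}

/-- `χ = exp (2 π i lam(per ·) / m)`. -/
def IsChiOf (m : ℕ) (lam : HLat N) (χ : Gamma0 N →* ℂˣ) : Prop :=
  ∀ g : Gamma0 N, (χ g : ℂ) = Complex.exp (2 * Real.pi * Complex.I * (lam (per N g) : ℂ) / (m : ℂ))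

/-- `u` is a Kummer element of level `m` of `lam ∈ H`. -/
def IsKumL (m : ℕ) (lam : HLat N) (u : FN N) : Prop :=
  ∃ χ : Gamma0 N →* ℂˣ, IsChiOf m lam χ ∧ IsKumChi N m χ u

end lattice

end Fermat.Agent.S29
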