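import Mathlib
import Fermat.Agent.S20.Defs

/-!
# S29, piece AN-EIS: twisted Eisenstein series

For a subgroup `H ≤ SL(2,ℤ)` and a unitary character `χ : H →* ℂˣ` which is trivial on the elements
of `H` fixing `∞` we construct a nonzero holomorphic function `f` on `ℍ` with
`f ∣[k] γ = χ γ • f` (`γ ∈ H`), all of whose `SL(2,ℤ)`-translates are bounded at `i∞`:
`f z = ∑_{(c,d)} a (c,d) (c z + d)^(-k)`, `a (bottom row of γ) = (χ γ)⁻¹`, `a = 0` elsewhere.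
-/

set_option autoImplicit false

namespace Fermat.Agent.S29

open UpperHalfPlane ModularForm EisensteinSeries Filter Topology Matrix
open scoped MatrixGroups Manifold ModularForm

noncomputable section

/-- the weighted Eisenstein sum `∑_v a v (v₀ z + v₁)^(-k)`. -/
def wE (k : ℤ) (a : (Fin 2 → ℤ) → ℂ) (z : ℍ) : ℂ := ∑' v : Fin 2 → ℤ, a v * eisSummand k v z

variable {k : ℤ} {a : (Fin 2 → ℤ) → ℂ}

theorem wE_norm_term_le (ha : ∀ v, ‖a v‖ ≤ 1) (v : Fin 2 → ℤ) (z : ℍ) :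
    ‖a v * eisSummand k v z‖ ≤ ‖eisSummand k v z‖ := by
  rw [norm_mul]
  exact mul_le_of_le_one_left (norm_nonneg _) (ha v)

theorem wE_summable (hk : 3 ≤ k) (ha : ∀ v, ‖a v‖ ≤ 1) (z : ℍ) :
    Summable fun v : Fin 2 → ℤ => a v * eisSummand k v z :=
  Summable.of_norm_bounded (summable_norm_eisSummand hk z) (fun v => wE_norm_term_le ha v z)

theorem vm_mul (A B : SL(2, ℤ)) (v : Fin 2 → ℤ) : (v ᵥ* A.1) ᵥ* B.1 = v ᵥ* (A * B).1 := by
  rw [vecMul_vecMul]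
  rfl

theorem vm_one (v : Fin 2 → ℤ) : v ᵥ* (1 : SL(2, ℤ)).1 = v := by
  have : (1 : SL(2, ℤ)).1 = 1 := rfl
  rw [this, vecMul_one]

theorem vm_cancel (A : SL(2, ℤ)) (v : Fin 2 → ℤ) : (v ᵥ* A.1) ᵥ* (A⁻¹).1 = v := by
  rw [vm_mul, mul_inv_cancel, vm_one]

theorem vm_cancel' (A : SL(2, ℤ)) (v : Fin 2 → ℤ) : (v ᵥ* (A⁻¹).1) ᵥ* A.1 = v := by
  rw [vm_mul, inv_mul_cancel, vm_one]

/-- right multiplication by `A` as a permutation of `ℤ²`. -/
def vmEquiv (A : SL(2, ℤ)) : (Fin 2 → ℤ) ≃ (Fin 2 → ℤ) where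
  toFun v := v ᵥ* A.1
  invFun v := v ᵥ* (A⁻¹).1
  left_inv v := vm_cancel A v
  right_inv v := vm_cancel' A v

theorem wE_slash (a : (Fin 2 → ℤ) → ℂ) (A : SL(2, ℤ)) :
    wE k a ∣[k] A = wE k (fun v => a (v ᵥ* (A⁻¹).1)) := by
  funext z
  rw [SL_slash_apply]
  unfold wE
  rw [← tsum_mul_right,
    ← (vmEquiv A).tsum_eq (fun w => a (w ᵥ* (A⁻¹).1) * eisSummand k w z)]
  refine tsum_congr fun v => ?_
  show _ = a ((v ᵥ* A.1) ᵥ* (A⁻¹).1) * eisSummand k (v ᵥ* A.1) z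
  rw [vm_cancel, eisSummand_SL2_apply]
  have h2 : denom A z ≠ 0 := denom_ne_zero _ z
  rw [mul_assoc, mul_comm (denom _ z ^ k) _, mul_assoc, ← zpow_add₀ h2, add_neg_cancel, zpow_zero,
    mul_one]

/-! ### holomorphy -/

theorem wE_term_bound (hk : 3 ≤ k) (ha : ∀ v, ‖a v‖ ≤ 1) (v : Fin 2 → ℤ) {A B : ℝ} (hB : 0 < B)
    {z : ℍ} (hz : z ∈ verticalStrip A B) :
    ‖a v * eisSummand k v z‖ ≤ r ⟨⟨A, B⟩, hB⟩ ^ (-k : ℝ) * ‖v‖ ^ (-k : ℝ) := by
  refine (wE_norm_term_le ha v z).trans ?_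
  have hk0 : (0 : ℝ) ≤ k := by
    have : (0 : ℤ) ≤ k := by omega
    exact_mod_cast this
  simpa only [eisSummand, one_div, ← _root_.zpow_neg, norm_zpow, ← Real.rpow_intCast,
    Int.cast_neg] using summand_bound_of_mem_verticalStrip hk0 v hB hz

theorem wE_summable_bound (hk : 3 ≤ k) (c : ℝ) :
    Summable fun v : Fin 2 → ℤ => c * ‖v‖ ^ (-k : ℝ) := by
  have hk' : (2 : ℝ) < k := by norm_cast
  exact (summable_one_div_norm_rpow hk').mul_left c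

theorem wE_tendstoLocallyUniformly (hk : 3 ≤ k) (ha : ∀ v, ‖a v‖ ≤ 1) :
    TendstoLocallyUniformly (fun (s : Finset (Fin 2 → ℤ)) ↦ (∑ x ∈ s, a x * eisSummand k x ·))
      (wE k a ·) Filter.atTop := by
  simp only [tendstoLocallyUniformly_iff_forall_isCompact, wE]
  intro K hK
  obtain ⟨A, B, hB, HABK⟩ := subset_verticalStrip_of_isCompact hK
  exact (tendstoUniformlyOn_tsum (hu := wE_summable_bound hk (r ⟨⟨A, B⟩, hB⟩ ^ (-k : ℝ)))
    (fun p z hz ↦ wE_term_bound hk ha p hB hz)).mono HABK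

theorem wE_tendstoLocallyUniformlyOn (hk : 3 ≤ k) (ha : ∀ v, ‖a v‖ ≤ 1) :
    TendstoLocallyUniformlyOn (fun (s : Finset (Fin 2 → ℤ)) ↦
      ↑ₕ(fun (z : ℍ) ↦ ∑ x ∈ s, a x * eisSummand k x z)) (↑ₕ(wE k a))
          Filter.atTop {z : ℂ | 0 < z.im} := by
  rw [← upperHalfPlaneSet, ← range_coe, ← Set.image_univ]
  apply TendstoLocallyUniformlyOn.comp (s := ⊤) _ _ _ (OpenPartialHomeomorph.continuousOn_symm _)
  · simp only [Set.top_eq_univ, tendstoLocallyUniformlyOn_univ]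
    apply wE_tendstoLocallyUniformly hk ha
  · simp only [IsOpenEmbedding.toOpenPartialHomeomorph_target, Set.top_eq_univ,
      Set.mapsTo_range_iff, Set.mem_univ, forall_const]

theorem wE_mdiff (hk : 3 ≤ k) (ha : ∀ v, ‖a v‖ ≤ 1) : MDiff (wE k a) := by
  intro τ
  suffices DifferentiableAt ℂ (↑ₕ(wE k a)) τ.1 by
    convert!
      MDifferentiableAt.comp τ (DifferentiableAt.mdifferentiableAt this) τ.mdifferentiable_coe
    exact funext fun z ↦ (comp_ofComplex (wE k a) z).symm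
  refine DifferentiableOn.differentiableAt ?_ (isOpen_upperHalfPlaneSet.mem_nhds τ.2)
  refine (wE_tendstoLocallyUniformlyOn hk ha).differentiableOn
    (Eventually.of_forall fun s ↦ ?_) isOpen_upperHalfPlaneSet
  have e : (↑ₕ(fun (z : ℍ) ↦ ∑ x ∈ s, a x * eisSummand k x z)) =
      fun w : ℂ => ∑ x ∈ s, a x * (↑ₕ(eisSummand k x)) w := by
    funext w
    simp
  rw [e]
  exact DifferentiableOn.fun_sum fun x _ ↦
    (eisSummand_extension_differentiableOn k x).const_mul (a x)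

/-! ### boundedness at `i∞` -/

theorem denom_T_zpow (n : ℤ) (z : ℍ) : denom (ModularGroup.T ^ n : SL(2, ℤ)) z = 1 := by
  rw [ModularGroup.denom_apply]
  have h := ModularGroup.coe_T_zpow n
  have h10 : (ModularGroup.T ^ n : SL(2, ℤ)) 1 0 = 0 := by
    show (ModularGroup.T ^ n : SL(2, ℤ)).1 1 0 = 0
    rw [h]; rfl
  have h11 : (ModularGroup.T ^ n : SL(2, ℤ)) 1 1 = 1 := by
    show (ModularGroup.T ^ n : SL(2, ℤ)).1 1 1 = 1
    rw [h]; rfl
  rw [h10, h11]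
  simp

/-- the sum of the norms of all summands is invariant under translations. -/
theorem tsum_norm_eisSummand_T (n : ℤ) (z : ℍ) :
    ∑' v : Fin 2 → ℤ, ‖eisSummand k v ((ModularGroup.T ^ n : SL(2, ℤ)) • z)‖ =
      ∑' v : Fin 2 → ℤ, ‖eisSummand k v z‖ := by
  rw [← (vmEquiv (ModularGroup.T ^ n)).tsum_eq (fun w => ‖eisSummand k w z‖)]
  refine tsum_congr fun v => ?_
  rw [eisSummand_SL2_apply, denom_T_zpow, _root_.one_zpow, one_mul]
  rfl

theorem wE_norm_le (hk : 3 ≤ k) (ha : ∀ v, ‖a v‖ ≤ 1) (z : ℍ) :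
    ‖wE k a z‖ ≤ ∑' v : Fin 2 → ℤ, ‖eisSummand k v z‖ := by
  unfold wE
  refine (norm_tsum_le_tsum_norm (wE_summable hk ha z).norm).trans ?_
  exact (wE_summable hk ha z).norm.tsum_le_tsum (fun v => wE_norm_term_le ha v z)
    (summable_norm_eisSummand hk z)

theorem wE_isBounded (hk : 3 ≤ k) (ha : ∀ v, ‖a v‖ ≤ 1) : IsBoundedAtImInfty (wE k a) := by
  rw [UpperHalfPlane.isBoundedAtImInfty_iff]
  refine ⟨∑' x : Fin 2 → ℤ, r ⟨⟨1, 2⟩, Nat.ofNat_pos⟩ ^ (-k : ℝ) * ‖x‖ ^ (-k : ℝ), 2, ?_⟩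
  intro z hz
  obtain ⟨n, hn⟩ := ModularGroup_T_zpow_mem_verticalStrip z (N := 1) one_pos
  refine (wE_norm_le hk ha z).trans ?_
  rw [← tsum_norm_eisSummand_T (((1 : ℕ) : ℤ) * n) z]
  refine (summable_norm_eisSummand hk _).tsum_le_tsum (fun x => ?_) (wE_summable_bound hk _)
  have h1 := wE_term_bound (a := fun _ => 1) hk (fun _ => by simp) x (A := ((1 : ℕ) : ℝ))
    (B := 2) two_pos (verticalStrip_anti_right _ hz hn)
  simpa using h1

theorem wE_slash_isBounded (hk : 3 ≤ k) (ha : ∀ v, ‖a v‖ ≤ 1) (A : SL(2, ℤ)) :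
    IsBoundedAtImInfty (wE k a ∣[k] A) := by
  rw [wE_slash]
  exact wE_isBounded hk fun v => ha _

/-! ### the limit at `i∞` -/

theorem eisSummand_tendsto_zero (hk : 3 ≤ k) {v : Fin 2 → ℤ} (hv : v 0 ≠ 0) :
    Tendsto (fun z : ℍ => eisSummand k v z) atImInfty (𝓝 0) := by
  rw [tendsto_zero_iff_norm_tendsto_zero]
  have h1 : Tendsto (fun z : ℍ => (z.im) ^ (-k)) atImInfty (𝓝 0) := by
    have : Tendsto (fun x : ℝ => x ^ (-k)) atTop (𝓝 0) := tendsto_zpow_atTop_zero (by omega)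
    exact this.comp tendsto_comap
  refine squeeze_zero' (Eventually.of_forall fun z => norm_nonneg _) ?_ h1
  refine Eventually.of_forall fun z => ?_
  unfold eisSummand
  rw [norm_zpow, _root_.zpow_neg, _root_.zpow_neg]
  have him : z.im ≤ ‖(v 0 : ℂ) * (z : ℂ) + (v 1 : ℂ)‖ := by
    have e : ((v 0 : ℂ) * (z : ℂ) + (v 1 : ℂ)).im = (v 0 : ℝ) * z.im := by simp
    have h2 := Complex.abs_im_le_norm ((v 0 : ℂ) * (z : ℂ) + (v 1 : ℂ))
    rw [e, abs_mul, abs_of_pos z.im_pos] at h2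
    have h3 : (1 : ℝ) ≤ |(v 0 : ℝ)| := by
      have : (1 : ℤ) ≤ |v 0| := Int.one_le_abs hv
      exact_mod_cast this
    nlinarith [z.im_pos]
  have hk0 : (0 : ℤ) ≤ k := by omega
  exact inv_anti₀ (zpow_pos z.im_pos _) (zpow_le_zpow_left₀ hk0 z.im_pos.le him)

/-- the constant term of `wE k a`. -/
def wEconst (k : ℤ) (a : (Fin 2 → ℤ) → ℂ) : ℂ :=
  ∑' v : Fin 2 → ℤ, a v * (if v 0 = 0 then ((v 1 : ℤ) : ℂ) ^ (-k) else 0)

theorem wE_tendsto_strip (hk : 3 ≤ k) (ha : ∀ v, ‖a v‖ ≤ 1) (A : ℝ) :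
    Tendsto (wE k a) (atImInfty ⊓ 𝓟 (verticalStrip A 1)) (𝓝 (wEconst k a)) := by
  unfold wE wEconst
  refine tendsto_tsum_of_dominated_convergence
    (wE_summable_bound hk (r ⟨⟨A, 1⟩, one_pos⟩ ^ (-k : ℝ))) (fun v => ?_) ?_
  · refine Tendsto.const_mul _ ?_
    split_ifs with hv
    · have : eisSummand k v = fun _ => ((v 1 : ℤ) : ℂ) ^ (-k) := by
        funext z
        simp [eisSummand, hv]
      rw [this]
      exact tendsto_const_nhds
    · exact (eisSummand_tendsto_zero hk hv).mono_left inf_le_left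
  · have : ∀ᶠ z in atImInfty ⊓ 𝓟 (verticalStrip A 1), z ∈ verticalStrip A 1 :=
      Filter.Eventually.filter_mono inf_le_right (Filter.mem_principal_self _)
    filter_upwards [this] with z hz v
    exact wE_term_bound hk ha v one_pos hz

theorem wE_tendsto (hk : 3 ≤ k) (ha : ∀ v, ‖a v‖ ≤ 1) {h : ℕ} (hh : 0 < h)
    (hinv : ∀ n : ℤ, wE k a ∣[k] (ModularGroup.T ^ ((h : ℤ) * n) : SL(2, ℤ)) = wE k a) :
    Tendsto (wE k a) atImInfty (𝓝 (wEconst k a)) := by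
  have h1 := wE_tendsto_strip (k := k) hk ha (h : ℝ)
  intro U hU
  have h2 := h1 hU
  rw [Filter.mem_map, Filter.mem_inf_principal, atImInfty_mem] at h2
  obtain ⟨B, hB⟩ := h2
  rw [Filter.mem_map, atImInfty_mem]
  refine ⟨max B 1, fun z hz => ?_⟩
  obtain ⟨n, hn⟩ := ModularGroup_T_zpow_mem_verticalStrip z hh
  have h3 : wE k a ((ModularGroup.T ^ ((h : ℤ) * n) : SL(2, ℤ)) • z) = wE k a z := by
    have := congrFun (hinv n) z
    rw [SL_slash_apply, denom_T_zpow, _root_.one_zpow, mul_one] at this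
    exact this
  have h4 : ((ModularGroup.T ^ ((h : ℤ) * n) : SL(2, ℤ)) • z).im = z.im :=
    ModularGroup.im_T_zpow_smul z _
  have h5 := hB _ (by rw [h4]; exact (le_max_left _ _).trans hz)
    (verticalStrip_anti_right _ ((le_max_right _ _).trans hz) hn)
  rw [Set.mem_preimage] at h5 ⊢
  rwa [h3] at h5

/-! ### the coefficients attached to a character -/

/-- the bottom row of a matrix. -/
def brow (γ : SL(2, ℤ)) : Fin 2 → ℤ := γ.1 1

theorem brow_mul (γ δ : SL(2, ℤ)) : brow (γ * δ) = brow γ ᵥ* δ.1 := by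
  funext j
  show (γ.1 * δ.1) 1 j = _
  rw [Matrix.mul_apply]
  rfl

theorem brow_one : brow 1 = ![0, 1] := by
  funext j
  fin_cases j <;> rfl

variable (H : Subgroup SL(2, ℤ)) (χ : H →* ℂˣ)

open Classical in
/-- `a (bottom row of γ) = (χ γ)⁻¹`, `a = 0` on vectors which are not bottom rows. -/
def chiCoeff (v : Fin 2 → ℤ) : ℂ :=
  if h : ∃ γ : H, brow (γ : SL(2, ℤ)) = v then (((χ h.choose)⁻¹ : ℂˣ) : ℂ) else 0

variable {H χ}

theorem chiCoeff_brow (hpar : ∀ γ : H, (γ : SL(2, ℤ)) 1 0 = 0 → χ γ = 1) (γ : H) :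
    chiCoeff H χ (brow (γ : SL(2, ℤ))) = (((χ γ)⁻¹ : ℂˣ) : ℂ) := by
  have h : ∃ γ' : H, brow (γ' : SL(2, ℤ)) = brow (γ : SL(2, ℤ)) := ⟨γ, rfl⟩
  unfold chiCoeff
  rw [dif_pos h]
  have h1 : brow ((h.choose * γ⁻¹ : H) : SL(2, ℤ)) = ![0, 1] := by
    have : ((h.choose * γ⁻¹ : H) : SL(2, ℤ)) = (h.choose : SL(2, ℤ)) * (γ : SL(2, ℤ))⁻¹ := rfl
    rw [this, brow_mul, h.choose_spec, ← brow_mul, mul_inv_cancel, brow_one]
  have h2 : χ (h.choose * γ⁻¹) = 1 := hpar _ (congrFun h1 0)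
  rw [map_mul, map_inv, mul_inv_eq_one] at h2
  rw [h2]

theorem chiCoeff_of_not {v : Fin 2 → ℤ} (h : ¬ ∃ γ : H, brow (γ : SL(2, ℤ)) = v) :
    chiCoeff H χ v = 0 := by
  unfold chiCoeff
  rw [dif_neg h]

theorem chiCoeff_norm_le (h1 : ∀ γ : H, ‖(χ γ : ℂ)‖ = 1) (v : Fin 2 → ℤ) :
    ‖chiCoeff H χ v‖ ≤ 1 := by
  unfold chiCoeff
  split_ifs with h
  · rw [Units.val_inv_eq_inv_val, norm_inv, h1, inv_one]
  · simp

theorem chiCoeff_vm (hpar : ∀ γ : H, (γ : SL(2, ℤ)) 1 0 = 0 → χ γ = 1) (δ : H) (v : Fin 2 → ℤ) :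
    chiCoeff H χ (v ᵥ* ((δ : SL(2, ℤ))⁻¹).1) = (χ δ : ℂ) * chiCoeff H χ v := by
  by_cases h : ∃ γ : H, brow (γ : SL(2, ℤ)) = v
  · obtain ⟨γ, rfl⟩ := h
    have e : brow (γ : SL(2, ℤ)) ᵥ* ((δ : SL(2, ℤ))⁻¹).1 = brow ((γ * δ⁻¹ : H) : SL(2, ℤ)) := by
      have : ((γ * δ⁻¹ : H) : SL(2, ℤ)) = (γ : SL(2, ℤ)) * (δ : SL(2, ℤ))⁻¹ := rfl
      rw [this, brow_mul]
    rw [e, chiCoeff_brow hpar, chiCoeff_brow hpar, map_mul, map_inv, mul_inv, inv_inv,
      Units.val_mul, mul_comm]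
  · rw [chiCoeff_of_not h, mul_zero]
    refine chiCoeff_of_not ?_
    rintro ⟨γ, hγ⟩
    refine h ⟨γ * δ, ?_⟩
    have : ((γ * δ : H) : SL(2, ℤ)) = (γ : SL(2, ℤ)) * (δ : SL(2, ℤ)) := rfl
    rw [this, brow_mul, hγ, vm_cancel']

/-- the twisted Eisenstein series. -/
def twEis (H : Subgroup SL(2, ℤ)) (χ : H →* ℂˣ) (k : ℤ) : ℍ → ℂ := wE k (chiCoeff H χ)

theorem twEis_slash (hpar : ∀ γ : H, (γ : SL(2, ℤ)) 1 0 = 0 → χ γ = 1) (δ : H) :
    twEis H χ k ∣[k] (δ : SL(2, ℤ)) = (χ δ : ℂ) • twEis H χ k := by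
  unfold twEis
  rw [wE_slash]
  funext z
  unfold wE
  rw [Pi.smul_apply, smul_eq_mul, ← tsum_mul_left]
  refine tsum_congr fun v => ?_
  show chiCoeff H χ (v ᵥ* ((δ : SL(2, ℤ))⁻¹).1) * _ = _
  rw [chiCoeff_vm hpar, mul_assoc]

theorem twEis_const (hpar : ∀ γ : H, (γ : SL(2, ℤ)) 1 0 = 0 → χ γ = 1) (hk2 : Even k) :
    wEconst k (chiCoeff H χ) = 1 ∨ wEconst k (chiCoeff H χ) = 2 := by
  classical
  have hne : (![0, 1] : Fin 2 → ℤ) ≠ ![0, -1] := by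
    intro h
    have := congrFun h 1
    simp at this
  have hsupp : ∀ v ∉ ({![0, 1], ![0, -1]} : Finset (Fin 2 → ℤ)),
      chiCoeff H χ v * (if v 0 = 0 then ((v 1 : ℤ) : ℂ) ^ (-k) else 0) = 0 := by
    intro v hv
    by_cases h : ∃ γ : H, brow (γ : SL(2, ℤ)) = v
    · obtain ⟨γ, rfl⟩ := h
      split_ifs with h0
      · exfalso
        apply hv
        have hdet := Matrix.det_fin_two (γ : SL(2, ℤ)).1
        rw [(γ : SL(2, ℤ)).2] at hdet
        have h0' : (γ : SL(2, ℤ)).1 1 0 = 0 := h0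
        rw [h0', mul_zero, sub_zero] at hdet
        have h11 : (γ : SL(2, ℤ)).1 1 1 = 1 ∨ (γ : SL(2, ℤ)).1 1 1 = -1 :=
          Int.isUnit_iff.mp (IsUnit.of_mul_eq_one _ (by rw [mul_comm]; exact hdet.symm))
        rw [Finset.mem_insert, Finset.mem_singleton]
        rcases h11 with h11 | h11
        · left
          funext j
          fin_cases j
          · exact h0'
          · exact h11
        · right
          funext j
          fin_cases j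
          · exact h0'
          · exact h11
      · rw [mul_zero]
    · rw [chiCoeff_of_not h, zero_mul]
  unfold wEconst
  rw [tsum_eq_sum hsupp, Finset.sum_pair hne]
  have e1 : chiCoeff H χ ![0, 1] = 1 := by
    have := chiCoeff_brow hpar (1 : H)
    rw [map_one, inv_one, Units.val_one] at this
    rw [← this]
    congr 1
    exact brow_one.symm
  have e2 : ((-1 : ℂ)) ^ (-k) = 1 := by
    rw [_root_.zpow_neg, hk2.neg_one_zpow, inv_one]
  have e3 : chiCoeff H χ ![0, -1] = 0 ∨ chiCoeff H χ ![0, -1] = 1 := by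
    by_cases h : ∃ γ : H, brow (γ : SL(2, ℤ)) = ![0, -1]
    · right
      obtain ⟨γ, hγ⟩ := h
      rw [← hγ, chiCoeff_brow hpar, hpar γ (congrFun hγ 0), inv_one, Units.val_one]
    · left
      exact chiCoeff_of_not h
  simp only [Matrix.cons_val_zero, Matrix.cons_val_one, if_true, e1, Int.cast_one, Int.cast_neg,
    _root_.one_zpow, e2, mul_one]
  rcases e3 with e3 | e3
  · left; rw [e3, add_zero]
  · right; rw [e3]; norm_num

/-- **Twisted Eisenstein series.** -/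
theorem exists_twisted_form (H : Subgroup SL(2, ℤ)) (χ : H →* ℂˣ) (h1 : ∀ γ : H, ‖(χ γ : ℂ)‖ = 1)
    (hpar : ∀ γ : H, (γ : SL(2, ℤ)) 1 0 = 0 → χ γ = 1)
    (hT : ∃ h : ℕ, 0 < h ∧ ModularGroup.T ^ h ∈ H) {k : ℤ} (hk : 3 ≤ k) (hk2 : Even k) :
    ∃ f : ℍ → ℂ, MDiff f ∧ (∀ γ : H, f ∣[k] (γ : SL(2, ℤ)) = (χ γ : ℂ) • f) ∧
      (∀ g : SL(2, ℤ), IsBoundedAtImInfty (f ∣[k] g)) ∧
      ∃ c : ℂ, c ≠ 0 ∧ Tendsto f atImInfty (𝓝 c) := by
  have ha := chiCoeff_norm_le (H := H) (χ := χ) h1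
  refine ⟨twEis H χ k, wE_mdiff hk ha, twEis_slash hpar, wE_slash_isBounded hk ha,
    wEconst k (chiCoeff H χ), ?_, ?_⟩
  · rcases twEis_const (H := H) (χ := χ) hpar hk2 with h | h <;> rw [h] <;> norm_num
  · obtain ⟨h, hh, hTh⟩ := hT
    refine wE_tendsto hk ha hh fun n => ?_
    have hmem : (ModularGroup.T ^ ((h : ℤ) * n) : SL(2, ℤ)) ∈ H := by
      rw [_root_.zpow_mul, zpow_natCast]
      exact H.zpow_mem hTh n
    have h2 := twEis_slash (k := k) hpar (⟨_, hmem⟩ : H)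
    have h3 : χ ⟨_, hmem⟩ = 1 := by
      refine hpar _ ?_
      show (ModularGroup.T ^ ((h : ℤ) * n) : SL(2, ℤ)).1 1 0 = 0
      rw [ModularGroup.coe_T_zpow]; rfl
    rw [h3, Units.val_one, one_smul] at h2
    exact h2

theorem pow_slash_SL (f : ℍ → ℂ) (p : ℕ) (k : ℤ) (γ : SL(2, ℤ)) :
    (f ^ p) ∣[(p : ℤ) * k] γ = (f ∣[k] γ) ^ p := by
  funext z
  rw [SL_slash_apply, Pi.pow_apply, Pi.pow_apply, SL_slash_apply, mul_pow, ← zpow_natCast (_ ^ (-k)),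
    ← _root_.zpow_mul]
  congr 2
  ring

theorem isBoundedAtImInfty_pow {g : ℍ → ℂ} (hg : IsBoundedAtImInfty g) (p : ℕ) :
    IsBoundedAtImInfty (g ^ p) := by
  induction p with
  | zero =>
    rw [pow_zero]
    exact Filter.const_boundedAtFilter _ (1 : ℂ)
  | succ n ih =>
    rw [pow_succ]
    exact ih.mul hg

/-- the `p`-th power of a form with a character of order dividing `p` is a modular form on `H`. -/
theorem pow_mem_MFs_of_char {H : Subgroup SL(2, ℤ)} {χ : H →* ℂˣ} {k : ℤ} {f : ℍ → ℂ}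
    (hf1 : MDiff f) (hf2 : ∀ γ : H, f ∣[k] (γ : SL(2, ℤ)) = (χ γ : ℂ) • f)
    (hf3 : ∀ g : SL(2, ℤ), IsBoundedAtImInfty (f ∣[k] g)) {p : ℕ} (hχ : ∀ γ : H, χ γ ^ p = 1) :
    f ^ p ∈ Fermat.Agent.S20.MFs H ((p : ℤ) * k) := by
  refine ⟨hf1.pow p, fun γ hγ => ?_, fun g => ?_⟩
  · rw [pow_slash_SL, hf2 ⟨γ, hγ⟩, smul_pow, ← Units.val_pow_eq_pow_val, hχ, Units.val_one, one_smul]
  · rw [pow_slash_SL]
    exact isBoundedAtImInfty_pow (hf3 g) p

end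

end Fermat.Agent.S29
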