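import Fermat.Agent.S29.ANQuot
import Fermat.Agent.S29.TwEis
import Fermat.Agent.S20.LevelOneDiv

/-!
# S29 [AN], piece K1: existence of a Kummer element, given that `Mchi` is spanned by algebraic forms
-/

set_option autoImplicit false

namespace Fermat.Agent.S29

open UpperHalfPlane ModularForm Filter Topology CongruenceSubgroup ModularCurve EisensteinSeries
open Fermat.Agent.S20 Fermat.Agent.S24
open scoped MatrixGroups Manifold ModularForm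

variable {N : ℕ} [NeZero N] {m : ℕ} {χ : Gamma0 N →* ℂˣ}

theorem k1_exists_iotaL_eq {E : ℍ → ℂ} (h : IsAlgQ E) : ∃ e : LaurentSeries Kb, iotaL e = qLf E := by
  obtain ⟨s, hs⟩ := h
  refine ⟨HahnSeries.ofPowerSeries ℤ Kb s, ?_⟩
  ext n
  rw [iotaL_coeff, qLf]
  rcases le_or_gt 0 n with hn | hn
  · lift n to ℕ using hn
    rw [HahnSeries.ofPowerSeries_apply_coeff, HahnSeries.ofPowerSeries_apply_coeff, hs]
  · rw [ofPowerSeries_coeff_of_neg _ hn, ofPowerSeries_coeff_of_neg _ hn, map_zero]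

omit [NeZero N] in
/-- the twisted Eisenstein series of weight `4` is a nonzero element of `Mchi`. -/
theorem k1_exists_ne_zero (hm : 0 < m) (hχ : χ ^ m = 1) (hpar : IsPar N χ) :
    ∃ E ∈ Mchi (Gamma0 N) χ 4, E ≠ 0 := by
  have h1 : ∀ γ : Gamma0 N, ‖(χ γ : ℂ)‖ = 1 := by
    intro γ
    have h2 : (χ γ) ^ m = 1 := by rw [← MonoidHom.pow_apply, hχ, MonoidHom.one_apply]
    have h3 : ((χ γ : ℂˣ) : ℂ) ^ m = 1 := by
      rw [← Units.val_pow_eq_pow_val, h2, Units.val_one]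
    exact Complex.norm_eq_one_of_pow_eq_one h3 hm.ne'
  have hp : ∀ γ : Gamma0 N, (γ : SL(2, ℤ)) 1 0 = 0 → χ γ = 1 := by
    intro γ hγ
    refine hpar 1 γ ?_
    rw [inv_one, one_mul, mul_one]
    exact hγ
  obtain ⟨f, hf1, hf2, hf3, c, hc, hlim⟩ := exists_twisted_form (Gamma0 N) χ h1 hp
    ⟨1, one_pos, by rw [pow_one]; exact T_mem_Gamma0 N⟩ (k := 4) (by norm_num) ⟨2, by norm_num⟩
  refine ⟨f, ⟨hf1, hf2, hf3⟩, ?_⟩
  rintro rfl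
  have h0 : Tendsto (0 : ℍ → ℂ) atImInfty (𝓝 0) := tendsto_const_nhds
  exact hc (tendsto_nhds_unique hlim h0)

/-- **K1**, from the algebraicity of `Mchi` in weight `4`. -/
theorem exists_isKumChi_of_span (hm : 0 < m) (hχ : χ ^ m = 1) (hpar : IsPar N χ)
    (hspan : Mchi (Gamma0 N) χ 4 ≤
      Submodule.span ℂ {f | f ∈ Mchi (Gamma0 N) χ 4 ∧ IsAlgQ f}) :
    ∃ u : FN N, IsKumChi N m χ u := by
  obtain ⟨E₀, hE₀, hE₀0⟩ := k1_exists_ne_zero hm hχ hpar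
  obtain ⟨E, ⟨hE, hEalg⟩, hE0⟩ : ∃ E ∈ {f | f ∈ Mchi (Gamma0 N) χ 4 ∧ IsAlgQ f}, E ≠ 0 := by
    by_contra hcon
    push Not at hcon
    have hbot := (Submodule.span_eq_bot (R := ℂ)).2 hcon
    rw [hbot] at hspan
    exact hE₀0 ((Submodule.mem_bot ℂ).1 (hspan hE₀))
  have hT : ∃ hT : ModularGroup.T ∈ Gamma0 N, χ ⟨_, hT⟩ = 1 := by
    refine ⟨T_mem_Gamma0 N, hpar 1 _ ?_⟩
    rw [inv_one, one_mul, mul_one]
    simp [ModularGroup.T]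
  have nE : E ∈ Fermat.Agent.S23.Nice := mem_Nice_of_mem_Mchi hT hE
  have hD : (⇑E₄ : ℍ → ℂ) ∈ MFs (Gamma0 N) 4 := MFs_top_le E4_mem
  have nD := mem_Nice_of_mem_MFs_Gamma0 hD
  have hD0 : (⇑E₄ : ℍ → ℂ) ≠ 0 := fun h => E₄_ne_zero' (DFunLike.coe_injective h)
  have hqD : qLf (⇑E₄ : ℍ → ℂ) ≠ 0 := fun h => hD0 ((qLf_eq_zero_iff nD).1 h)
  obtain ⟨e, he⟩ := k1_exists_iotaL_eq hEalg
  obtain ⟨e₄, he₄⟩ := exists_iotaL_eq_of_isRatQ isRatQ_E4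
  have hrel : iotaL ((e / e₄) ^ m) * qLf (⇑E₄ : ℍ → ℂ) ^ m = qLf E ^ m := by
    rw [map_pow, map_div₀, he, he₄, ← mul_pow, div_mul_cancel₀ _ hqD]
  have hEm : E ^ m ∈ MFs (Gamma0 N) ((m : ℤ) * 4) := by
    have := pow_mem_Mchi hE m
    rwa [hχ, Mchi_one] at this
  have hDm : (⇑E₄ : ℍ → ℂ) ^ m ∈ MFs (Gamma0 N) ((m : ℤ) * 4) := by
    have h1 : (⇑E₄ : ℍ → ℂ) ∈ Mchi (Gamma0 N) 1 4 := by rw [Mchi_one]; exact hD
    have h2 := pow_mem_Mchi h1 m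
    have e1 : (1 : Gamma0 N →* ℂˣ) ^ m = 1 :=
      MonoidHom.ext fun g => by rw [MonoidHom.pow_apply, MonoidHom.one_apply, one_pow]
    rwa [e1, Mchi_one] at h2
  have hDm0 : (⇑E₄ : ℍ → ℂ) ^ m ≠ 0 := by
    intro h
    have h2 : qLf ((⇑E₄ : ℍ → ℂ) ^ m) = 0 := by rw [h, qLf_zero]
    rw [qLf_pow nD] at h2
    exact pow_ne_zero m hqD h2
  have hmem : (e / e₄) ^ m ∈ FN N :=
    mem_FN_of_quot N hEm hDm hDm0 (by rw [qLf_pow nD, qLf_pow nE]; exact hrel)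
  exact ⟨⟨_, hmem⟩, hχ, hpar, 4, E, ⇑E₄, hE, hD, hE0, hD0, hrel⟩

end Fermat.Agent.S29
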