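import Mathlib

/-!
# S29, piece AN-ALG (1): derivations of `ℂ`

A complex number killed by every derivation of `ℂ` is algebraic over `ℚ`.
A finite dimensional space of sequences stable under all derivations (applied coefficientwise)
is spanned by sequences of algebraic numbers.
-/

set_option autoImplicit false

namespace Fermat.Agent.S29

open IntermediateField KaehlerDifferential Polynomial TensorProduct

/-- If `F` is algebraic over `K(y)`, `y` transcendental, characteristic zero, then there is a
`K`-derivation of `F` with `d y = 1`. -/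
theorem exists_derivation_apply_eq_one {K F : Type*} [Field K] [Field F] [Algebra K F] [CharZero K]
    {y : F} (hy : Transcendental K y) (halg : Algebra.IsAlgebraic K⟮y⟯ F) :
    ∃ d : Derivation K F F, d y = 1 := by
  let a1 : Algebra K[X] K⟮y⟯ := (aeval (AdjoinSimple.gen K y)).toAlgebra
  let a2 : Algebra K[X] F := (aeval y).toAlgebra
  have h1 : ∀ p : K[X], algebraMap K[X] K⟮y⟯ p = aeval (AdjoinSimple.gen K y) p := fun _ => rfl
  have h2 : ∀ p : K[X], algebraMap K[X] F p = aeval y p := fun _ => rfl
  have h3 : ∀ p : K[X], ((aeval (AdjoinSimple.gen K y) p : K⟮y⟯) : F) = aeval y p := by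
    intro p
    rw [← IntermediateField.algebraMap_apply, ← aeval_algebraMap_apply,
      IntermediateField.algebraMap_apply, AdjoinSimple.coe_gen]
  have t1 : IsScalarTower K[X] K⟮y⟯ F := .of_algebraMap_eq fun p => by
    rw [h1, h2, IntermediateField.algebraMap_apply, h3]
  have t2 : IsScalarTower K K[X] F := .of_algebraMap_eq fun c => by
    rw [h2, Polynomial.algebraMap_eq, aeval_C]
  have t3 : IsScalarTower K K[X] K⟮y⟯ := .of_algebraMap_eq fun c => by
    rw [h1, Polynomial.algebraMap_eq, aeval_C]
  have f1 : FaithfulSMul K[X] K⟮y⟯ := by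
    rw [faithfulSMul_iff_algebraMap_injective]
    intro p q hpq
    have := congrArg (fun z : K⟮y⟯ => (z : F)) hpq
    simp only [h1, h3] at this
    exact (transcendental_iff_injective.mp hy) this
  have fr : IsFractionRing K[X] K⟮y⟯ := IsFractionRing.of_field _ _ fun z => by
    obtain ⟨r, s, hrs⟩ := (IntermediateField.mem_adjoin_simple_iff K (z : F)).mp z.2
    refine ⟨r, s, Subtype.ext ?_⟩
    rw [hrs, h1, h1]
    push_cast
    rw [h3, h3]
  have e1 : Algebra.FormallyEtale K[X] K⟮y⟯ :=
    Algebra.FormallyEtale.of_isLocalization (nonZeroDivisors K[X])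
  have e2 : Algebra.FormallyEtale K⟮y⟯ F := Algebra.FormallyEtale.of_isSeparable _ _
  have e3 : Algebra.FormallyEtale K[X] F := Algebra.FormallyEtale.comp K[X] K⟮y⟯ F
  let E1 : F ⊗[K[X]] Ω[K[X]⁄K] ≃ₗ[F] Ω[F⁄K] := tensorKaehlerEquivOfFormallyEtale K K[X] F
  let E2 : F ⊗[K[X]] Ω[K[X]⁄K] ≃ₗ[F] F ⊗[K[X]] K[X] :=
    TensorProduct.AlgebraTensorModule.congr (LinearEquiv.refl F F) (polynomialEquiv K)
  let E3 : F ⊗[K[X]] K[X] ≃ₗ[F] F := TensorProduct.AlgebraTensorModule.rid K[X] F F
  let e : F ≃ₗ[F] Ω[F⁄K] := (E3.symm.trans E2.symm).trans E1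
  have hE3 : E3.symm 1 = (1 : F) ⊗ₜ[K[X]] (1 : K[X]) := by
    rw [LinearEquiv.symm_apply_eq]
    simp [E3]
  have hE2 : E2.symm ((1 : F) ⊗ₜ[K[X]] (1 : K[X])) = (1 : F) ⊗ₜ[K[X]] (D K K[X] X) := by
    rw [LinearEquiv.symm_apply_eq]
    simp [E2]
  have hE1 : E1 ((1 : F) ⊗ₜ[K[X]] (D K K[X] X)) = D K F y := by
    simp only [E1, tensorKaehlerEquivOfFormallyEtale_apply, mapBaseChange_tmul, one_smul, map_D,
      h2, aeval_X]
  have he : e 1 = D K F y := by
    simp only [e]
    rw [LinearEquiv.trans_apply, LinearEquiv.trans_apply, hE3, hE2, hE1]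
  refine ⟨(e.symm.toLinearMap).compDer (D K F), ?_⟩
  show e.symm (D K F y) = 1
  rw [← he]
  simp

/-- A transcendental complex number is moved by some derivation of `ℂ`. -/
theorem exists_derivation_complex (t : ℂ) (ht : Transcendental ℚ t) :
    ∃ d : Derivation ℚ ℂ ℂ, d t = 1 := by
  have hs : AlgebraicIndepOn ℚ id ({t} : Set ℂ) := by
    have : AlgebraicIndependent ℚ (fun x : ({t} : Set ℂ) => (x : ℂ)) :=
      (algebraicIndependent_singleton_iff (⟨t, rfl⟩ : ({t} : Set ℂ))).mpr ht
    exact this
  obtain ⟨B, hsB, hB⟩ := exists_isTranscendenceBasis_superset hs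
  have htB : t ∈ B := hsB rfl
  let K₀ : IntermediateField ℚ ℂ := IntermediateField.adjoin ℚ (B \ {t})
  have htr : Transcendental K₀ t := by
    rw [IntermediateField.transcendental_adjoin_iff]
    have := hB.1.transcendental_adjoin (s := {b : B | (b : ℂ) ≠ t}) (i := ⟨t, htB⟩) (by simp)
    have himg : ((↑) : B → ℂ) '' {b : B | (b : ℂ) ≠ t} = B \ {t} := by
      ext z
      simp only [Set.mem_image, Set.mem_ofPred_eq, Subtype.exists, exists_and_left, exists_prop,
        exists_eq_right_right, Set.mem_sdiff, Set.mem_singleton_iff]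
      tauto
    rw [himg] at this
    exact this
  have halg : Algebra.IsAlgebraic K₀⟮t⟯ ℂ := by
    have h := hB.isAlgebraic_field
    have heq : (K₀⟮t⟯).restrictScalars ℚ = IntermediateField.adjoin ℚ (Set.range ((↑) : B → ℂ)) := by
      refine (IntermediateField.adjoin_adjoin_left ℚ (B \ {t}) {t}).trans ?_
      congr 1
      ext z
      simp only [Set.union_singleton, Set.insert_sdiff_singleton, Subtype.range_coe_subtype,
        Set.ofPred_mem_eq]
      rw [Set.insert_eq_of_mem htB]
    rw [← heq] at h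
    exact h
  obtain ⟨d, hd⟩ := exists_derivation_apply_eq_one htr halg
  exact ⟨d.restrictScalars ℚ, hd⟩

/-- A complex number killed by all derivations of `ℂ` is algebraic. -/
theorem isAlgebraic_of_forall_derivation (c : ℂ) (h : ∀ d : Derivation ℚ ℂ ℂ, d c = 0) :
    IsAlgebraic ℚ c := by
  by_contra hc
  obtain ⟨d, hd⟩ := exists_derivation_complex c hc
  rw [h d] at hd
  exact zero_ne_one hd

/-- A finite dimensional space of sequences which is stable under all derivations of `ℂ`
(applied termwise) is spanned by its elements with algebraic terms. -/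
theorem span_algebraic_of_derivation_stable (V : Submodule ℂ (ℕ → ℂ)) [FiniteDimensional ℂ V]
    (hV : ∀ d : Derivation ℚ ℂ ℂ, ∀ v ∈ V, (fun n => d (v n)) ∈ V) :
    V = Submodule.span ℂ {v | v ∈ V ∧ ∀ n, IsAlgebraic ℚ (v n)} := by
  classical
  refine le_antisymm ?_ (Submodule.span_le.mpr fun v hv => hv.1)
  let φ : ℕ → Module.Dual ℂ V := fun n => (LinearMap.proj n).comp V.subtype
  have hspan : ⊤ ≤ Submodule.span ℂ (Set.range φ) := by
    rw [← Subspace.dualCoannihilator_dualAnnihilator_eq (W := Submodule.span ℂ (Set.range φ))]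
    have : (Submodule.span ℂ (Set.range φ)).dualCoannihilator = ⊥ := by
      rw [eq_bot_iff]
      intro v hv
      rw [Submodule.mem_dualCoannihilator] at hv
      have h0 : ∀ n, (v : ℕ → ℂ) n = 0 := fun n => hv (φ n) (Submodule.subset_span ⟨n, rfl⟩)
      rw [Submodule.mem_bot]
      exact Subtype.ext (funext h0)
    rw [this, Submodule.dualAnnihilator_bot]
  obtain ⟨ι, _, b, hb⟩ : ∃ (ι : Type) (_ : Fintype ι) (b : Module.Basis ι ℂ (Module.Dual ℂ V)),
      ∀ i, ∃ n, φ n = b i := by
    have hfin : Finite _ := Module.Finite.finite_basis (Module.Basis.ofSpan hspan)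
    exact ⟨_, Fintype.ofFinite _, Module.Basis.ofSpan hspan,
      fun i => Module.Basis.ofSpan_subset hspan ⟨i, rfl⟩⟩
  choose n hn using hb
  let w := fun i => (Module.evalEquiv ℂ V).symm (b.dualBasis i)
  have hw : ∀ i j, b j (w i) = if j = i then 1 else 0 := by
    intro i j
    rw [Module.apply_evalEquiv_symm_apply, Module.Basis.dualBasis_apply_self]
  have hsep : ∀ v v' : V, (∀ j, b j v = b j v') → v = v' := by
    intro v v' h
    rw [← sub_eq_zero, ← Module.forall_dual_apply_eq_zero_iff ℂ]
    intro f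
    rw [← b.sum_repr f, map_sub, LinearMap.sum_apply, LinearMap.sum_apply, sub_eq_zero]
    exact Finset.sum_congr rfl fun j _ => by rw [LinearMap.smul_apply, LinearMap.smul_apply, h j]
  have hrat : ∀ i, ∀ m, IsAlgebraic ℚ ((w i : ℕ → ℂ) m) := by
    intro i m
    refine isAlgebraic_of_forall_derivation _ fun d => ?_
    have hmem := hV d (w i) (w i).2
    have : (⟨_, hmem⟩ : V) = 0 := by
      apply hsep
      intro j
      have h1 := hw i j
      rw [← hn j] at h1 ⊢
      simp only [φ, LinearMap.comp_apply, Submodule.subtype_apply, LinearMap.proj_apply] at h1 ⊢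
      rw [h1]
      split_ifs <;> simp
    exact congrFun (congrArg Subtype.val this) m
  intro v hv
  have hv' : (⟨v, hv⟩ : V) = ∑ j, b j ⟨v, hv⟩ • w j := by
    apply hsep
    intro i
    simp [hw]
  have := congrArg Subtype.val hv'
  simp only at this
  rw [this]
  simp only [Submodule.coe_sum, Submodule.coe_smul]
  exact Submodule.sum_mem _ fun j _ => Submodule.smul_mem _ _
    (Submodule.subset_span ⟨(w j).2, hrat j⟩)

end Fermat.Agent.S29
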