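import Fermat.Agent.S29.ANDefs
import Fermat.Agent.S29.Deriv
import Fermat.Agent.S29.TwEis

/-!
# S29, piece AN-ALG (3): forms with character are spanned by forms with algebraic `q`-expansion

Every derivation `d` of `ℂ` acts coefficientwise on `Mchi (Gamma0 N) χ k` (`χ ^ m = 1`, `χ` trivial on
parabolic elements).  Hence this space is spanned by forms with algebraic `q`-expansion.
-/

set_option autoImplicit false

namespace Fermat.Agent.S29

open UpperHalfPlane ModularForm Filter Topology CongruenceSubgroup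
open Fermat.Agent.S20 Fermat.Agent.S23 Fermat.Agent.S24
open scoped MatrixGroups Manifold ModularForm

/-! ### algebraic numbers are in the range of `iota` -/

theorem exists_iota_eq_of_isAlgebraic {c : ℂ} (hc : IsAlgebraic ℚ c) : ∃ a : Kb, iota a = c := by
  let _ : Algebra ℚ (AlgebraicClosure ℚ) := AlgebraicClosure.instAlgebra ℚ
  have : Algebra.IsAlgebraic ℚ (AlgebraicClosure ℚ) := AlgebraicClosure.isAlgebraic ℚ
  let f : Kb →ₐ[ℚ] ℂ := IsAlgClosed.lift (R := ℚ) (S := AlgebraicClosure ℚ) (M := ℂ)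
  have hsplit : ((minpoly ℚ c).map (algebraMap ℚ Kb)).Splits := IsAlgClosed.splits _
  have hroot : Polynomial.aeval c (minpoly ℚ c) = 0 := minpoly.aeval ℚ c
  have h2 : (((minpoly ℚ c).map (algebraMap ℚ Kb)).map (f : Kb →+* ℂ)).IsRoot c := by
    rw [Polynomial.map_map]
    have : (f : Kb →+* ℂ).comp (algebraMap ℚ Kb) = algebraMap ℚ ℂ := f.comp_algebraMap
    rw [this, Polynomial.IsRoot, Polynomial.eval_map_algebraMap]
    exact hroot
  have h0 : (minpoly ℚ c).map (algebraMap ℚ Kb) ≠ 0 :=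
    Polynomial.map_ne_zero (minpoly.ne_zero hc.isIntegral)
  obtain ⟨a, ha⟩ := hsplit.mem_range_of_isRoot h0 h2
  exact ⟨a, ha⟩

/-! ### the coefficientwise derivation of `ℂ⟦X⟧` -/

/-- A derivation of `ℂ` applied to the coefficients of a power series. -/
noncomputable def dPS (d : Derivation ℚ ℂ ℂ) : Derivation ℚ (PowerSeries ℂ) (PowerSeries ℂ) :=
  Derivation.mk'
    { toFun := fun s => PowerSeries.mk fun n => d (PowerSeries.coeff n s)
      map_add' := fun a b => by ext n; simp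
      map_smul' := fun r a => by ext n; simp }
    (fun a b => by
      rw [smul_eq_mul, smul_eq_mul, mul_comm b]
      ext n
      simp only [LinearMap.coe_mk, AddHom.coe_mk, PowerSeries.coeff_mk, PowerSeries.coeff_mul,
        map_sum, Derivation.leibniz, smul_eq_mul, map_add, Finset.sum_add_distrib]
      congr 1
      exact Finset.sum_congr rfl fun x _ => mul_comm _ _)

@[simp] lemma coeff_dPS (d : Derivation ℚ ℂ ℂ) (s : PowerSeries ℂ) (n : ℕ) :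
    PowerSeries.coeff n (dPS d s) = d (PowerSeries.coeff n s) := by
  simp [dPS]

lemma dPS_smul (d : Derivation ℚ ℂ ℂ) (c : ℂ) (s : PowerSeries ℂ) :
    dPS d (c • s) = d c • s + c • dPS d s := by
  ext n
  simp only [coeff_dPS, map_add, PowerSeries.coeff_smul, smul_eq_mul, Derivation.leibniz]
  ring

lemma mul_dPS_pow (d : Derivation ℚ ℂ ℂ) (s : PowerSeries ℂ) (n : ℕ) :
    s * dPS d (s ^ n) = (n : ℂ) • (s ^ n * dPS d s) := by
  rw [Derivation.leibniz_pow]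
  cases n with
  | zero => simp
  | succ n =>
    simp only [Nat.add_sub_cancel, smul_eq_mul, nsmul_eq_mul, pow_succ]
    rw [Algebra.smul_def]
    simp only [map_natCast]
    ring

/-! ### `q`-expansions of nice functions -/

lemma qE_add {F G : ℍ → ℂ} (hF : F ∈ Nice) (hG : G ∈ Nice) :
    qExpansion 1 (F + G) = qExpansion 1 F + qExpansion 1 G :=
  qExpansion_add (Nice.analyticAt hF) (Nice.analyticAt hG)

lemma qE_mul {F G : ℍ → ℂ} (hF : F ∈ Nice) (hG : G ∈ Nice) :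
    qExpansion 1 (F * G) = qExpansion 1 F * qExpansion 1 G :=
  qExpansion_mul (Nice.analyticAt hF) (Nice.analyticAt hG)

lemma qE_smul (c : ℂ) {F : ℍ → ℂ} (hF : F ∈ Nice) :
    qExpansion 1 (c • F) = c • qExpansion 1 F :=
  qExpansion_smul (Nice.analyticAt hF) c

lemma qE_sub {F G : ℍ → ℂ} (hF : F ∈ Nice) (hG : G ∈ Nice) :
    qExpansion 1 (F - G) = qExpansion 1 F - qExpansion 1 G := by
  have : F - G = F + (-1 : ℂ) • G := by ext z; simp [sub_eq_add_neg]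
  rw [this, qE_add hF (Subalgebra.smul_mem _ hG _), qE_smul _ hG]
  simp [sub_eq_add_neg]

lemma qE_pow {F : ℍ → ℂ} (hF : F ∈ Nice) (n : ℕ) :
    qExpansion 1 (F ^ n) = qExpansion 1 F ^ n := by
  induction n with
  | zero => simpa using qExpansion_one 1
  | succ n ih => rw [pow_succ, pow_succ, qE_mul (Subalgebra.pow_mem _ hF n) hF, ih]

lemma qE_eq_zero_iff {F : ℍ → ℂ} (hF : F ∈ Nice) : qExpansion 1 F = 0 ↔ F = 0 := by
  constructor
  · intro h
    exact Nice.eq_of_qExpansion_eq hF (zero_mem Nice) (by rw [h, qExpansion_zero])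
  · rintro rfl
    exact qExpansion_zero 1

/-! ### a derivation of `ℂ` acts on `MFs (Gamma0 N) k` -/

theorem exists_dForm (N : ℕ) [NeZero N] (d : Derivation ℚ ℂ ℂ) {k : ℤ} {F : ℍ → ℂ}
    (hF : F ∈ MFs (Gamma0 N) k) :
    ∃ F' ∈ MFs (Gamma0 N) k, qExpansion 1 F' = dPS d (qExpansion 1 F) := by
  have key : ∀ G ∈ Submodule.span ℂ {G | G ∈ MFs (Gamma0 N) k ∧ IsRatQ G},
      G ∈ MFs (Gamma0 N) k ∧ ∃ G' ∈ MFs (Gamma0 N) k, qExpansion 1 G' = dPS d (qExpansion 1 G) := by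
    intro G hG
    induction hG using Submodule.span_induction with
    | mem G hG =>
      refine ⟨hG.1, 0, Submodule.zero_mem _, ?_⟩
      ext n
      obtain ⟨r, hr⟩ := hG.2 n
      rw [qExpansion_zero, coeff_dPS, hr]
      have : ((r : ℚ) : ℂ) = algebraMap ℚ ℂ r := rfl
      rw [this, Derivation.map_algebraMap]
      simp
    | zero =>
      refine ⟨Submodule.zero_mem _, 0, Submodule.zero_mem _, ?_⟩
      rw [qExpansion_zero, map_zero]
    | add G₁ G₂ _ _ h₁ h₂ =>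
      obtain ⟨m₁, G₁', m₁', e₁⟩ := h₁
      obtain ⟨m₂, G₂', m₂', e₂⟩ := h₂
      refine ⟨Submodule.add_mem _ m₁ m₂, G₁' + G₂', Submodule.add_mem _ m₁' m₂', ?_⟩
      rw [qE_add (mem_Nice_of_mem_MFs_Gamma0 m₁') (mem_Nice_of_mem_MFs_Gamma0 m₂'),
        qE_add (mem_Nice_of_mem_MFs_Gamma0 m₁) (mem_Nice_of_mem_MFs_Gamma0 m₂), map_add, e₁, e₂]
    | smul c G _ h =>
      obtain ⟨m₁, G', m₁', e₁⟩ := h
      refine ⟨Submodule.smul_mem _ c m₁, d c • G + c • G',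
        Submodule.add_mem _ (Submodule.smul_mem _ _ m₁) (Submodule.smul_mem _ _ m₁'), ?_⟩
      have n₁ := mem_Nice_of_mem_MFs_Gamma0 m₁
      have n₁' := mem_Nice_of_mem_MFs_Gamma0 m₁'
      rw [qE_add (Subalgebra.smul_mem _ n₁ _) (Subalgebra.smul_mem _ n₁' _), qE_smul _ n₁,
        qE_smul _ n₁', qE_smul _ n₁, dPS_smul, e₁]
  exact (key F (span_ratQ N k hF)).2

section Main

variable {N : ℕ} [NeZero N] {χ : Gamma0 N →* ℂˣ} {m' : ℕ}

omit [NeZero N] in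
lemma nice_of_Mchi (hT : χ ⟨ModularGroup.T, T_mem_Gamma0 N⟩ = 1) {k : ℤ} {F : ℍ → ℂ}
    (hF : F ∈ Mchi (Gamma0 N) χ k) : F ∈ Nice :=
  mem_Nice_of_mem_Mchi ⟨T_mem_Gamma0 N, hT⟩ hF

lemma exists_num (hχ : χ ^ (m' + 1) = 1) (hT : χ ⟨ModularGroup.T, T_mem_Gamma0 N⟩ = 1)
    (d : Derivation ℚ ℂ ℂ) {k k' : ℤ} {E h : ℍ → ℂ}
    (hE : E ∈ Mchi (Gamma0 N) χ k) (hh : h ∈ Mchi (Gamma0 N) χ k') :
    ∃ Num ∈ Mchi (Gamma0 N) χ ((m' + 1 : ℕ) * k' + k), qExpansion 1 Num =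
      ((m' + 1 : ℕ) : ℂ) • (qExpansion 1 h ^ (m' + 1) * dPS d (qExpansion 1 E)) := by
  have hχ' : χ * χ ^ m' = 1 := by rw [← hχ]; exact (pow_succ' χ m').symm
  have hEh : E * h ^ m' ∈ MFs (Gamma0 N) (k + m' * k') :=
    mem_MFs_of_mem_Mchi hχ' (mul_mem_Mchi hE (pow_mem_Mchi hh m'))
  have hhm : h ^ (m' + 1) ∈ MFs (Gamma0 N) ((m' + 1 : ℕ) * k') :=
    mem_MFs_of_mem_Mchi hχ (pow_mem_Mchi hh (m' + 1))
  obtain ⟨A, hA, eA⟩ := exists_dForm N d hEh
  obtain ⟨C, hC, eC⟩ := exists_dForm N d hhm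
  have nE := nice_of_Mchi hT hE
  have nh := nice_of_Mchi hT hh
  have nA := mem_Nice_of_mem_MFs_Gamma0 hA
  have nC := mem_Nice_of_mem_MFs_Gamma0 hC
  have m1 : A * h ∈ Mchi (Gamma0 N) χ ((m' + 1 : ℕ) * k' + k) := by
    have := mul_mem_Mchi_of_MFs hA hh
    convert this using 2
    push_cast; ring
  have m2 : C * E ∈ Mchi (Gamma0 N) χ ((m' + 1 : ℕ) * k' + k) := mul_mem_Mchi_of_MFs hC hE
  refine ⟨((m' + 1 : ℕ) : ℂ) • (A * h) - (m' : ℂ) • (C * E),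
    Submodule.sub_mem _ (Submodule.smul_mem _ _ m1) (Submodule.smul_mem _ _ m2), ?_⟩
  rw [qE_sub (Subalgebra.smul_mem _ (Subalgebra.mul_mem _ nA nh) _)
      (Subalgebra.smul_mem _ (Subalgebra.mul_mem _ nC nE) _),
    qE_smul _ (Subalgebra.mul_mem _ nA nh), qE_smul _ (Subalgebra.mul_mem _ nC nE),
    qE_mul nA nh, qE_mul nC nE, eA, eC, qE_mul nE (Subalgebra.pow_mem _ nh _), qE_pow nh, qE_pow nh]
  set e := qExpansion 1 E
  set y := qExpansion 1 h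
  have h1 : y * dPS d (y ^ m') = (m' : ℂ) • (y ^ m' * dPS d y) := mul_dPS_pow d y m'
  have h2 : dPS d (y ^ (m' + 1)) = y ^ m' * dPS d y + y * dPS d (y ^ m') := by
    rw [pow_succ, Derivation.leibniz, smul_eq_mul, smul_eq_mul]
  rw [h2, h1, Derivation.leibniz, smul_eq_mul, smul_eq_mul]
  have h3 : (e * dPS d (y ^ m') + y ^ m' * dPS d e) * y
      = e * (y * dPS d (y ^ m')) + y ^ (m' + 1) * dPS d e := by ring
  rw [h3, h1]
  simp only [Algebra.smul_def]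
  push_cast
  ring

/-- **A derivation of `ℂ` acts coefficientwise on forms with character.** -/
theorem exists_dMchi (hχ : χ ^ (m' + 1) = 1) (hT : χ ⟨ModularGroup.T, T_mem_Gamma0 N⟩ = 1)
    (d : Derivation ℚ ℂ ℂ)
    (hbp : ∀ x : ℍ, ∃ (k' : ℤ) (h : ℍ → ℂ), h ∈ Mchi (Gamma0 N) χ k' ∧ h x ≠ 0)
    (hcusp : ∀ g : SL(2, ℤ), ∃ (k' : ℤ) (h : ℍ → ℂ) (c : ℂ), h ∈ Mchi (Gamma0 N) χ k' ∧ c ≠ 0 ∧
      Tendsto (h ∣[k'] g) atImInfty (𝓝 c))
    {k : ℤ} {E : ℍ → ℂ} (hE : E ∈ Mchi (Gamma0 N) χ k) :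
    ∃ f ∈ Mchi (Gamma0 N) χ k, qExpansion 1 f = dPS d (qExpansion 1 E) := by
  classical
  have hnum : ∀ (k' : ℤ) (h : ℍ → ℂ), h ∈ Mchi (Gamma0 N) χ k' →
      ∃ Num ∈ Mchi (Gamma0 N) χ ((m' + 1 : ℕ) * k' + k), qExpansion 1 Num =
        ((m' + 1 : ℕ) : ℂ) • (qExpansion 1 h ^ (m' + 1) * dPS d (qExpansion 1 E)) :=
    fun k' h hh => exists_num hχ hT d hE hh
  choose num hnum_mem hnum_q using hnum
  choose kx hx hxm hxne using hbp
  set M : ℂ := ((m' + 1 : ℕ) : ℂ) with hM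
  have hM0 : M ≠ 0 := Nat.cast_ne_zero.mpr (Nat.succ_ne_zero _)
  let f : ℍ → ℂ := fun z => num (kx z) (hx z) (hxm z) z / (M * hx z z ^ (m' + 1))
  have agree : ∀ (k₁ : ℤ) (h₁ : ℍ → ℂ) (hh₁ : h₁ ∈ Mchi (Gamma0 N) χ k₁) (k₂ : ℤ) (h₂ : ℍ → ℂ)
      (hh₂ : h₂ ∈ Mchi (Gamma0 N) χ k₂),
      num k₁ h₁ hh₁ * h₂ ^ (m' + 1) = num k₂ h₂ hh₂ * h₁ ^ (m' + 1) := by
    intro k₁ h₁ hh₁ k₂ h₂ hh₂
    have n₁ := nice_of_Mchi hT hh₁
    have n₂ := nice_of_Mchi hT hh₂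
    have N₁ := nice_of_Mchi hT (hnum_mem k₁ h₁ hh₁)
    have N₂ := nice_of_Mchi hT (hnum_mem k₂ h₂ hh₂)
    apply Nice.eq_of_qExpansion_eq (Subalgebra.mul_mem _ N₁ (Subalgebra.pow_mem _ n₂ _))
      (Subalgebra.mul_mem _ N₂ (Subalgebra.pow_mem _ n₁ _))
    rw [qE_mul N₁ (Subalgebra.pow_mem _ n₂ _), qE_mul N₂ (Subalgebra.pow_mem _ n₁ _), qE_pow n₁,
      qE_pow n₂, hnum_q, hnum_q]
    simp only [Algebra.smul_def]
    ring
  have key : ∀ (k' : ℤ) (h : ℍ → ℂ) (hh : h ∈ Mchi (Gamma0 N) χ k') (z : ℍ),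
      M * (h z ^ (m' + 1) * f z) = num k' h hh z := by
    intro k' h hh z
    have h1 := congrFun (agree k' h hh (kx z) (hx z) (hxm z)) z
    simp only [Pi.mul_apply, Pi.pow_apply] at h1
    have hne : hx z z ^ (m' + 1) ≠ 0 := pow_ne_zero _ (hxne z)
    simp only [f]
    field_simp
    linear_combination -h1
  have keyf : ∀ (k' : ℤ) (h : ℍ → ℂ) (hh : h ∈ Mchi (Gamma0 N) χ k'),
      num k' h hh = M • (h ^ (m' + 1) * f) := by
    intro k' h hh
    funext z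
    simp only [Pi.smul_apply, Pi.mul_apply, Pi.pow_apply, smul_eq_mul]
    exact (key k' h hh z).symm
  have hpowmem : ∀ (k' : ℤ) (h : ℍ → ℂ), h ∈ Mchi (Gamma0 N) χ k' →
      h ^ (m' + 1) ∈ MFs (Gamma0 N) ((m' + 1 : ℕ) * k') :=
    fun k' h hh => mem_MFs_of_mem_Mchi hχ (pow_mem_Mchi hh (m' + 1))
  have hfd : MDiff f := by
    intro x
    have hcont : ContinuousAt (hx x) x := ((hxm x).1 x).continuousAt
    have hopen : ∀ᶠ z in 𝓝 x, hx x z ≠ 0 := hcont.eventually_ne (hxne x)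
    have heq : f =ᶠ[𝓝 x] fun z => num (kx x) (hx x) (hxm x) z / (M * hx x z ^ (m' + 1)) := by
      filter_upwards [hopen] with z hz
      rw [eq_div_iff (mul_ne_zero hM0 (pow_ne_zero _ hz)), ← key (kx x) (hx x) (hxm x) z]
      ring
    refine MDifferentiableAt.congr_of_eventuallyEq ?_ heq
    rw [UpperHalfPlane.mdifferentiableAt_iff]
    have h1 : DifferentiableAt ℂ (num (kx x) (hx x) (hxm x) ∘ ofComplex) x :=
      UpperHalfPlane.mdifferentiableAt_iff.mp ((hnum_mem _ _ (hxm x)).1 x)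
    have h2 : DifferentiableAt ℂ (hx x ∘ ofComplex) x :=
      UpperHalfPlane.mdifferentiableAt_iff.mp ((hxm x).1 x)
    refine h1.div ((h2.pow (m' + 1)).const_mul M) ?_
    simpa using ⟨hM0, hxne x⟩
  have hfs : ∀ γ : Gamma0 N, f ∣[k] (γ : SL(2, ℤ)) = (χ γ : ℂ) • f := by
    intro γ
    funext z
    have e2 := (hnum_mem _ _ (hxm z)).2.1 γ
    rw [keyf, ModularForm.SL_smul_slash, ModularForm.mul_slash_SL2,
      (hpowmem _ _ (hxm z)).2.1 γ γ.2] at e2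
    have e3 := congrFun e2 z
    simp only [Pi.smul_apply, Pi.mul_apply, Pi.pow_apply, smul_eq_mul] at e3
    have hne : hx z z ^ (m' + 1) ≠ 0 := pow_ne_zero _ (hxne z)
    simp only [Pi.smul_apply, smul_eq_mul]
    have : M * hx z z ^ (m' + 1) * ((f ∣[k] (γ : SL(2, ℤ))) z) =
        M * hx z z ^ (m' + 1) * ((χ γ : ℂ) * f z) := by linear_combination e3
    exact mul_left_cancel₀ (mul_ne_zero hM0 hne) this
  have hfb : ∀ g : SL(2, ℤ), IsBoundedAtImInfty (f ∣[k] g) := by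
    intro g
    obtain ⟨k', h, c, hh, hc, hlim⟩ := hcusp g
    have hB := (hnum_mem _ _ hh).2.2 g
    rw [keyf, ModularForm.SL_smul_slash, ModularForm.mul_slash_SL2, pow_slash_SL] at hB
    have hlim2 : Tendsto (fun z => (M * (h ∣[k'] g) z ^ (m' + 1))⁻¹) atImInfty
        (𝓝 (M * c ^ (m' + 1))⁻¹) :=
      ((hlim.pow (m' + 1)).const_mul M).inv₀ (mul_ne_zero hM0 (pow_ne_zero _ hc))
    have hb1 : BoundedAtFilter atImInfty (fun z => (M * (h ∣[k'] g) z ^ (m' + 1))⁻¹) :=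
      hlim2.isBigO_one ℝ
    have hb := hb1.mul hB
    refine hb.congr' ?_ EventuallyEq.rfl
    filter_upwards [hlim.eventually_ne hc] with z hz
    simp only [Pi.mul_apply, Pi.smul_apply, Pi.pow_apply, smul_eq_mul]
    have : (h ∣[k'] g) z ^ (m' + 1) ≠ 0 := pow_ne_zero _ hz
    field_simp
  have hf : f ∈ Mchi (Gamma0 N) χ k := ⟨hfd, hfs, hfb⟩
  refine ⟨f, hf, ?_⟩
  have nf := nice_of_Mchi hT hf
  have nh := nice_of_Mchi hT (hxm UpperHalfPlane.I)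
  have hy : qExpansion 1 (hx UpperHalfPlane.I) ≠ 0 := by
    rw [Ne, qE_eq_zero_iff nh]
    intro h0
    exact hxne UpperHalfPlane.I (by rw [h0]; rfl)
  have e := hnum_q _ _ (hxm UpperHalfPlane.I)
  rw [keyf, qE_smul _ (Subalgebra.mul_mem _ (Subalgebra.pow_mem _ nh _) nf),
    qE_mul (Subalgebra.pow_mem _ nh _) nf, qE_pow nh] at e
  exact mul_left_cancel₀ (pow_ne_zero _ hy) (smul_right_injective _ hM0 e)

end Main

theorem isAlgebraic_iota (a : Kb) : IsAlgebraic ℚ (iota a) := by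
  let _ : Algebra ℚ (AlgebraicClosure ℚ) := AlgebraicClosure.instAlgebra ℚ
  have : Algebra.IsAlgebraic ℚ (AlgebraicClosure ℚ) := AlgebraicClosure.isAlgebraic ℚ
  let f : Kb →ₐ[ℚ] ℂ := IsAlgClosed.lift (R := ℚ) (S := AlgebraicClosure ℚ) (M := ℂ)
  exact (Algebra.IsAlgebraic.isAlgebraic a).algHom f

section Final

variable {N : ℕ} [NeZero N] {χ : Gamma0 N →* ℂˣ} {m : ℕ}

omit [NeZero N] in
lemma norm_chi_eq_one (hm : 0 < m) (hχ : χ ^ m = 1) (γ : Gamma0 N) : ‖(χ γ : ℂ)‖ = 1 := by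
  have h1 : (χ γ) ^ m = 1 := by
    have := congrArg (fun f : Gamma0 N →* ℂˣ => f γ) hχ
    simpa using this
  have h2 : ‖(χ γ : ℂ)‖ ^ m = 1 := by
    rw [← norm_pow, ← Units.val_pow_eq_pow_val, h1]
    simp
  exact (pow_eq_one_iff_of_nonneg (norm_nonneg _) hm.ne').mp h2

omit [NeZero N] in
lemma IsPar.chi_T (hpar : IsPar N χ) : χ ⟨ModularGroup.T, T_mem_Gamma0 N⟩ = 1 := by
  apply hpar 1
  show ((1 : SL(2, ℤ))⁻¹ * ModularGroup.T * 1) 1 0 = 0
  rw [inv_one, one_mul, mul_one]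
  simp [ModularGroup.T]

/-- For every cusp `g ∞` there is a form with character `χ` which does not vanish there. -/
theorem exists_cusp_form (hm : 0 < m) (hχ : χ ^ m = 1) (hpar : IsPar N χ) {k : ℤ} (hk : 3 ≤ k)
    (hk2 : Even k) (g : SL(2, ℤ)) :
    ∃ (h : ℍ → ℂ) (c : ℂ), h ∈ Mchi (Gamma0 N) χ k ∧ c ≠ 0 ∧
      Tendsto (h ∣[k] g) atImInfty (𝓝 c) := by
  let e : Gamma0 N ≃* (Gamma0 N).map (MulAut.conj g⁻¹).toMonoidHom :=
    (MulAut.conj g⁻¹).subgroupMap (Gamma0 N)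
  have he : ∀ γ : Gamma0 N, ((e γ : _) : SL(2, ℤ)) = g⁻¹ * γ * g := by
    intro γ
    show (MulAut.conj g⁻¹) (γ : SL(2, ℤ)) = _
    rw [MulAut.conj_apply, inv_inv]
  let χg : (Gamma0 N).map (MulAut.conj g⁻¹).toMonoidHom →* ℂˣ := χ.comp e.symm.toMonoidHom
  have hχg : ∀ γ : Gamma0 N, χg (e γ) = χ γ := by
    intro γ
    show χ (e.symm (e γ)) = χ γ
    rw [e.symm_apply_apply]
  have hsurj : ∀ y : (Gamma0 N).map (MulAut.conj g⁻¹).toMonoidHom, ∃ γ, e γ = y :=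
    fun y => ⟨e.symm y, e.apply_symm_apply y⟩
  obtain ⟨n, hn, -, hTn⟩ := Subgroup.exists_pow_mem_of_index_ne_zero
    (H := Gamma0 N) Subgroup.FiniteIndex.index_ne_zero (g * ModularGroup.T * g⁻¹)
  obtain ⟨f, hf1, hf2, hf3, c, hc, hlim⟩ := exists_twisted_form _ χg
    (by
      intro y
      obtain ⟨γ, rfl⟩ := hsurj y
      rw [hχg]
      exact norm_chi_eq_one hm hχ γ)
    (by
      intro y hy
      obtain ⟨γ, rfl⟩ := hsurj y
      rw [hχg]
      rw [he] at hy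
      exact hpar g γ hy)
    ⟨n, hn, by
      have : ModularGroup.T ^ n = ((e ⟨_, hTn⟩ : _) : SL(2, ℤ)) := by
        rw [he]
        simp only [conj_pow]
        group
      rw [this]
      exact (e ⟨_, hTn⟩).2⟩ hk hk2
  refine ⟨f ∣[k] g⁻¹, c, ⟨hf1.slash k _, fun γ => ?_, fun a => ?_⟩, hc, ?_⟩
  · have h1 := hf2 (e γ)
    rw [hχg, he] at h1
    rw [← SlashAction.slash_mul, ← ModularForm.SL_smul_slash, ← h1, ← SlashAction.slash_mul]
    congr 1
    group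
  · rw [← SlashAction.slash_mul]
    exact hf3 _
  · rw [← SlashAction.slash_mul, inv_mul_cancel, SlashAction.slash_one]
    exact hlim

theorem exists_Mchi_ne_zero (hm : 0 < m) (hχ : χ ^ m = 1) (hpar : IsPar N χ) {k : ℤ} (hk : 3 ≤ k)
    (hk2 : Even k) : ∃ E ∈ Mchi (Gamma0 N) χ k, E ≠ 0 := by
  obtain ⟨h, c, hh, hc, hlim⟩ := exists_cusp_form hm hχ hpar hk hk2 1
  refine ⟨h, hh, ?_⟩
  rintro rfl
  rw [SlashAction.zero_slash] at hlim
  exact hc (tendsto_nhds_unique hlim tendsto_const_nhds)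

/-- Every derivation of `ℂ` acts coefficientwise on `Mchi (Gamma0 N) χ k`. -/
theorem exists_deriv_Mchi (hm : 0 < m) (hχ : χ ^ m = 1) (hpar : IsPar N χ) (d : Derivation ℚ ℂ ℂ)
    {k : ℤ} {E : ℍ → ℂ} (hE : E ∈ Mchi (Gamma0 N) χ k) :
    ∃ f ∈ Mchi (Gamma0 N) χ k, qExpansion 1 f = dPS d (qExpansion 1 E) := by
  obtain ⟨m', rfl⟩ : ∃ m', m = m' + 1 := ⟨m - 1, by omega⟩
  obtain ⟨E₀, hE₀, hE₀ne⟩ := exists_Mchi_ne_zero hm hχ hpar (k := 4) (by norm_num) (by decide)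
  refine exists_dMchi hχ hpar.chi_T d (fun x => ?_) (fun g => ?_) hE
  · obtain ⟨a, h, hh, hx⟩ := exists_ne_zero_at hE₀ hE₀ne x
    exact ⟨_, h, hh, hx⟩
  · obtain ⟨h, c, hh, hc, hlim⟩ := exists_cusp_form hm hχ hpar (k := 4) (by norm_num) (by decide) g
    exact ⟨4, h, c, hh, hc, hlim⟩

theorem finiteDimensional_Mchi (hm : 0 < m) (hχ : χ ^ m = 1) (hpar : IsPar N χ) (k : ℤ) :
    FiniteDimensional ℂ (Mchi (Gamma0 N) χ k) := by
  obtain ⟨m', rfl⟩ : ∃ m', m = m' + 1 := ⟨m - 1, by omega⟩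
  obtain ⟨E₀, hE₀, hE₀ne⟩ := exists_Mchi_ne_zero hm hχ hpar (k := 4) (by norm_num) (by decide)
  have hχ' : χ * χ ^ m' = 1 := by rw [← hχ]; exact (pow_succ' χ m').symm
  have hT := hpar.chi_T
  let Φ : Mchi (Gamma0 N) χ k →ₗ[ℂ] MFs (Gamma0 N) (k + m' * 4) :=
    { toFun := fun f => ⟨f.1 * E₀ ^ m',
        mem_MFs_of_mem_Mchi hχ' (mul_mem_Mchi f.2 (pow_mem_Mchi hE₀ m'))⟩
      map_add' := fun f g => Subtype.ext (add_mul _ _ _)
      map_smul' := fun c f => Subtype.ext (smul_mul_assoc _ _ _) }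
  have hinj : Function.Injective Φ := by
    rw [injective_iff_map_eq_zero]
    intro f hf
    have h1 : f.1 * E₀ ^ m' = 0 := congrArg Subtype.val hf
    have nf := nice_of_Mchi hT f.2
    have n0 := nice_of_Mchi hT hE₀
    have h2 := congrArg (qExpansion 1) h1
    rw [qE_mul nf (Subalgebra.pow_mem _ n0 _), qE_pow n0, qExpansion_zero] at h2
    have h3 : qExpansion 1 E₀ ≠ 0 := by rwa [Ne, qE_eq_zero_iff n0]
    have h4 := (mul_eq_zero.mp h2).resolve_right (pow_ne_zero _ h3)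
    exact Subtype.ext ((qE_eq_zero_iff nf).mp h4)
  have := ratFam_finiteDimensional N (k + m' * 4)
  exact FiniteDimensional.of_injective Φ hinj

/-- The `q`-expansion coefficients as a linear map on `Mchi (Gamma0 N) χ k`. -/
noncomputable def coeffT (hT : χ ⟨ModularGroup.T, T_mem_Gamma0 N⟩ = 1) (k : ℤ) :
    Mchi (Gamma0 N) χ k →ₗ[ℂ] (ℕ → ℂ) :=
  (LinearMap.pi fun n => (PowerSeries.coeff (R := ℂ) n)) ∘ₗ qHom.toLinearMap ∘ₗ
    Submodule.inclusion (show Mchi (Gamma0 N) χ k ≤ Subalgebra.toSubmodule Nice from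
      fun _ hF => nice_of_Mchi hT hF)

omit [NeZero N] in
lemma coeffT_apply (hT : χ ⟨ModularGroup.T, T_mem_Gamma0 N⟩ = 1) (k : ℤ)
    (F : Mchi (Gamma0 N) χ k) (n : ℕ) :
    coeffT hT k F n = (qExpansion 1 (F : ℍ → ℂ)).coeff n := rfl

omit [NeZero N] in
lemma coeffT_injective (hT : χ ⟨ModularGroup.T, T_mem_Gamma0 N⟩ = 1) (k : ℤ) :
    Function.Injective (coeffT hT k) := by
  intro F G hFG
  apply Subtype.ext
  refine Nice.eq_of_qExpansion_eq (nice_of_Mchi hT F.2) (nice_of_Mchi hT G.2) ?_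
  ext n
  exact congrFun hFG n

/-- **AN-ALG.**  Forms with character are spanned by forms with algebraic `q`-expansion. -/
theorem Mchi_span_algebraic (hm : 0 < m) (hχ : χ ^ m = 1) (hpar : IsPar N χ) (k : ℤ) :
    Mchi (Gamma0 N) χ k = Submodule.span ℂ {f | f ∈ Mchi (Gamma0 N) χ k ∧ IsAlgQ f} := by
  refine le_antisymm ?_ (Submodule.span_le.mpr fun f hf => hf.1)
  have hT := hpar.chi_T
  have := finiteDimensional_Mchi hm hχ hpar k
  set V : Submodule ℂ (ℕ → ℂ) := LinearMap.range (coeffT hT k) with hV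
  have hstab : ∀ d : Derivation ℚ ℂ ℂ, ∀ v ∈ V, (fun n => d (v n)) ∈ V := by
    rintro d _ ⟨F, rfl⟩
    obtain ⟨G, hG, hh⟩ := exists_deriv_Mchi hm hχ hpar d F.2
    refine ⟨⟨G, hG⟩, funext fun n => ?_⟩
    rw [coeffT_apply, coeffT_apply, hh, coeff_dPS]
  have key := span_algebraic_of_derivation_stable V hstab
  have hset : {v | v ∈ V ∧ ∀ n, IsAlgebraic ℚ (v n)} =
      (coeffT hT k) '' {F : Mchi (Gamma0 N) χ k | IsAlgQ (F : ℍ → ℂ)} := by
    ext v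
    constructor
    · rintro ⟨⟨F, rfl⟩, hv⟩
      refine ⟨F, ?_, rfl⟩
      choose s hs using fun n => exists_iota_eq_of_isAlgebraic (hv n)
      exact ⟨PowerSeries.mk s, fun n => by rw [PowerSeries.coeff_mk, hs, coeffT_apply]⟩
    · rintro ⟨F, ⟨s, hs⟩, rfl⟩
      refine ⟨⟨F, rfl⟩, fun n => ?_⟩
      rw [coeffT_apply, hs]
      exact isAlgebraic_iota _
  rw [hset, ← Submodule.map_span] at key
  intro F hF
  have hf : coeffT hT k ⟨F, hF⟩ ∈ V := ⟨_, rfl⟩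
  rw [key] at hf
  obtain ⟨G, hG, hGF⟩ := hf
  have hGF' := coeffT_injective hT k hGF
  have h2 : (Mchi (Gamma0 N) χ k).subtype G ∈
      (Submodule.span ℂ {F : Mchi (Gamma0 N) χ k | IsAlgQ (F : ℍ → ℂ)}).map
        (Mchi (Gamma0 N) χ k).subtype := ⟨G, hG, rfl⟩
  rw [Submodule.map_span, hGF'] at h2
  refine Submodule.span_mono ?_ h2
  rintro _ ⟨G', hG', rfl⟩
  exact ⟨G'.2, hG'⟩

end Final

end Fermat.Agent.S29
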