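import Fermat.Agent.S29.ANQuot
import Fermat.Agent.S29.TwEis
import Fermat.Agent.S29.ANK1
import Fermat.Agent.S29.AlgForms

/-!
# S29 [AN], pieces K1, K2, INJ: calculus of Kummer elements `u = (E/D)^m`

General remarks.  `E ∈ Mchi (Gamma0 N) χ k` with `IsPar N χ` is `Nice` (`mem_Nice_of_mem_Mchi`; `χ T = 1` by `IsPar` with `a = 1`),
so `qLf` is additive / multiplicative / injective on all functions occurring here (`S24/QL.lean`).
-/

set_option autoImplicit false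

namespace Fermat.Agent.S29

open UpperHalfPlane ModularForm Filter Topology CongruenceSubgroup ModularCurve
open Fermat.Agent.S20 Fermat.Agent.S24
open scoped MatrixGroups Manifold ModularForm

variable {N : ℕ} [NeZero N] {m : ℕ} {χ ψ : Gamma0 N →* ℂˣ} {u v : FN N}

section chars

variable {G : Type*} [Group G]

theorem kumc_one_pow (r : ℕ) : (1 : G →* ℂˣ) ^ r = 1 :=
  MonoidHom.ext fun g => by rw [MonoidHom.pow_apply, MonoidHom.one_apply, one_pow]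

theorem kumc_one_mul (χ : G →* ℂˣ) : (1 : G →* ℂˣ) * χ = χ :=
  MonoidHom.ext fun g => by rw [MonoidHom.mul_apply, MonoidHom.one_apply, one_mul]

theorem kumc_inv_one : (1 : G →* ℂˣ)⁻¹ = 1 :=
  MonoidHom.ext fun g => by rw [MonoidHom.inv_apply, MonoidHom.one_apply, inv_one]

theorem kumc_mul_inv (χ : G →* ℂˣ) : χ * χ⁻¹ = 1 :=
  MonoidHom.ext fun g => by
    rw [MonoidHom.mul_apply, MonoidHom.inv_apply, MonoidHom.one_apply, mul_inv_cancel]

theorem kumc_mul_pow (χ ψ : G →* ℂˣ) (m : ℕ) : (χ * ψ) ^ m = χ ^ m * ψ ^ m :=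
  MonoidHom.ext fun g => by
    rw [MonoidHom.pow_apply, MonoidHom.mul_apply, MonoidHom.mul_apply, MonoidHom.pow_apply,
      MonoidHom.pow_apply, mul_pow]

theorem kumc_inv_pow (χ : G →* ℂˣ) (m : ℕ) : χ⁻¹ ^ m = (χ ^ m)⁻¹ :=
  MonoidHom.ext fun g => by
    rw [MonoidHom.pow_apply, MonoidHom.inv_apply, MonoidHom.inv_apply, MonoidHom.pow_apply,
      inv_pow]

theorem kumc_pow_pow (χ : G →* ℂˣ) (r m : ℕ) : (χ ^ r) ^ m = χ ^ (m * r) :=
  MonoidHom.ext fun g => by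
    rw [MonoidHom.pow_apply, MonoidHom.pow_apply, MonoidHom.pow_apply, ← pow_mul, mul_comm]

theorem kumc_pow_eq_inv {χ : G →* ℂˣ} {n : ℕ} (h : χ ^ (n + 1) = 1) : χ ^ n = χ⁻¹ :=
  MonoidHom.ext fun g => by
    have h1 : χ g ^ (n + 1) = 1 := by rw [← MonoidHom.pow_apply, h, MonoidHom.one_apply]
    rw [MonoidHom.pow_apply, MonoidHom.inv_apply]
    exact eq_inv_of_mul_eq_one_left (by rw [← pow_succ, h1])

end chars

omit [NeZero N] in
theorem IsPar.exists_T (h : IsPar N χ) : ∃ hT : ModularGroup.T ∈ Gamma0 N, χ ⟨_, hT⟩ = 1 := by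
  refine ⟨T_mem_Gamma0 N, h 1 _ ?_⟩
  rw [inv_one, one_mul, mul_one]
  simp [ModularGroup.T]

omit [NeZero N] in
theorem IsPar.nice (h : IsPar N χ) {k : ℤ} {E : ℍ → ℂ} (hE : E ∈ Mchi (Gamma0 N) χ k) :
    E ∈ Fermat.Agent.S23.Nice :=
  mem_Nice_of_mem_Mchi h.exists_T hE

omit [NeZero N] in
theorem IsPar.one : IsPar N 1 := fun _ _ _ => rfl

omit [NeZero N] in
theorem IsPar.mul (h : IsPar N χ) (h' : IsPar N ψ) : IsPar N (χ * ψ) := fun a g hg => by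
  rw [MonoidHom.mul_apply, h a g hg, h' a g hg, one_mul]

omit [NeZero N] in
theorem IsPar.pow (h : IsPar N χ) (r : ℕ) : IsPar N (χ ^ r) := fun a g hg => by
  rw [MonoidHom.pow_apply, h a g hg, one_pow]

omit [NeZero N] in
theorem IsPar.inv (h : IsPar N χ) : IsPar N χ⁻¹ := fun a g hg => by
  rw [MonoidHom.inv_apply, h a g hg, inv_one]

theorem kum_qLf_ne_zero {E : ℍ → ℂ} (hE : E ∈ Fermat.Agent.S23.Nice) (h0 : E ≠ 0) : qLf E ≠ 0 :=
  fun h => h0 ((qLf_eq_zero_iff hE).1 h)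

theorem kum_ne_zero_of_qLf {E : ℍ → ℂ} (h : qLf E ≠ 0) : E ≠ 0 := by
  rintro rfl
  exact h qLf_zero

theorem kum_pow_mem_MFs {H : Subgroup SL(2, ℤ)} {k : ℤ} {D : ℍ → ℂ} (hD : D ∈ MFs H k) (r : ℕ) :
    D ^ r ∈ MFs H (r * k) := by
  rw [← Mchi_one] at hD ⊢
  have := pow_mem_Mchi hD r
  rwa [kumc_one_pow] at this

/-- **K1 (existence).**
Proof.  `exists_twisted_form (Gamma0 N) χ` (weight `4`; `‖χ g‖ = 1` because `χ^m = 1`) gives `0 ≠ E₀ ∈ Mchi (Gamma0 N) χ 4`.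
By AN-ALG (`Mchi_span_algebraic`, helper21, `S29/AlgForms.lean`) there is `0 ≠ E ∈ Mchi (Gamma0 N) χ 4` with `IsAlgQ E`, `qLf E = iotaL e`.
`D = E₄` (`qLf E₄ = iotaL e₄`, `S24.isRatQ_E4`).  `s = (e / e₄)^m`; `iotaL s * qLf (E₄^m) = qLf (E^m)`, `E^m ∈ MFs (Gamma0 N) (4m)`
(`pow_mem_Mchi`, `χ^m = 1`), so `s ∈ FN N` by **Q**. -/
theorem exists_isKumChi (hm : 0 < m) (hχ : χ ^ m = 1) (hpar : IsPar N χ) :
    ∃ u : FN N, IsKumChi N m χ u :=
  exists_isKumChi_of_span hm hχ hpar (Mchi_span_algebraic hm hχ hpar 4).le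

omit [NeZero N] in
theorem IsKumChi.ne_zero (h : IsKumChi N m χ u) : u ≠ 0 := by
  obtain ⟨-, hpar, k, E, D, hE, -, hE0, -, he⟩ := h
  rintro rfl
  have h1 : qLf E ^ m ≠ 0 := pow_ne_zero m (kum_qLf_ne_zero (hpar.nice hE) hE0)
  apply h1
  rw [← he]
  simp

omit [NeZero N] in
/-- `(E E') / (D D')`. -/
theorem IsKumChi.mul (h : IsKumChi N m χ u) (h' : IsKumChi N m ψ v) :
    IsKumChi N m (χ * ψ) (u * v) := by
  obtain ⟨hχ, hpar, k, E, D, hE, hD, hE0, hD0, he⟩ := h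
  obtain ⟨hψ, hpar', k', E', D', hE', hD', hE0', hD0', he'⟩ := h'
  have nE := hpar.nice hE
  have nE' := hpar'.nice hE'
  have nD := mem_Nice_of_mem_MFs_Gamma0 hD
  have nD' := mem_Nice_of_mem_MFs_Gamma0 hD'
  refine ⟨by rw [kumc_mul_pow, hχ, hψ, kumc_one_mul], hpar.mul hpar', k + k', E * E', D * D',
    mul_mem_Mchi hE hE', ?_, ?_, ?_, ?_⟩
  · rw [← Mchi_one] at hD hD' ⊢
    have := mul_mem_Mchi hD hD'
    rwa [kumc_one_mul] at this
  · apply kum_ne_zero_of_qLf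
    rw [qLf_mul nE nE']
    exact mul_ne_zero (kum_qLf_ne_zero nE hE0) (kum_qLf_ne_zero nE' hE0')
  · apply kum_ne_zero_of_qLf
    rw [qLf_mul nD nD']
    exact mul_ne_zero (kum_qLf_ne_zero nD hD0) (kum_qLf_ne_zero nD' hD0')
  · rw [qLf_mul nE nE', qLf_mul nD nD', mul_pow, mul_pow, ← he, ← he']
    have : ((u * v : FN N) : LaurentSeries Kb) = (u : LaurentSeries Kb) * (v : LaurentSeries Kb) :=
      rfl
    rw [this, map_mul]
    ring

omit [NeZero N] in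
/-- `D / E = (D E^{m-1}) / E^m`. -/
theorem IsKumChi.inv (hm : 0 < m) (h : IsKumChi N m χ u) : IsKumChi N m χ⁻¹ u⁻¹ := by
  have hu0 := h.ne_zero
  obtain ⟨hχ, hpar, k, E, D, hE, hD, hE0, hD0, he⟩ := h
  have nE := hpar.nice hE
  have nD := mem_Nice_of_mem_MFs_Gamma0 hD
  obtain ⟨n, rfl⟩ : ∃ n, m = n + 1 := ⟨m - 1, by omega⟩
  have hχn : χ ^ n = χ⁻¹ := kumc_pow_eq_inv hχ
  have hqE := kum_qLf_ne_zero nE hE0
  have hqD := kum_qLf_ne_zero nD hD0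
  refine ⟨by rw [kumc_inv_pow, hχ, kumc_inv_one], hpar.inv, ((n + 1 : ℕ) : ℤ) * k, D * E ^ n, E ^ (n + 1),
    ?_, ?_, ?_, ?_, ?_⟩
  · have := mul_mem_Mchi_of_MFs hD (pow_mem_Mchi hE n)
    rw [hχn] at this
    convert this using 2
    push_cast
    ring
  · have := pow_mem_Mchi hE (n + 1)
    rwa [hχ, Mchi_one] at this
  · apply kum_ne_zero_of_qLf
    rw [qLf_mul nD (Subalgebra.pow_mem _ nE n), qLf_pow nE]
    exact mul_ne_zero hqD (pow_ne_zero _ hqE)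
  · apply kum_ne_zero_of_qLf
    rw [qLf_pow nE]
    exact pow_ne_zero _ hqE
  · rw [qLf_mul nD (Subalgebra.pow_mem _ nE n), qLf_pow nE, qLf_pow nE]
    have hc : ((u⁻¹ : FN N) : LaurentSeries Kb) = (u : LaurentSeries Kb)⁻¹ := rfl
    have hU : iotaL (u : LaurentSeries Kb) ≠ 0 := by
      rw [Ne, ← map_zero iotaL]
      intro h0
      exact hu0 (Subtype.ext (iotaL_injective h0))
    rw [hc, map_inv₀, inv_mul_eq_iff_eq_mul₀ hU, mul_pow, ← mul_assoc, he]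
    ring

omit [NeZero N] in
/-- `(E/D)^{m r} = (E^r / D^r)^m`. -/
theorem IsKumChi.of_mul {r : ℕ} (h : IsKumChi N (m * r) χ u) : IsKumChi N m (χ ^ r) u := by
  obtain ⟨hχ, hpar, k, E, D, hE, hD, hE0, hD0, he⟩ := h
  have nE := hpar.nice hE
  have nD := mem_Nice_of_mem_MFs_Gamma0 hD
  refine ⟨by rw [kumc_pow_pow, hχ], hpar.pow r, (r : ℤ) * k, E ^ r, D ^ r,
    pow_mem_Mchi hE r, kum_pow_mem_MFs hD r, ?_, ?_, ?_⟩
  · apply kum_ne_zero_of_qLf
    rw [qLf_pow nE]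
    exact pow_ne_zero _ (kum_qLf_ne_zero nE hE0)
  · apply kum_ne_zero_of_qLf
    rw [qLf_pow nD]
    exact pow_ne_zero _ (kum_qLf_ne_zero nD hD0)
  · rw [qLf_pow nE, qLf_pow nD, ← pow_mul, ← pow_mul, mul_comm r m, he]

/-- **K2 (trivial character).**  `⇐`: `S24.isQuot_of_mem`.  `⇒`: `y = qLf E / qLf D` satisfies `y^m = iotaL u`; **ROOT**: `y = iotaL t`;
**Q**: `t ∈ FN N`; `iotaL` is injective. -/
theorem isKumChi_one_iff (hm : 0 < m) :
    IsKumChi N m 1 u ↔ ∃ w : FN N, w ≠ 0 ∧ u = w ^ m := by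
  constructor
  · intro h
    have hu0 := h.ne_zero
    obtain ⟨-, -, k, E, D, hE, hD, hE0, hD0, he⟩ := h
    rw [Mchi_one] at hE
    have nE := mem_Nice_of_mem_MFs_Gamma0 hE
    have nD := mem_Nice_of_mem_MFs_Gamma0 hD
    have hqD := kum_qLf_ne_zero nD hD0
    have hy : (qLf E / qLf D) ^ m = iotaL (u : LaurentSeries Kb) := by
      rw [div_pow, ← he, mul_div_cancel_right₀ _ (pow_ne_zero _ hqD)]
    obtain ⟨t, ht⟩ := exists_iotaL_eq_of_pow hm hy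
    have htm : t ∈ FN N := mem_FN_of_quot N hE hD hD0 (by rw [← ht, div_mul_cancel₀ _ hqD])
    have hut : u = (⟨t, htm⟩ : FN N) ^ m := by
      apply Subtype.ext
      apply iotaL_injective
      rw [← hy, ht, ← map_pow]
      rfl
    refine ⟨⟨t, htm⟩, ?_, hut⟩
    intro h0
    rw [h0, zero_pow hm.ne'] at hut
    exact hu0 hut
  · rintro ⟨w, hw0, rfl⟩
    obtain ⟨k, G, D, hG, hD, hD0, hs⟩ := isQuot_of_mem N w.2
    have nD := mem_Nice_of_mem_MFs_Gamma0 hD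
    have hqD := kum_qLf_ne_zero nD hD0
    refine ⟨kumc_one_pow m, IsPar.one, k, G, D, by rw [Mchi_one]; exact hG, hD, ?_, hD0, ?_⟩
    · apply kum_ne_zero_of_qLf
      rw [← hs]
      refine mul_ne_zero ?_ hqD
      rw [Ne, ← map_zero iotaL]
      intro h0
      exact hw0 (Subtype.ext (iotaL_injective h0))
    · rw [← hs, mul_pow, ← map_pow]
      rfl

/-- two Kummer elements of the same character differ by an `m`-th power. -/
theorem IsKumChi.unique (hm : 0 < m) (h : IsKumChi N m χ u) (h' : IsKumChi N m χ v) :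
    ∃ w : FN N, w ≠ 0 ∧ v = u * w ^ m := by
  have hu0 := h.ne_zero
  have h1 := h'.mul (h.inv hm)
  rw [kumc_mul_inv] at h1
  obtain ⟨w, hw0, hw⟩ := (isKumChi_one_iff hm).1 h1
  exact ⟨w, hw0, by rw [← hw]; field_simp⟩

/-- **INJ.**  `u = w^m`, `w = G₁/G₂` (`S24.isQuot_of_mem`).  `(qLf (E G₂))^m = (qLf (D G₁))^m` in the field `ℂ((q))`, so
`qLf (E G₂) = ζ qLf (D G₁)`, `E G₂ = ζ D G₁` (`qLf_injOn`).  Slash with `g ∈ Γ₀(N)`: `χ(g) E G₂ = E G₂ ≠ 0`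
(the product of two nonzero holomorphic functions on `ℍ` is nonzero: `qLf` is injective and multiplicative). -/
theorem IsKumChi.eq_one (hm : 0 < m) (h : IsKumChi N m χ u) (hw : ∃ w : FN N, u = w ^ m) :
    χ = 1 := by
  obtain ⟨hχ, hpar, k, E, D, hE, hD, hE0, hD0, he⟩ := h
  obtain ⟨w, rfl⟩ := hw
  obtain ⟨k', G1, G2, hG1, hG2, hG20, hq⟩ := isQuot_of_mem N w.2
  have nE := hpar.nice hE
  have nD := mem_Nice_of_mem_MFs_Gamma0 hD
  have nG1 := mem_Nice_of_mem_MFs_Gamma0 hG1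
  have nG2 := mem_Nice_of_mem_MFs_Gamma0 hG2
  have hA : G2 * E ∈ Mchi (Gamma0 N) χ (k' + k) := mul_mem_Mchi_of_MFs hG2 hE
  have hB : G1 * D ∈ MFs (Gamma0 N) (k' + k) := mul_mem_MFs hG1 hD
  have nA := hpar.nice hA
  have nB := mem_Nice_of_mem_MFs_Gamma0 hB
  have hqA0 : qLf (G2 * E) ≠ 0 := by
    rw [qLf_mul nG2 nE]
    exact mul_ne_zero (kum_qLf_ne_zero nG2 hG20) (kum_qLf_ne_zero nE hE0)
  have hA0 : G2 * E ≠ 0 := kum_ne_zero_of_qLf hqA0
  have hpow : qLf (G2 * E) ^ m = qLf (G1 * D) ^ m := by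
    rw [qLf_mul nG2 nE, qLf_mul nG1 nD, mul_pow, mul_pow, ← he, ← hq]
    have : ((w ^ m : FN N) : LaurentSeries Kb) = (w : LaurentSeries Kb) ^ m := rfl
    rw [this, map_pow]
    ring
  have hqB0 : qLf (G1 * D) ≠ 0 := by
    intro h0
    rw [h0, zero_pow hm.ne'] at hpow
    exact hqA0 (pow_eq_zero_iff hm.ne' |>.1 hpow)
  obtain ⟨b, hb⟩ := anr_exists_of_pow_eq (HahnSeries.C : ℂ →+* LaurentSeries ℂ) hm.ne'
    (qLf (G2 * E) / qLf (G1 * D)) 1 (by rw [div_pow, hpow, div_self (pow_ne_zero _ hqB0), map_one])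
  have hAB : G2 * E = b • (G1 * D) := by
    apply qLf_injOn nA (Fermat.Agent.S23.Nice.smul_mem nB b)
    rw [qLf_smul b nB, ← HahnSeries.C_mul_eq_smul, hb, div_mul_cancel₀ _ hqB0]
  obtain ⟨z, hz⟩ : ∃ z, (G2 * E) z ≠ 0 := by
    by_contra hcon
    push Not at hcon
    exact hA0 (funext hcon)
  refine MonoidHom.ext fun g => ?_
  have h1 := hA.2.1 g
  have h2 : (G2 * E) ∣[k' + k] (g : SL(2, ℤ)) = G2 * E := by
    rw [hAB]
    exact (Submodule.smul_mem _ b hB).2.1 g g.2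
  rw [h2] at h1
  have h3 := congrFun h1 z
  rw [Pi.smul_apply, smul_eq_mul] at h3
  have h4 : ((χ g : ℂˣ) : ℂ) = 1 := by
    have : ((χ g : ℂˣ) : ℂ) * (G2 * E) z = 1 * (G2 * E) z := by rw [one_mul]; exact h3.symm
    exact mul_right_cancel₀ hz this
  exact Units.ext h4

end Fermat.Agent.S29
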