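import Fermat.Agent.S29.ANKum
import Fermat.Agent.S24.Fiber
import Fermat.Agent.S24.Fundamental
import Fermat.Agent.S24.Ranks
import Fermat.Agent.S24.LevelOnePoly
import Fermat.Agent.S23.SepSep

/-!
# S29 [AN], piece ORD: `m ∣ ord_P u` for Kummer elements
-/

set_option autoImplicit false

namespace Fermat.Agent.S29

open UpperHalfPlane ModularForm EisensteinSeries Filter Topology CongruenceSubgroup ModularCurve AlgebraicCurve
open Fermat.Agent.S20 Fermat.Agent.S23 Fermat.Agent.S24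
open scoped MatrixGroups Manifold ModularForm

variable {N : ℕ} [NeZero N] {m : ℕ} {χ : Gamma0 N →* ℂˣ} {u : FN N}

theorem IsAlgQ.exists_iotaL {W : ℍ → ℂ} (h : IsAlgQ W) : ∃ w : LaurentSeries Kb, iotaL w = qLf W := by
  obtain ⟨s, hs⟩ := h
  refine ⟨HahnSeries.ofPowerSeries ℤ Kb s, ?_⟩
  rw [iotaL, coeffMap_ofPowerSeries, qLf]
  congr 1
  ext n
  rw [PowerSeries.coeff_map, hs]

set_option synthInstance.maxHeartbeats 400000 in
set_option maxHeartbeats 1600000 in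
attribute [local instance] algKbC in
/-- the unit step: a representable element all of whose conjugate values are nonzero is a unit at every place of the
fibre. -/
theorem ord_eq_zero_of_isRep (pr : Pair)
    (ht : pr.t = jS ∨ pr.t = jS⁻¹) (l : Filter ℍ) [l.NeBot] (hl : HasLims (Gamma0 N) l)
    {p₀ q₀ : ℂ} (hP : Tendsto pr.P l (𝓝 p₀)) (hQ : Tendsto pr.Q l (𝓝 q₀)) (hp₀ : p₀ ≠ 0)
    {c : Kb} (hc : iota c * p₀ = q₀) {y : FN N}
    (hy : (y : LaurentSeries Kb) = pr.t - algebraMap Kb (LaurentSeries Kb) c)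
    {v : FN N} {M : ℕ} {G : ℍ → ℂ} (hrep : IsRep pr (Gamma0 N) (v : LaurentSeries Kb) M G)
    (hlim : ∀ x : Cos (Gamma0 N), ∃ g₀ : ℂ, g₀ ≠ 0 ∧ Tendsto (vec (Gamma0 N) (12 * M) G x) l (𝓝 g₀))
    (P : Place Kb (FN N)) (hPy : P ∈ zerosOf Kb y) : v ≠ 0 ∧ P.ord v = 0 := by
  have hA : Algebra.adjoin Kb {(y : LaurentSeries Kb)} = Algebra.adjoin Kb {pr.t} := by
    rw [hy, fib_adjoin_sub]
  have hytr := fib_transcendental ht hy
  have hy0 : y ≠ 0 := by
    rintro rfl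
    exact hytr isAlgebraic_zero
  have hvi : IsIntegral (polyRing Kb y) v :=
    (fib_isIntegral_iff (FN N) hA v).2 (isIntegral_of_isRep pr hrep)
  have := (isFF_FN N).finiteDimensional hytr
  have := isDedekindDomain_intRing hytr
  have := isFractionRing_intRing hytr
  have hv' : y ∈ P.toValuationSubring := ((ord_pos_iff P hy0).mp hPy).1
  obtain ⟨𝔭, rfl⟩ := exists_heightOneSpectrum P hv'
  have h𝔭 := (ofHeightOneSpectrum_mem_zerosOf_iff hy0 𝔭).mp hPy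
  obtain ⟨ψ, hψ⟩ := cnt_exists_char 𝔭.asIdeal h𝔭
  have hψy : ψ (genInt Kb y) = 0 := by
    have : genInt Kb y ∈ RingHom.ker (ψ : intRing Kb y →+* Kb) := hψ ▸ h𝔭
    exact this
  let ψC : intRing Kb y →ₐ[Kb] ℂ := (Algebra.ofId Kb ℂ).comp ψ
  have hψC : ∀ f, ψC f = iota (ψ f) := fun f => rfl
  choose χx hχx using fun x => exists_char (y := y) hl hP hp₀ hy x
  obtain ⟨x, hx⟩ := char_complete hl hP hp₀ hy hQ hc hχx ψC (by rw [hψC, hψy, map_zero]) ⟨v, hvi⟩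
  obtain ⟨g₀, hg₀, hlimx⟩ := hlim x
  have h1 := hχx x ⟨v, hvi⟩ M G g₀ hrep hlimx
  have h2 : ψ ⟨v, hvi⟩ ≠ 0 := by
    intro h0
    rw [hψC, h0, map_zero] at hx
    rw [← hx, zero_mul] at h1
    exact hg₀ h1.symm
  have hv0 : (⟨v, hvi⟩ : intRing Kb y) ≠ 0 := by
    intro h0
    rw [h0, map_zero] at h2
    exact h2 rfl
  have hv0' : v ≠ 0 := fun h0 => hv0 (Subtype.ext h0)
  refine ⟨hv0', ?_⟩
  have h3 : ¬ (0 < (Place.ofHeightOneSpectrum (K := Kb) (F := FN N) 𝔭).ord v) := by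
    intro hpos
    have := (fund_ord_pos_iff_mem 𝔭 hv0).1 hpos
    rw [← hψ] at this
    exact h2 this
  have h4 : 0 ≤ (Place.ofHeightOneSpectrum (K := Kb) (F := FN N) 𝔭).ord v :=
    (ord_nonneg_iff _ hv0').2 (primes_intRing_le _ hv' ⟨v, hvi⟩)
  omega

/-- **ORD (abstract step).**  Let `l = pure z` or `atImInfty`, `pr` the corresponding `S24.Pair` (`exists_pairFin`: `P = Δ`, `Q = E₄³`,
`t = j`; `exists_pairInf`: `P = E₄³`, `Q = Δ`, `t = 1/j`).  If `W ∈ Mchi Γ (χ^a) (12 R)` is algebraic and ALL its conjugates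
`W ∣ g` (`g ∈ SL₂(ℤ)`) have a nonzero limit along `l`, then `m ∣ a · ord_P u` for every place `P` in the fibre
(`P ∈ zerosOf Kb y`, `y = t - c`, `iota c * p₀ = q₀`).

Proof.  `v := (w / PS^R)^m` (`qLf W = iotaL w`).  `IsRep pr (Gamma0 N) v (m R) (W^m)`, `v ∈ FN N` (**Q**), `v` is integral over `Kb[t]`
(`S24.isIntegral_of_isRep`), so `v ∈ intRing Kb y`.  The place `P` gives `ψ : intRing Kb y →ₐ[Kb] ℂ` with `ψ (genInt) = 0`
(`S24/Primes.lean`, `S24/Fiber.lean`: proof of `card_zerosOf_fiber`), and `ψ v = χ_x v` for some coset `x` (`S24.char_complete`),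
`χ_x v * p₀^(mR) = lim vec (W^m) x ≠ 0`.  So `v` is a unit at `P`: `ord_P v = 0`.
`u^a / v = r^m`, `r = (E^a P^R) / (D^a W) = (E^a P^R W^(m-1)) / (D^a W^m)` a quotient of forms on `Γ₀(N)`; `r` is an `m`-th root of the
algebraic series `u^a / v`, so it is algebraic (**ROOT**) and lies in `FN N` (**Q**).  `a ord_P u = m ord_P r`. -/
theorem IsKumChi.dvd_mul_ord_of_form (hm : 0 < m) (h : IsKumChi N m χ u) (pr : Pair)
    (ht : pr.t = jS ∨ pr.t = jS⁻¹) (l : Filter ℍ) [l.NeBot] (hl : HasLims (Gamma0 N) l)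
    {p₀ q₀ : ℂ} (hP : Tendsto pr.P l (𝓝 p₀)) (hQ : Tendsto pr.Q l (𝓝 q₀)) (hp₀ : p₀ ≠ 0)
    {c : Kb} (hc : iota c * p₀ = q₀) {y : FN N}
    (hy : (y : LaurentSeries Kb) = pr.t - algebraMap Kb (LaurentSeries Kb) c)
    {a R : ℕ} {W : ℍ → ℂ} (hW : W ∈ Mchi (Gamma0 N) (χ ^ a) (12 * R)) (hWalg : IsAlgQ W)
    (hlim : ∀ g : SL(2, ℤ), ∃ w₀ : ℂ, w₀ ≠ 0 ∧ Tendsto (W ∣[(12 * R : ℤ)] g) l (𝓝 w₀))
    (P : Place Kb (FN N)) (hPy : P ∈ zerosOf Kb y) : (m : ℤ) ∣ a * P.ord u := by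
  have hu0 := h.ne_zero
  obtain ⟨hχ, hpar, k, E, D, hE, hD, hE0, hD0, he⟩ := h
  obtain ⟨n, rfl⟩ : ∃ n, m = n + 1 := ⟨m - 1, by omega⟩
  obtain ⟨wS, hwS⟩ := hWalg.exists_iotaL
  have hparA := hpar.pow a
  have nW := hparA.nice hW
  have nE := hpar.nice hE
  have nD := mem_Nice_of_mem_MFs_Gamma0 hD
  have nP := chr_P_nice (pr := pr)
  have hqP := chr_qLfP_ne (pr := pr)
  have hW0 : W ≠ 0 := by
    rintro rfl
    obtain ⟨w₀, hw₀, hl0⟩ := hlim 1
    rw [SlashAction.zero_slash] at hl0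
    exact hw₀ (tendsto_nhds_unique hl0 tendsto_const_nhds)
  have hqW := kum_qLf_ne_zero nW hW0
  have hqE := kum_qLf_ne_zero nE hE0
  have hqD := kum_qLf_ne_zero nD hD0
  have hchar : (χ ^ a) ^ (n + 1) = 1 := by
    rw [kumc_pow_pow, mul_comm, ← kumc_pow_pow, hχ, kumc_one_pow]
  -- `W ^ m` is a form on `Γ₀(N)`
  have hWm : W ^ (n + 1) ∈ MFs (Gamma0 N) (12 * ((R * (n + 1) : ℕ) : ℤ)) := by
    have h1 := pow_mem_Mchi hW (n + 1)
    rw [hchar, Mchi_one] at h1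
    convert h1 using 2
    push_cast; ring
  have hPS0 : pr.PS ≠ 0 := by
    intro h0
    apply hqP
    rw [← pr.hPS, h0, map_zero]
  set vS : LaurentSeries Kb := (wS / pr.PS ^ R) ^ (n + 1) with hvS
  have hrepEq : iotaL vS * qLf pr.P ^ (R * (n + 1)) = qLf (W ^ (n + 1)) := by
    rw [hvS, map_pow, map_div₀, map_pow, hwS, pr.hPS, qLf_pow nW, div_pow, ← pow_mul,
      div_mul_cancel₀ _ (pow_ne_zero _ hqP)]
  have hvmem : vS ∈ FN N := by
    refine mem_FN_of_quot N hWm (MFs_top_le (chr_Ppow_mem (pr := pr) (R * (n + 1)))) ?_ ?_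
    · apply kum_ne_zero_of_qLf
      rw [qLf_pow nP]
      exact pow_ne_zero _ hqP
    · rw [qLf_pow nP]
      exact hrepEq
  have hrep : IsRep pr (Gamma0 N) (((⟨vS, hvmem⟩ : FN N) : FN N) : LaurentSeries Kb) (R * (n + 1))
      (W ^ (n + 1)) := ⟨hWm, hrepEq⟩
  obtain ⟨hv0, hvord⟩ := ord_eq_zero_of_isRep pr ht l hl hP hQ hp₀ hc hy hrep (fun x => by
    obtain ⟨w₀, hw₀, hl0⟩ := hlim (x.out)⁻¹
    refine ⟨w₀ ^ (n + 1), pow_ne_zero _ hw₀, ?_⟩
    have e : (12 : ℤ) * ((R * (n + 1) : ℕ) : ℤ) = ((n + 1 : ℕ) : ℤ) * (12 * R) := by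
      push_cast; ring
    rw [e, vec_pow]
    exact hl0.pow (n + 1)) P hPy
  -- the `m`-th root
  have hvS0 : vS ≠ 0 := fun h0 => hv0 (Subtype.ext h0)
  obtain ⟨t, ht1, ht2⟩ := exists_iotaL_eq_of_pow_eq hm
    (qLf E ^ a * qLf pr.P ^ R / (qLf D ^ a * qLf W)) ((u : LaurentSeries Kb) ^ a / vS) (by
      have h1 : iotaL (u : LaurentSeries Kb) = qLf E ^ (n + 1) / qLf D ^ (n + 1) := by
        rw [eq_div_iff (pow_ne_zero _ hqD), he]
      have e : qLf E ^ a * qLf pr.P ^ R / (qLf D ^ a * qLf W) * (qLf W / qLf pr.P ^ R) =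
          qLf E ^ a / qLf D ^ a := by
        field_simp
      rw [map_div₀, map_pow, h1, hvS, map_pow, map_div₀, map_pow, hwS, pr.hPS,
        eq_div_iff (pow_ne_zero _ (div_ne_zero hqW (pow_ne_zero _ hqP))), ← mul_pow, e, div_pow,
        div_pow, ← pow_mul, ← pow_mul, ← pow_mul, ← pow_mul, mul_comm a])
  have htmem : t ∈ FN N := by
    have hX : E ^ a * (pr.P ^ R * W ^ n) ∈ MFs (Gamma0 N) (a * k + (12 * R + n * (12 * R))) := by
      have h1 := mul_mem_Mchi (pow_mem_Mchi hE a)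
        (mul_mem_Mchi_of_MFs (MFs_top_le (H := Gamma0 N) (chr_Ppow_mem (pr := pr) R))
          (pow_mem_Mchi hW n))
      have e : χ ^ a * (χ ^ a) ^ n = 1 := by
        rw [← hchar]
        exact MonoidHom.ext fun g => by
          simp only [MonoidHom.mul_apply, MonoidHom.pow_apply]
          rw [pow_succ (χ g ^ a) n, mul_comm]
      rw [e, Mchi_one] at h1
      exact h1
    have hY : D ^ a * W ^ (n + 1) ∈ MFs (Gamma0 N) (a * k + (12 * R + n * (12 * R))) := by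
      have h1 := mul_mem_MFs (kum_pow_mem_MFs hD a) hWm
      convert h1 using 2
      push_cast; ring
    have nX1 := Fermat.Agent.S23.Nice.pow_mem nE a
    have nX2 := Fermat.Agent.S23.Nice.pow_mem nP R
    have nX3 := Fermat.Agent.S23.Nice.pow_mem nW n
    have nY1 := Fermat.Agent.S23.Nice.pow_mem nD a
    have nY2 := Fermat.Agent.S23.Nice.pow_mem nW (n + 1)
    have hqY : qLf (D ^ a * W ^ (n + 1)) = qLf D ^ a * qLf W ^ (n + 1) := by
      rw [qLf_mul nY1 nY2, qLf_pow nD, qLf_pow nW]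
    refine mem_FN_of_quot N hX hY ?_ ?_
    · apply kum_ne_zero_of_qLf
      rw [hqY]
      exact mul_ne_zero (pow_ne_zero _ hqD) (pow_ne_zero _ hqW)
    · rw [hqY, qLf_mul nX1 (Fermat.Agent.S23.Nice.mul_mem nX2 nX3), qLf_mul nX2 nX3, qLf_pow nE,
        qLf_pow nP, qLf_pow nW, ht1]
      field_simp
      rw [pow_succ']
  have hrel : u ^ a = (⟨vS, hvmem⟩ : FN N) * (⟨t, htmem⟩ : FN N) ^ (n + 1) := by
    apply Subtype.ext
    show (u : LaurentSeries Kb) ^ a = vS * t ^ (n + 1)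
    rw [ht2, mul_div_cancel₀ _ hvS0]
  have ht0 : (⟨t, htmem⟩ : FN N) ^ (n + 1) ≠ 0 := by
    intro h0
    rw [h0, mul_zero] at hrel
    exact pow_ne_zero a hu0 hrel
  have hord := congrArg P.ord hrel
  rw [P.ord_mul hv0 ht0, hvord, zero_add, ord_pow, ord_pow] at hord
  rw [hord]
  exact Dvd.intro _ rfl

/-- **ORD (fibre wrapper).**  Every place lies over `j = c` or over `1 / j = 0`. -/
theorem IsKumChi.dvd_mul_ord_of_bpf (hm : 0 < m) (h : IsKumChi N m χ u) {a : ℕ}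
    (hfin : ∀ c : Kb, ∃ z : ℍ, E₄ z ^ 3 = iota c * discriminant z ∧
      ∃ (R : ℕ) (W : ℍ → ℂ), W ∈ Mchi (Gamma0 N) (χ ^ a) (12 * R) ∧ IsAlgQ W ∧
        ∀ g : SL(2, ℤ), (W ∣[(12 * R : ℤ)] g) z ≠ 0)
    (hcusp : ∃ (R : ℕ) (W : ℍ → ℂ), W ∈ Mchi (Gamma0 N) (χ ^ a) (12 * R) ∧ IsAlgQ W ∧
        ∀ g : SL(2, ℤ), ∃ w₀ : ℂ, w₀ ≠ 0 ∧ Tendsto (W ∣[(12 * R : ℤ)] g) atImInfty (𝓝 w₀))
    (P : Place Kb (FN N)) : (m : ℤ) ∣ a * P.ord u := by
  let J : FN N := ⟨jS, jS_mem N⟩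
  have hJtr : Transcendental Kb J := by
    intro halg
    exact transcendental_jS ((IntermediateField.isAlgebraic_iff).1 halg)
  have hJ0 : J ≠ 0 := by
    intro h0
    rw [h0] at hJtr
    exact hJtr isAlgebraic_zero
  by_cases hJ : J ∈ P.toValuationSubring
  · -- finite fibre
    obtain ⟨c, hc⟩ := (isFF_FN N).exists_residue P hJ
    have hc' : 0 < P.ord (J - algebraMap Kb (FN N) c) := by
      rcases hc with hc | hc
      · exfalso
        rw [hc] at hJtr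
        exact hJtr (isAlgebraic_algebraMap c)
      · exact hc
    obtain ⟨z, hz, R, W, hW, hWalg, hWz⟩ := hfin c
    obtain ⟨pr, hP, hQ, ht⟩ := exists_pairFin
    exact h.dvd_mul_ord_of_form hm pr (Or.inl ht) (pure z) (hasLims_pure _ z)
      (p₀ := discriminant z) (q₀ := E₄ z ^ 3)
      (by rw [hP]; exact tendsto_pure_nhds _ _)
      (by rw [hQ]; exact tendsto_pure_nhds (fun z => (⇑E₄ ^ 3 : ℍ → ℂ) z) z)
      (discriminant_ne_zero z) (c := c) hz.symm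
      (y := J - algebraMap Kb (FN N) c) (by rw [ht]; rfl) hW hWalg
      (fun g => ⟨_, hWz g, tendsto_pure_nhds _ _⟩) P hc'
  · -- the fibre over `∞`
    have hJi : 0 < P.ord J⁻¹ := by
      rw [ord_pos_iff P (inv_ne_zero hJ0), inv_inv]
      exact ⟨(P.toValuationSubring.mem_or_inv_mem J).resolve_left hJ, hJ⟩
    obtain ⟨R, W, hW, hWalg, hWz⟩ := hcusp
    obtain ⟨pr, hP, hQ, ht⟩ := exists_pairInf
    have hΔ : Tendsto (discriminant : ℍ → ℂ) atImInfty (𝓝 0) := by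
      have := Delta_mem.2.2 1
      rwa [SlashAction.slash_one] at this
    exact h.dvd_mul_ord_of_form hm pr (Or.inr ht) atImInfty (hasLims_atImInfty (Gamma0 N))
      (p₀ := 1) (q₀ := 0)
      (by rw [hP]; have := sep_E₄_tendsto.pow 3; rw [one_pow] at this; exact this)
      (by rw [hQ]; exact hΔ)
      one_ne_zero (c := 0) (by simp)
      (y := J⁻¹) (by rw [ht, map_zero, sub_zero]; rfl) hW hWalg hWz P hJi

/-! `IsKumChi.dvd_ord` (ORD1) is proved in `S29/ANOrd1.lean`; ORD6 is not needed. -/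

end Fermat.Agent.S29
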