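import Fermat.Agent.S29.TwEis
import Fermat.Agent.S20.Final
import Fermat.Agent.S20.Sep
import Fermat.Agent.S20.LevelOneRho
import Fermat.Agent.S24.Ranks

/-!
# S29, piece AN-BPF12: base point freeness of the forms with character in weights `12 k'`

`Γ ≤ SL(2,ℤ)` of finite index, `χ : Γ →* ℂˣ` of finite order, trivial on parabolic and on finite order
elements.  `S20` applies to `H = ker χ`: a free basis whose matrix of conjugates is invertible at *every*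
point of `ℍ`.
-/

set_option autoImplicit false

namespace Fermat.Agent.S29

open UpperHalfPlane ModularForm EisensteinSeries Filter Topology CongruenceSubgroup
open Fermat.Agent.S20
open scoped MatrixGroups Manifold ModularForm

/-! ### equivariant functions -/

theorem exists_equivariant {G : Type*} [Group G] (Γ S₀ : Subgroup G) (χ : Γ →* ℂˣ)
    (h : ∀ (a : G) (δ : Γ), a⁻¹ * (δ : G) * a ∈ S₀ → χ δ = 1) :
    ∃ τ : G → ℂˣ, ∀ (δ : Γ) (a s : G), s ∈ S₀ → τ ((δ : G) * a * s) = χ δ * τ a := by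
  classical
  choose hh kk hhm kkm hrep using fun a : G => DoubleCoset.mk_out_eq_mul Γ S₀ a
  refine ⟨fun a => (χ ⟨hh a, hhm a⟩)⁻¹, fun δ a s hs => ?_⟩
  set a' := (δ : G) * a * s with ha'
  have hmk : DoubleCoset.mk Γ S₀ a' = DoubleCoset.mk Γ S₀ a :=
    ((DoubleCoset.eq Γ S₀ a a').mpr ⟨δ, δ.2, s, hs, rfl⟩).symm
  have h1 : hh a' * a' * kk a' = hh a * a * kk a := by
    rw [← hrep a', ← hrep a, hmk]
  let ε : Γ := (⟨hh a', hhm a'⟩ * δ)⁻¹ * ⟨hh a, hhm a⟩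
  have h2 : a⁻¹ * (ε : G) * a = s * kk a' * (kk a)⁻¹ := by
    have h3 : hh a * a = hh a' * (δ : G) * a * s * kk a' * (kk a)⁻¹ := by
      have : hh a * a = (hh a' * a' * kk a') * (kk a)⁻¹ := by rw [h1]; group
      rw [this, ha']; group
    show a⁻¹ * ((hh a' * (δ : G))⁻¹ * hh a) * a = _
    calc a⁻¹ * ((hh a' * (δ : G))⁻¹ * hh a) * a = a⁻¹ * (hh a' * (δ : G))⁻¹ * (hh a * a) := by group
      _ = _ := by rw [h3]; group
  have h4 : χ ε = 1 := h a ε (by rw [h2]; exact S₀.mul_mem (S₀.mul_mem hs (kkm a')) (S₀.inv_mem (kkm a)))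
  have h5 : χ ε = (χ ⟨hh a', hhm a'⟩ * χ δ)⁻¹ * χ ⟨hh a, hhm a⟩ := by
    simp only [ε, map_mul, map_inv]
  rw [h5] at h4
  have h6 : χ ⟨hh a, hhm a⟩ = χ ⟨hh a', hhm a'⟩ * χ δ := by
    rw [inv_mul_eq_one] at h4; exact h4.symm
  show (χ ⟨hh a', hhm a'⟩)⁻¹ = χ δ * (χ ⟨hh a, hhm a⟩)⁻¹
  rw [h6, mul_inv_rev, mul_comm (χ δ)⁻¹, mul_comm (χ δ), mul_assoc, inv_mul_cancel, mul_one]

/-! ### the kernel of a character as a subgroup of `SL(2,ℤ)` -/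

/-- `ker χ` as a subgroup of `SL(2,ℤ)`. -/
def kerSub (Γ : Subgroup SL(2, ℤ)) (χ : Γ →* ℂˣ) : Subgroup SL(2, ℤ) := χ.ker.map Γ.subtype

variable {Γ : Subgroup SL(2, ℤ)} {χ : Γ →* ℂˣ}

theorem mem_kerSub {g : SL(2, ℤ)} : g ∈ kerSub Γ χ ↔ ∃ h : g ∈ Γ, χ ⟨g, h⟩ = 1 := by
  constructor
  · rintro ⟨γ, hγ, rfl⟩
    exact ⟨γ.2, hγ⟩
  · rintro ⟨h, h1⟩
    exact ⟨⟨g, h⟩, h1, rfl⟩

theorem kerSub_le : kerSub Γ χ ≤ Γ := fun _ hg => (mem_kerSub.mp hg).1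

theorem finiteIndex_kerSub [Γ.FiniteIndex] {m : ℕ} (hm : 0 < m) (hχ : ∀ γ, χ γ ^ m = 1) :
    (kerSub Γ χ).FiniteIndex := by
  have : NeZero m := ⟨hm.ne'⟩
  have hle : χ.range ≤ rootsOfUnity m ℂ := by
    rintro _ ⟨γ, rfl⟩
    exact (mem_rootsOfUnity _ _).mpr (hχ γ)
  have : Finite χ.range := Finite.of_injective _ (Subgroup.inclusion_injective hle)
  have := Subgroup.finiteIndex_ker χ
  constructor
  rw [kerSub, Subgroup.index_map_subtype]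
  exact mul_ne_zero Subgroup.FiniteIndex.index_ne_zero Subgroup.FiniteIndex.index_ne_zero

theorem norm_char_eq_one {m : ℕ} (hm : 0 < m) (hχ : ∀ γ, χ γ ^ m = 1) (γ : Γ) :
    ‖(χ γ : ℂ)‖ = 1 := by
  refine Complex.norm_eq_one_of_pow_eq_one (n := m) ?_ hm.ne'
  rw [← Units.val_pow_eq_pow_val, hχ, Units.val_one]

/-- a nonzero form of weight `4` with character `χ`. -/
theorem exists_tw4 [Γ.FiniteIndex] {m : ℕ} (hm : 0 < m) (hχ : ∀ γ, χ γ ^ m = 1)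
    (hpar : ∀ γ : Γ, (γ : SL(2, ℤ)) 1 0 = 0 → χ γ = 1) :
    ∃ f : ℍ → ℂ, f ∈ MFs (kerSub Γ χ) 4 ∧ (∀ γ : Γ, f ∣[(4 : ℤ)] (γ : SL(2, ℤ)) = (χ γ : ℂ) • f) ∧
      f ≠ 0 := by
  obtain ⟨n, hn, -, hTn⟩ := Subgroup.exists_pow_mem_of_index_ne_zero
    (Subgroup.FiniteIndex.index_ne_zero (H := Γ)) ModularGroup.T
  obtain ⟨f, hf1, hf2, hf3, c, hc, hfc⟩ := exists_twisted_form Γ χ (norm_char_eq_one hm hχ) hpar
    ⟨n, hn, hTn⟩ (k := 4) (by norm_num) ⟨2, by norm_num⟩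
  refine ⟨f, ⟨hf1, fun γ hγ => ?_, hf3⟩, hf2, ?_⟩
  · obtain ⟨h, h1⟩ := mem_kerSub.mp hγ
    have := hf2 ⟨γ, h⟩
    rw [h1, Units.val_one, one_smul] at this
    exact this
  · rintro rfl
    have h0 : Tendsto (0 : ℍ → ℂ) atImInfty (𝓝 0) := tendsto_const_nhds
    exact hc (tendsto_nhds_unique hfc h0)

theorem hasSep_kerSub [Γ.FiniteIndex] {m : ℕ} (hm : 0 < m) (hχ : ∀ γ, χ γ ^ m = 1)
    (hpar : ∀ γ : Γ, (γ : SL(2, ℤ)) 1 0 = 0 → χ γ = 1)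
    (hA : ∃ A ∈ MFs Γ 4, ∀ g : SL(2, ℤ), A ∣[(4 : ℤ)] g = A → g ∈ Γ) : HasSep (kerSub Γ χ) := by
  classical
  obtain ⟨A, hAm, hAs⟩ := hA
  obtain ⟨f, hf, hfχ, hf0⟩ := exists_tw4 hm hχ hpar
  set H := kerSub Γ χ with hH
  have hfi : H.FiniteIndex := finiteIndex_kerSub hm hχ
  have hAH : A ∈ MFs H 4 := MFs_mono kerSub_le hAm
  have hfin : Finite (Cos H) := Subgroup.finite_quotient_of_finiteIndex
  let bad : Cos H → Set ℂ := fun x => {c | vec H 4 A x ≠ A ∧ vec H 4 A x + c • vec H 4 f x = A + c • f}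
  have hbad : ∀ x, (bad x).Subsingleton := by
    rintro x c ⟨h1, h2⟩ c' ⟨-, h3⟩
    by_contra hcc
    apply h1
    have h4 : (c - c') • (vec H 4 f x - f) = 0 := by
      have : (c - c') • (vec H 4 f x - f) =
          (vec H 4 A x + c • vec H 4 f x) - (vec H 4 A x + c' • vec H 4 f x) - (c • f - c' • f) := by
        rw [smul_sub, sub_smul, sub_smul]; abel
      rw [this, h2, h3]; abel
    have h5 : vec H 4 f x = f := by
      rcases smul_eq_zero.mp h4 with h | h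
      · exact absurd (sub_eq_zero.mp h) hcc
      · exact sub_eq_zero.mp h
    rw [h5] at h2
    exact add_right_cancel h2
  have hfinbad : ((⋃ x, bad x) ∪ {0}).Finite :=
    (Set.finite_iUnion fun x => (hbad x).finite).union (Set.finite_singleton 0)
  obtain ⟨c, hc⟩ := hfinbad.exists_notMem
  have hc0 : c ≠ 0 := fun h => hc (Or.inr h)
  refine ⟨4, A + c • f, Submodule.add_mem _ hAH (Submodule.smul_mem _ c hf), fun g hg => ?_⟩
  rw [SlashAction.add_slash, ModularForm.SL_smul_slash] at hg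
  have hAg : A ∣[(4 : ℤ)] g = A := by
    by_contra hne
    apply hc
    refine Or.inl (Set.mem_iUnion.mpr ⟨((g⁻¹ : SL(2, ℤ)) : Cos H), ?_⟩)
    show _ ∧ _
    rw [vec_eq_slash hAH, vec_eq_slash hf, inv_inv]
    exact ⟨hne, hg⟩
  have hgΓ := hAs g hAg
  rw [hAg, hfχ ⟨g, hgΓ⟩] at hg
  have h1 : c • ((χ ⟨g, hgΓ⟩ : ℂ) - 1) • f = 0 := by
    rw [sub_smul, one_smul, smul_sub, sub_eq_zero]
    exact add_left_cancel hg
  have h2 : (χ ⟨g, hgΓ⟩ : ℂ) - 1 = 0 := by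
    rcases smul_eq_zero.mp h1 with h | h
    · exact absurd h hc0
    · rcases smul_eq_zero.mp h with h | h
      · exact h
      · exact absurd h hf0
  exact mem_kerSub.mpr ⟨hgΓ, Units.ext (sub_eq_zero.mp h2)⟩

/-! ### interpolation at a point of `ℍ` -/

theorem interp_point {H : Subgroup SL(2, ℤ)} [Fintype (Cos H)] [DecidableEq (Cos H)]
    {w : Cos H → ℤ} {B : Cos H → ℍ → ℂ} (hfam : IsFam H w B) (z₀ : ℍ)
    (hdet : (Mat H w B z₀).det ≠ 0) (g₀ : SL(2, ℤ)) (hg₀ : g₀ • z₀ = z₀) (K : ℤ)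
    (hlvl : ∀ i, denom g₀ z₀ ^ (w i) = 1 → ∃ r ∈ MFs ⊤ (K - w i), r z₀ ≠ 0)
    (t : Cos H → ℂ) (ht : ∀ x, t (g₀⁻¹ • x) = t x) :
    ∃ G ∈ MFs H K, ∀ x, vec H K G x z₀ = t x := by
  classical
  set M := Mat H w B z₀ with hM
  set ε := denom g₀ z₀ with hε
  have hε0 : ε ≠ 0 := denom_ne_zero _ _
  have hMu : IsUnit M.det := isUnit_iff_ne_zero.mpr hdet
  set c : Cos H → ℂ := Matrix.vecMul t M⁻¹ with hc
  have hcM : Matrix.vecMul c M = t := by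
    rw [hc, Matrix.vecMul_vecMul, Matrix.nonsing_inv_mul _ hMu, Matrix.vecMul_one]
  have hMg : ∀ i x, M i x = ε ^ (w i) * M i (g₀⁻¹ • x) := by
    intro i x
    have := vec_smul_apply (hfam.mem i) x g₀ z₀
    rw [hg₀] at this
    exact this
  have hcc : ∀ i, c i = 0 ∨ ε ^ (w i) = 1 := by
    let c' : Cos H → ℂ := fun i => c i * (ε ^ (w i))⁻¹ - c i
    have h0 : Matrix.vecMul c' M = 0 := by
      funext x
      have h1 : t x = ∑ i, c i * M i x := by rw [← hcM]; rfl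
      have h2 : t (g₀⁻¹ • x) = ∑ i, c i * M i (g₀⁻¹ • x) := by rw [← hcM]; rfl
      show ∑ i, c' i * M i x = 0
      have h3 : ∀ i, c' i * M i x = c i * M i (g₀⁻¹ • x) - c i * M i x := by
        intro i
        have hne : ε ^ (w i) ≠ 0 := zpow_ne_zero _ hε0
        simp only [c']
        rw [sub_mul]
        congr 1
        rw [hMg i x]
        field_simp
      rw [Finset.sum_congr rfl fun i _ => h3 i, Finset.sum_sub_distrib, ← h1, ← h2, ht, sub_self]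
    have h4 := Matrix.eq_zero_of_vecMul_eq_zero hdet h0
    intro i
    have h5 : c i * (ε ^ (w i))⁻¹ - c i = 0 := congrFun h4 i
    by_cases hci : c i = 0
    · exact Or.inl hci
    · right
      have hne : ε ^ (w i) ≠ 0 := zpow_ne_zero _ hε0
      have h6 : c i * (ε ^ (w i))⁻¹ = c i * 1 := by rw [mul_one]; exact sub_eq_zero.mp h5
      have h7 := mul_left_cancel₀ hci h6
      rw [inv_eq_one] at h7
      exact h7
  have hR : ∀ i, ∃ R ∈ MFs H K, ∀ x, vec H K R x z₀ = c i * M i x := by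
    intro i
    rcases hcc i with h | h
    · refine ⟨0, Submodule.zero_mem _, fun x => ?_⟩
      rw [h, zero_mul]
      simp [vec]
    · obtain ⟨r, hr, hr0⟩ := hlvl i h
      refine ⟨(c i / r z₀) • (r * B i),
        Submodule.smul_mem _ _ (mul_mem_MFs' hr (hfam.mem i) (by ring)), fun x => ?_⟩
      rw [vec_smul, vec_top_mul hr (B i) (by ring : K - w i + w i = K) x]
      show c i / r z₀ * (r z₀ * vec H (w i) (B i) x z₀) = c i * M i x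
      have : M i x = vec H (w i) (B i) x z₀ := rfl
      rw [this]
      field_simp
  choose R hRm hRv using hR
  refine ⟨∑ i, R i, Submodule.sum_mem _ fun i _ => hRm i, fun x => ?_⟩
  rw [vec_sum, Finset.sum_apply, Finset.sum_congr rfl fun i _ => hRv i x, ← hcM]
  rfl

/-! ### interpolation at the cusps -/

theorem tendsto_one_vadd : Tendsto (fun z : ℍ => (1 : ℝ) +ᵥ z) atImInfty atImInfty := by
  rw [atImInfty, tendsto_comap_iff]
  have : (UpperHalfPlane.im ∘ fun z : ℍ => (1 : ℝ) +ᵥ z) = UpperHalfPlane.im := by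
    funext z; simp [UpperHalfPlane.vadd_im]
  rw [this]
  exact tendsto_comap

/-- the functions on a `G`-set which are invariant under one element `g`. -/
def invSub {X : Type*} {G : Type*} [Group G] [MulAction G X] (g : G) : Submodule ℂ (X → ℂ) where
  carrier := {t | ∀ x, t (g⁻¹ • x) = t x}
  add_mem' := fun {a b} ha hb x => by simp only [Pi.add_apply, ha x, hb x]
  zero_mem' := fun x => rfl
  smul_mem' := fun c a ha x => by simp only [Pi.smul_apply, ha x]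

theorem finrank_invSub {X : Type*} {G : Type*} [Group G] [MulAction G X] [Finite X] (g : G) :
    Module.finrank ℂ (invSub (X := X) g) =
      Nat.card (MulAction.orbitRel.Quotient (Subgroup.zpowers g) X) := by
  classical
  set Q := MulAction.orbitRel.Quotient (Subgroup.zpowers g) X with hQ
  have : Fintype X := Fintype.ofFinite X
  have : Finite Q := Quotient.finite _
  have : Fintype Q := Fintype.ofFinite Q
  let mkQ : X → Q := fun x => Quotient.mk'' x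
  let Φ : (Q → ℂ) →ₗ[ℂ] (X → ℂ) := LinearMap.funLeft ℂ ℂ mkQ
  have hinj : Function.Injective Φ :=
    LinearMap.funLeft_injective_of_surjective ℂ ℂ mkQ Quotient.mk''_surjective
  have hrange : LinearMap.range Φ = invSub (X := X) g := by
    apply le_antisymm
    · rintro _ ⟨φ, rfl⟩ x
      show φ (mkQ (g⁻¹ • x)) = φ (mkQ x)
      congr 1
      apply Quotient.sound'
      exact ⟨⟨g⁻¹, Subgroup.inv_mem _ (Subgroup.mem_zpowers g)⟩, rfl⟩
    · intro t ht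
      have hz : ∀ (n : ℤ) (x : X), t (g ^ n • x) = t x := by
        have h1 : ∀ x, t (g • x) = t x := fun x => by
          have := ht (g • x)
          rw [inv_smul_smul] at this
          exact this.symm
        intro n
        induction n using Int.induction_on with
        | zero => intro x; simp
        | succ n ih => intro x; rw [zpow_add_one, mul_smul, ih, h1]
        | pred n ih => intro x; rw [zpow_sub_one, mul_smul, ih, ht]
      refine ⟨fun q => Quotient.liftOn' q t ?_, ?_⟩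
      · rintro a b ⟨⟨s, n, rfl⟩, hs⟩
        have hs' : g ^ n • b = a := hs
        rw [← hs', hz]
      · funext x
        rfl
  rw [← hrange, LinearMap.finrank_range_of_inj hinj, Module.finrank_fintype_fun_eq_card,
    Nat.card_eq_fintype_card]

theorem interp_cusp {H : Subgroup SL(2, ℤ)} [Fintype (Cos H)] [DecidableEq (Cos H)] (hneg : -1 ∈ H)
    {w : Cos H → ℤ} {B : Cos H → ℍ → ℂ} (hfam : IsFam H w B) (K : ℤ)
    (hlvl : ∀ i, ∃ r ∈ MFs ⊤ (K - w i), Tendsto r atImInfty (𝓝 1))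
    (t : Cos H → ℂ) (ht : ∀ x, t (ModularGroup.T⁻¹ • x) = t x) :
    ∃ G ∈ MFs H K, ∀ x, Tendsto (vec H K G x) atImInfty (𝓝 (t x)) := by
  classical
  have hl := Fermat.Agent.S24.hasLims_atImInfty H
  choose M hM using fun (i : Cos H) (x : Cos H) => hl (w i) (B i) (hfam.mem i) x
  have hrank := Fermat.Agent.S24.rank_lim_atImInfty hneg hfam (M := Matrix.of M) hM
  have hrow : ∀ i, M i ∈ invSub (X := Cos H) ModularGroup.T := by
    intro i x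
    have h1 : vec H (w i) (B i) (ModularGroup.T⁻¹ • x) =
        fun z => vec H (w i) (B i) x ((1 : ℝ) +ᵥ z) := by
      funext z; exact (vec_T (hfam.mem i) x z).symm
    have h2 := hM i (ModularGroup.T⁻¹ • x)
    rw [h1] at h2
    exact tendsto_nhds_unique h2 ((hM i x).comp tendsto_one_vadd)
  have hspan : Submodule.span ℂ (Set.range M) = invSub (X := Cos H) ModularGroup.T := by
    apply Submodule.eq_of_le_of_finrank_eq
    · rw [Submodule.span_le]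
      rintro _ ⟨i, rfl⟩
      exact hrow i
    · rw [finrank_invSub]
      have h := hrank
      rw [Matrix.rank_eq_finrank_span_row] at h
      exact h
  have htm : t ∈ Submodule.span ℂ (Set.range M) := by rw [hspan]; exact ht
  obtain ⟨c, hc⟩ := (Submodule.mem_span_range_iff_exists_fun ℂ).mp htm
  choose r hr hr1 using hlvl
  refine ⟨∑ i, c i • (r i * B i), Submodule.sum_mem _ fun i _ =>
    Submodule.smul_mem _ _ (mul_mem_MFs' (hr i) (hfam.mem i) (by ring)), fun x => ?_⟩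
  have h1 : vec H K (∑ i, c i • (r i * B i)) x =
      fun z => ∑ i, c i * (r i z * vec H (w i) (B i) x z) := by
    rw [vec_sum]
    funext z
    rw [Finset.sum_apply]
    refine Finset.sum_congr rfl fun i _ => ?_
    rw [vec_smul, vec_top_mul (hr i) (B i) (by ring : K - w i + w i = K) x]
    rfl
  have h2 : t x = ∑ i, c i * (1 * M i x) := by
    rw [← hc, Finset.sum_apply]
    refine Finset.sum_congr rfl fun i _ => ?_
    rw [one_mul]; rfl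
  rw [h1, h2]
  exact tendsto_finsetSum _ fun i _ => ((hr1 i).mul (hM i x)).const_mul (c i)

/-! ### projection to the `χ`-component -/

/-- the summand of the projector -/
noncomputable def prTerm (χ : Γ →* ℂˣ) (K : ℤ) (G : ℍ → ℂ) (δ : Γ) : ℍ → ℂ :=
  ((χ δ)⁻¹ : ℂˣ).val • (G ∣[K] (δ : SL(2, ℤ)))

theorem prTerm_mul_ker {K : ℤ} {G : ℍ → ℂ} (hG : G ∈ MFs (kerSub Γ χ) K) (δ : Γ) (e₀ : χ.ker) :
    prTerm χ K G (δ * e₀) = prTerm χ K G δ := by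
  have h1 : χ (δ * e₀) = χ δ := by rw [map_mul, (MonoidHom.mem_ker).mp e₀.2, mul_one]
  have h2 : ((δ * e₀ : Γ) : SL(2, ℤ)) = ((δ * e₀ * δ⁻¹ : Γ) : SL(2, ℤ)) * (δ : SL(2, ℤ)) := by
    rw [← Subgroup.coe_mul]; congr 1; group
  have h3 : ((δ * e₀ * δ⁻¹ : Γ) : SL(2, ℤ)) ∈ kerSub Γ χ := by
    refine mem_kerSub.mpr ⟨(δ * e₀ * δ⁻¹ : Γ).2, ?_⟩
    show χ (δ * e₀ * δ⁻¹) = 1
    rw [map_mul, h1, map_inv, mul_inv_cancel]
  unfold prTerm
  rw [h1, h2, SlashAction.slash_mul, hG.2.1 _ h3]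

theorem prTerm_out {K : ℤ} {G : ℍ → ℂ} (hG : G ∈ MFs (kerSub Γ χ) K) (δ : Γ) :
    prTerm χ K G ((δ : Γ ⧸ χ.ker).out) = prTerm χ K G δ := by
  obtain ⟨e₀, he₀⟩ := QuotientGroup.mk_out_eq_mul χ.ker δ
  rw [he₀, prTerm_mul_ker hG]

/-- the projector to the `χ`-component -/
noncomputable def proj (χ : Γ →* ℂˣ) [Fintype (Γ ⧸ χ.ker)] (K : ℤ) (G : ℍ → ℂ) : ℍ → ℂ :=
  ∑ q : Γ ⧸ χ.ker, prTerm χ K G q.out

theorem proj_slash [Fintype (Γ ⧸ χ.ker)] (K : ℤ) (G : ℍ → ℂ) (g : SL(2, ℤ)) :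
    proj χ K G ∣[K] g =
      ∑ q : Γ ⧸ χ.ker, ((χ q.out)⁻¹ : ℂˣ).val • (G ∣[K] ((q.out : SL(2, ℤ)) * g)) := by
  unfold proj prTerm
  rw [SlashAction.sum_slash]
  refine Finset.sum_congr rfl fun q _ => ?_
  rw [ModularForm.SL_smul_slash, SlashAction.slash_mul]

theorem proj_char [Fintype (Γ ⧸ χ.ker)] {K : ℤ} {G : ℍ → ℂ} (hG : G ∈ MFs (kerSub Γ χ) K) (γ : Γ) :
    proj χ K G ∣[K] (γ : SL(2, ℤ)) = (χ γ : ℂ) • proj χ K G := by
  rw [proj_slash]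
  have h1 : ∀ q : Γ ⧸ χ.ker, ((χ q.out)⁻¹ : ℂˣ).val • (G ∣[K] ((q.out : SL(2, ℤ)) * γ)) =
      (χ γ : ℂ) • prTerm χ K G ((q * (γ : Γ ⧸ χ.ker)).out) := by
    intro q
    have h2 : q * (γ : Γ ⧸ χ.ker) = ((q.out * γ : Γ) : Γ ⧸ χ.ker) := by
      rw [QuotientGroup.mk_mul, QuotientGroup.out_eq']
    rw [h2, prTerm_out hG]
    unfold prTerm
    rw [smul_smul, Subgroup.coe_mul]
    congr 1
    rw [map_mul, mul_inv, Units.val_mul, ← mul_assoc, mul_comm (χ γ : ℂ), mul_assoc,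
      ← Units.val_mul, mul_inv_cancel, Units.val_one, mul_one]
  rw [Finset.sum_congr rfl fun q _ => h1 q, ← Finset.smul_sum]
  congr 1
  exact Equiv.sum_comp (Equiv.mulRight (γ : Γ ⧸ χ.ker)) fun q : Γ ⧸ χ.ker => prTerm χ K G q.out

theorem proj_mdiff [Fintype (Γ ⧸ χ.ker)] {K : ℤ} {G : ℍ → ℂ} (hG : G ∈ MFs (kerSub Γ χ) K) :
    MDiff (proj χ K G) := by
  have h : proj χ K G ∈ MFs (⊥ : Subgroup SL(2, ℤ)) K := by
    refine Submodule.sum_mem _ fun q _ => Submodule.smul_mem _ _ ⟨hG.1.slash K _, ?_, fun g => ?_⟩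
    · intro γ hγ
      rw [Subgroup.mem_bot.mp hγ, SlashAction.slash_one]
    · rw [← SlashAction.slash_mul]
      exact hG.2.2 _
  exact h.1

theorem proj_bdd [Fintype (Γ ⧸ χ.ker)] {K : ℤ} {G : ℍ → ℂ} (hG : G ∈ MFs (kerSub Γ χ) K)
    (g : SL(2, ℤ)) : IsBoundedAtImInfty (proj χ K G ∣[K] g) := by
  have h : proj χ K G ∈ MFs (⊥ : Subgroup SL(2, ℤ)) K := by
    refine Submodule.sum_mem _ fun q _ => Submodule.smul_mem _ _ ⟨hG.1.slash K _, ?_, fun g => ?_⟩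
    · intro γ hγ
      rw [Subgroup.mem_bot.mp hγ, SlashAction.slash_one]
    · rw [← SlashAction.slash_mul]
      exact hG.2.2 _
  exact h.2.2 g

/-! ### the main theorems for a general `Γ` -/

theorem tfun_mk {S₀ : Subgroup SL(2, ℤ)} {τ : SL(2, ℤ) → ℂˣ}
    (hτ : ∀ (δ : Γ) (a s : SL(2, ℤ)), s ∈ S₀ → τ ((δ : SL(2, ℤ)) * a * s) = χ δ * τ a)
    (b : SL(2, ℤ)) : τ ((b : Cos (kerSub Γ χ)).out)⁻¹ = τ b⁻¹ := by
  obtain ⟨e, he⟩ := QuotientGroup.mk_out_eq_mul (kerSub Γ χ) b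
  obtain ⟨h1, h2⟩ := mem_kerSub.mp (Subgroup.inv_mem _ e.2)
  have h3 := hτ ⟨_, h1⟩ b⁻¹ 1 S₀.one_mem
  rw [h2, one_mul, mul_one] at h3
  rw [he, mul_inv_rev]
  exact h3

theorem weight_bound {ι : Type*} [Fintype ι] (w : ι → ℤ) (i : ι) :
    w i + 4 ≤ 12 * ((∑ j, (w j).toNat + 1 : ℕ) : ℤ) := by
  have h1 : (w i).toNat ≤ ∑ j, (w j).toNat :=
    Finset.single_le_sum (f := fun j => (w j).toNat) (fun _ _ => Nat.zero_le _) (Finset.mem_univ i)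
  have h2 : w i ≤ ((w i).toNat : ℤ) := Int.self_le_toNat _
  have h3 : ((w i).toNat : ℤ) ≤ ((∑ j, (w j).toNat : ℕ) : ℤ) := by exact_mod_cast h1
  push_cast at h3 ⊢
  have h4 : (0 : ℤ) ≤ ∑ j, ((w j).toNat : ℤ) := Finset.sum_nonneg fun _ _ => Int.natCast_nonneg _
  linarith

theorem exists_form_point [Γ.FiniteIndex] {m : ℕ} (hm : 0 < m) (hχ : ∀ γ, χ γ ^ m = 1)
    (hpar : ∀ γ : Γ, (γ : SL(2, ℤ)) 1 0 = 0 → χ γ = 1) (hneg : -1 ∈ Γ)
    (hA : ∃ A ∈ MFs Γ 4, ∀ g : SL(2, ℤ), A ∣[(4 : ℤ)] g = A → g ∈ Γ)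
    (z₀ : ℍ) (g₀ : SL(2, ℤ)) (hg₀ : g₀ • z₀ = z₀)
    (hstab : ∀ (a : SL(2, ℤ)) (δ : Γ), a⁻¹ * (δ : SL(2, ℤ)) * a ∈ Subgroup.zpowers g₀ → χ δ = 1)
    (hε : denom g₀ z₀ ^ (12 : ℤ) = 1)
    (hlvl : ∀ n : ℤ, Even n → 4 ≤ n → denom g₀ z₀ ^ n = 1 → ∃ r ∈ MFs ⊤ n, r z₀ ≠ 0) :
    ∃ (k' : ℕ) (h : ℍ → ℂ), MDiff h ∧
      (∀ γ : Γ, h ∣[(12 * k' : ℤ)] (γ : SL(2, ℤ)) = (χ γ : ℂ) • h) ∧
      (∀ g : SL(2, ℤ), IsBoundedAtImInfty (h ∣[(12 * k' : ℤ)] g)) ∧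
      ∀ g : SL(2, ℤ), (h ∣[(12 * k' : ℤ)] g) z₀ ≠ 0 := by
  classical
  set H := kerSub Γ χ with hH
  have hfi : H.FiniteIndex := finiteIndex_kerSub hm hχ
  have hfin : Finite (Cos H) := Subgroup.finite_quotient_of_finiteIndex
  have : Fintype (Cos H) := Fintype.ofFinite _
  have hnegH : -1 ∈ H := mem_kerSub.mpr ⟨hneg, hpar _ (by simp)⟩
  obtain ⟨w, B, hfam, z1, hz1⟩ := exists_basis H hnegH (hasSep_kerSub hm hχ hpar hA)
  have hdet := det_Mat_ne_zero hfam hz1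
  obtain ⟨τ, hτ⟩ := exists_equivariant Γ (Subgroup.zpowers g₀) χ hstab
  set k' : ℕ := ∑ j, (w j).toNat + 1 with hk'
  set K : ℤ := 12 * (k' : ℤ) with hK
  have hε0 : denom g₀ z₀ ≠ 0 := denom_ne_zero _ _
  have hεK : denom g₀ z₀ ^ K = 1 := by rw [hK, zpow_mul, hε, one_zpow]
  have hlvl' : ∀ i, denom g₀ z₀ ^ (w i) = 1 → ∃ r ∈ MFs ⊤ (K - w i), r z₀ ≠ 0 := by
    intro i hi
    refine hlvl _ ?_ ?_ ?_
    · exact Even.sub ⟨6 * k', by rw [hK]; ring⟩ (hfam.even hnegH i)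
    · have := weight_bound w i
      rw [hK, hk']; linarith
    · rw [zpow_sub₀ hε0, hεK, hi, div_one]
  let t : Cos H → ℂ := fun x => (τ (x.out)⁻¹ : ℂ)
  have ht_mk : ∀ b : SL(2, ℤ), t (b : Cos H) = (τ b⁻¹ : ℂ) := fun b => by
    show ((τ ((b : Cos H).out)⁻¹ : ℂˣ) : ℂ) = _
    rw [tfun_mk hτ]
  have ht : ∀ x, t (g₀⁻¹ • x) = t x := by
    intro x
    obtain ⟨b, rfl⟩ := QuotientGroup.mk_surjective x
    have h1 : g₀⁻¹ • (b : Cos H) = ((g₀⁻¹ * b : SL(2, ℤ)) : Cos H) := rfl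
    rw [h1, ht_mk, ht_mk, mul_inv_rev, inv_inv]
    have h2 := hτ 1 b⁻¹ g₀ (Subgroup.mem_zpowers g₀)
    rw [map_one, one_mul, Subgroup.coe_one, one_mul] at h2
    rw [h2]
  obtain ⟨G, hG, hGv⟩ := interp_point hfam z₀ (hdet z₀) g₀ hg₀ K hlvl' t ht
  have hfk : Finite (Γ ⧸ χ.ker) := by
    have : NeZero m := ⟨hm.ne'⟩
    have hle : χ.range ≤ rootsOfUnity m ℂ := by
      rintro _ ⟨γ, rfl⟩
      exact (mem_rootsOfUnity _ _).mpr (hχ γ)
    have : Finite χ.range := Finite.of_injective _ (Subgroup.inclusion_injective hle)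
    have := Subgroup.finiteIndex_ker χ
    exact Subgroup.finite_quotient_of_finiteIndex
  have : Fintype (Γ ⧸ χ.ker) := Fintype.ofFinite _
  refine ⟨k', proj χ K G, proj_mdiff hG, proj_char hG, proj_bdd hG, fun g => ?_⟩
  rw [proj_slash, Finset.sum_apply]
  have hterm : ∀ q : Γ ⧸ χ.ker,
      (((χ q.out)⁻¹ : ℂˣ).val • (G ∣[K] ((q.out : SL(2, ℤ)) * g))) z₀ = (τ g : ℂ) := by
    intro q
    have h1 : (G ∣[K] ((q.out : SL(2, ℤ)) * g)) z₀ = (τ ((q.out : SL(2, ℤ)) * g) : ℂ) := by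
      have h2 := vec_eq_slash hG ((q.out : SL(2, ℤ)) * g)⁻¹
      rw [inv_inv] at h2
      rw [← h2, hGv, ht_mk, inv_inv]
    have h3 := hτ q.out g 1 (Subgroup.one_mem _)
    rw [mul_one] at h3
    rw [Pi.smul_apply, h1, h3, smul_eq_mul, ← Units.val_mul, inv_mul_cancel_left]
  rw [Finset.sum_congr rfl fun q _ => hterm q, Finset.sum_const, nsmul_eq_mul]
  refine mul_ne_zero ?_ (Units.ne_zero _)
  have : Nonempty (Γ ⧸ χ.ker) := ⟨1⟩
  exact_mod_cast (Finset.card_pos.mpr Finset.univ_nonempty).ne'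

theorem exists_mono_form (n : ℤ) (he : Even n) (h4 : 4 ≤ n) :
    ∃ a b : ℕ, ((⇑E₄ : ℍ → ℂ) ^ a * (⇑E₆ : ℍ → ℂ) ^ b) ∈ MFs ⊤ n := by
  obtain ⟨a, b, hab⟩ := l1_exists_mono n (by linarith) he (by omega)
  refine ⟨a, b, ?_⟩
  have := mul_mem_MFs (pow_mem_MFs E4_mem a) (pow_mem_MFs E6_mem b)
  rwa [hab] at this

theorem exists_form_cusp [Γ.FiniteIndex] {m : ℕ} (hm : 0 < m) (hχ : ∀ γ, χ γ ^ m = 1)
    (hparc : ∀ (a : SL(2, ℤ)) (γ : Γ), (a⁻¹ * (γ : SL(2, ℤ)) * a) 1 0 = 0 → χ γ = 1) (hneg : -1 ∈ Γ)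
    (hA : ∃ A ∈ MFs Γ 4, ∀ g : SL(2, ℤ), A ∣[(4 : ℤ)] g = A → g ∈ Γ) :
    ∃ (k' : ℕ) (h : ℍ → ℂ), MDiff h ∧
      (∀ γ : Γ, h ∣[(12 * k' : ℤ)] (γ : SL(2, ℤ)) = (χ γ : ℂ) • h) ∧
      (∀ g : SL(2, ℤ), IsBoundedAtImInfty (h ∣[(12 * k' : ℤ)] g)) ∧
      ∀ g : SL(2, ℤ), ∃ c : ℂ, c ≠ 0 ∧ Tendsto (h ∣[(12 * k' : ℤ)] g) atImInfty (𝓝 c) := by
  classical
  have hpar : ∀ γ : Γ, (γ : SL(2, ℤ)) 1 0 = 0 → χ γ = 1 := fun γ hγ =>
    hparc 1 γ (by rw [inv_one, one_mul, mul_one]; exact hγ)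
  set H := kerSub Γ χ with hH
  have hfi : H.FiniteIndex := finiteIndex_kerSub hm hχ
  have hfin : Finite (Cos H) := Subgroup.finite_quotient_of_finiteIndex
  have : Fintype (Cos H) := Fintype.ofFinite _
  have hnegH : -1 ∈ H := mem_kerSub.mpr ⟨hneg, hpar _ (by simp)⟩
  obtain ⟨w, B, hfam, z1, hz1⟩ := exists_basis H hnegH (hasSep_kerSub hm hχ hpar hA)
  have hstab : ∀ (a : SL(2, ℤ)) (δ : Γ),
      a⁻¹ * (δ : SL(2, ℤ)) * a ∈ Subgroup.zpowers ModularGroup.T → χ δ = 1 := by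
    rintro a δ ⟨n, hn⟩
    refine hparc a δ ?_
    rw [← hn]
    show (ModularGroup.T ^ n : SL(2, ℤ)).1 1 0 = 0
    rw [ModularGroup.coe_T_zpow]; rfl
  obtain ⟨τ, hτ⟩ := exists_equivariant Γ (Subgroup.zpowers ModularGroup.T) χ hstab
  set k' : ℕ := ∑ j, (w j).toNat + 1 with hk'
  set K : ℤ := 12 * (k' : ℤ) with hK
  have hlvl' : ∀ i, ∃ r ∈ MFs ⊤ (K - w i), Tendsto r atImInfty (𝓝 1) := by
    intro i
    obtain ⟨a, b, hab⟩ := exists_mono_form (K - w i)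
      (Even.sub ⟨6 * k', by rw [hK]; ring⟩ (hfam.even hnegH i))
      (by have := weight_bound w i; rw [hK, hk']; linarith)
    refine ⟨_, hab, ?_⟩
    have := (l1_tendsto_E₄.pow a).mul (l1_tendsto_E₆.pow b)
    rw [one_pow, one_pow, one_mul] at this
    exact this
  let t : Cos H → ℂ := fun x => (τ (x.out)⁻¹ : ℂ)
  have ht_mk : ∀ b : SL(2, ℤ), t (b : Cos H) = (τ b⁻¹ : ℂ) := fun b => by
    show ((τ ((b : Cos H).out)⁻¹ : ℂˣ) : ℂ) = _
    rw [tfun_mk hτ]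
  have ht : ∀ x, t (ModularGroup.T⁻¹ • x) = t x := by
    intro x
    obtain ⟨b, rfl⟩ := QuotientGroup.mk_surjective x
    have h1 : ModularGroup.T⁻¹ • (b : Cos H) = ((ModularGroup.T⁻¹ * b : SL(2, ℤ)) : Cos H) := rfl
    rw [h1, ht_mk, ht_mk, mul_inv_rev, inv_inv]
    have h2 := hτ 1 b⁻¹ ModularGroup.T (Subgroup.mem_zpowers _)
    rw [map_one, one_mul, Subgroup.coe_one, one_mul] at h2
    rw [h2]
  obtain ⟨G, hG, hGv⟩ := interp_cusp hnegH hfam K hlvl' t ht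
  have hfk : Finite (Γ ⧸ χ.ker) := by
    have : NeZero m := ⟨hm.ne'⟩
    have hle : χ.range ≤ rootsOfUnity m ℂ := by
      rintro _ ⟨γ, rfl⟩
      exact (mem_rootsOfUnity _ _).mpr (hχ γ)
    have : Finite χ.range := Finite.of_injective _ (Subgroup.inclusion_injective hle)
    have := Subgroup.finiteIndex_ker χ
    exact Subgroup.finite_quotient_of_finiteIndex
  have : Fintype (Γ ⧸ χ.ker) := Fintype.ofFinite _
  refine ⟨k', proj χ K G, proj_mdiff hG, proj_char hG, proj_bdd hG, fun g => ?_⟩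
  refine ⟨∑ _q : Γ ⧸ χ.ker, (τ g : ℂ), ?_, ?_⟩
  · rw [Finset.sum_const, nsmul_eq_mul]
    refine mul_ne_zero ?_ (Units.ne_zero _)
    have : Nonempty (Γ ⧸ χ.ker) := ⟨1⟩
    exact_mod_cast (Finset.card_pos.mpr Finset.univ_nonempty).ne'
  · rw [proj_slash]
    have hfun : (∑ q : Γ ⧸ χ.ker, ((χ q.out)⁻¹ : ℂˣ).val • (G ∣[K] ((q.out : SL(2, ℤ)) * g))) =
        fun z => ∑ q : Γ ⧸ χ.ker, ((χ q.out)⁻¹ : ℂˣ).val * (G ∣[K] ((q.out : SL(2, ℤ)) * g)) z := by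
      funext z
      rw [Finset.sum_apply]
      rfl
    rw [hfun]
    refine tendsto_finsetSum _ fun q _ => ?_
    have h1 : Tendsto (G ∣[K] ((q.out : SL(2, ℤ)) * g)) atImInfty
        (𝓝 (τ ((q.out : SL(2, ℤ)) * g) : ℂ)) := by
      have h2 := vec_eq_slash hG ((q.out : SL(2, ℤ)) * g)⁻¹
      rw [inv_inv] at h2
      have h3 := hGv (((q.out : SL(2, ℤ)) * g)⁻¹ : SL(2, ℤ))
      rw [h2, ht_mk, inv_inv] at h3
      exact h3
    have h3 := hτ q.out g 1 (Subgroup.one_mem _)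
    rw [mul_one] at h3
    have h4 : (τ g : ℂ) = ((χ q.out)⁻¹ : ℂˣ).val * (τ ((q.out : SL(2, ℤ)) * g) : ℂ) := by
      rw [h3, ← Units.val_mul, inv_mul_cancel_left]
    rw [h4]
    exact h1.const_mul _

/-! ### the three kinds of points -/

theorem char_of_conj_mem_zpowers (hell : ∀ γ : Γ, IsOfFinOrder γ → χ γ = 1) {g₀ : SL(2, ℤ)}
    (hg₀ : IsOfFinOrder g₀) (a : SL(2, ℤ)) (δ : Γ)
    (h : a⁻¹ * (δ : SL(2, ℤ)) * a ∈ Subgroup.zpowers g₀) : χ δ = 1 := by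
  obtain ⟨n, hn⟩ := h
  obtain ⟨k, hk, hk1⟩ := isOfFinOrder_iff_pow_eq_one.mp (hg₀.zpow (i := n))
  refine hell δ (isOfFinOrder_iff_pow_eq_one.mpr ⟨k, hk, Subtype.ext ?_⟩)
  have h1 : (δ : SL(2, ℤ)) = a * (g₀ ^ n) * a⁻¹ := by
    have : g₀ ^ n = a⁻¹ * (δ : SL(2, ℤ)) * a := hn
    rw [this]; group
  rw [Subgroup.coe_pow, h1, conj_pow, hk1, mul_one, mul_inv_cancel]
  rfl

theorem S_pow_four : (ModularGroup.S : SL(2, ℤ)) ^ 4 = 1 := by
  apply Subtype.ext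
  rw [Matrix.SpecialLinearGroup.coe_pow, ModularGroup.coe_S]
  simp [pow_succ, Matrix.one_fin_two]

theorem ST_pow_six : (ModularGroup.S * ModularGroup.T : SL(2, ℤ)) ^ 6 = 1 := by
  apply Subtype.ext
  rw [Matrix.SpecialLinearGroup.coe_pow, coe_ST]
  simp [pow_succ, Matrix.one_fin_two]

theorem isPrimitiveRoot_I : IsPrimitiveRoot Complex.I 4 := by
  refine IsPrimitiveRoot.mk_of_lt _ (by norm_num) Complex.I_pow_four fun l h0 h4 h => ?_
  interval_cases l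
  · rw [pow_one] at h
    have := congrArg Complex.im h
    simp at this
  · rw [Complex.I_sq] at h
    norm_num at h
  · rw [Complex.I_pow_three] at h
    have := congrArg Complex.im h
    simp at this

theorem isPrimitiveRoot_rho : IsPrimitiveRoot (l1rho : ℂ) 3 := by
  have hr := l1rho_sq
  refine IsPrimitiveRoot.mk_of_lt _ (by norm_num) (by linear_combination ((l1rho : ℂ) - 1) * hr)
    fun l h0 h3 h => ?_
  interval_cases l
  · rw [pow_one] at h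
    rw [h] at hr
    norm_num at hr
  · have h1 : (l1rho : ℂ) = -2 := by linear_combination hr - h
    rw [h1] at hr
    norm_num at hr

theorem exists_form_ne_zero_at_gen [Γ.FiniteIndex] {m : ℕ} (hm : 0 < m) (hχ : ∀ γ, χ γ ^ m = 1)
    (hpar : ∀ γ : Γ, (γ : SL(2, ℤ)) 1 0 = 0 → χ γ = 1) (hell : ∀ γ : Γ, IsOfFinOrder γ → χ γ = 1)
    (hneg : -1 ∈ Γ) (hA : ∃ A ∈ MFs Γ 4, ∀ g : SL(2, ℤ), A ∣[(4 : ℤ)] g = A → g ∈ Γ)
    (z₀ : ℍ) (hz : (E₄ z₀ ≠ 0 ∧ E₆ z₀ ≠ 0) ∨ z₀ = UpperHalfPlane.I ∨ z₀ = l1rho) :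
    ∃ (k' : ℕ) (h : ℍ → ℂ), MDiff h ∧
      (∀ γ : Γ, h ∣[(12 * k' : ℤ)] (γ : SL(2, ℤ)) = (χ γ : ℂ) • h) ∧
      (∀ g : SL(2, ℤ), IsBoundedAtImInfty (h ∣[(12 * k' : ℤ)] g)) ∧
      ∀ g : SL(2, ℤ), (h ∣[(12 * k' : ℤ)] g) z₀ ≠ 0 := by
  rcases hz with ⟨h4, h6⟩ | rfl | rfl
  · refine exists_form_point hm hχ hpar hneg hA z₀ 1 (one_smul _ _)
      (char_of_conj_mem_zpowers hell IsOfFinOrder.one) ?_ fun n he hn _ => ?_
    · have : denom (1 : SL(2, ℤ)) z₀ = 1 := by simp [denom]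
      rw [this, one_zpow]
    · obtain ⟨a, b, hab⟩ := exists_mono_form n he hn
      exact ⟨_, hab, mul_ne_zero (pow_ne_zero _ h4) (pow_ne_zero _ h6)⟩
  · refine exists_form_point hm hχ hpar hneg hA _ ModularGroup.S l1_S_smul_I
      (char_of_conj_mem_zpowers hell (isOfFinOrder_iff_pow_eq_one.mpr ⟨4, by norm_num, S_pow_four⟩))
      ?_ fun n _ hn h1 => ?_
    · rw [l1_denom_S_I]
      exact (isPrimitiveRoot_I.zpow_eq_one_iff_dvd 12).mpr ⟨3, by norm_num⟩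
    · rw [l1_denom_S_I] at h1
      obtain ⟨j, hj⟩ := (isPrimitiveRoot_I.zpow_eq_one_iff_dvd n).mp h1
      have hj0 : 0 ≤ j := by push_cast at hj; omega
      lift j to ℕ using hj0
      refine ⟨(⇑E₄ : ℍ → ℂ) ^ j, ?_, pow_ne_zero _ (l1_E₄_ne_of_E₆_eq l1_E₆_I)⟩
      have := pow_mem_MFs E4_mem j
      rwa [show (j : ℤ) * 4 = n by rw [hj]; push_cast; ring] at this
  · refine exists_form_point hm hχ hpar hneg hA _ (ModularGroup.S * ModularGroup.T) l1_ST_smul_rho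
      (char_of_conj_mem_zpowers hell (isOfFinOrder_iff_pow_eq_one.mpr ⟨6, by norm_num, ST_pow_six⟩))
      ?_ fun n he hn h1 => ?_
    · rw [l1_denom_ST_rho]
      have hr := l1rho_sq
      have h2 : ((l1rho : ℂ) + 1) ^ 2 = l1rho := by linear_combination hr
      have h3 : (l1rho : ℂ) ^ 3 = 1 := isPrimitiveRoot_rho.pow_eq_one
      have : ((l1rho : ℂ) + 1) ^ (12 : ℤ) = (((l1rho : ℂ) + 1) ^ 2) ^ 6 := by
        rw [← pow_mul]; norm_cast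
      rw [this, h2, show (6 : ℕ) = 3 * 2 by norm_num, pow_mul, h3, one_pow]
    · rw [l1_denom_ST_rho] at h1
      have hr := l1rho_sq
      have h2 : ((l1rho : ℂ) + 1) ^ 2 = l1rho := by linear_combination hr
      obtain ⟨i, hi⟩ := he
      have h3 : (l1rho : ℂ) ^ i = 1 := by
        have h5 : ((l1rho : ℂ) + 1) ^ n = (((l1rho : ℂ) + 1) ^ 2) ^ i := by
          rw [← zpow_natCast, ← zpow_mul, hi]
          congr 1
          push_cast; ring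
        rw [h2] at h5
        rw [← h5]; exact h1
      obtain ⟨j, hj⟩ := (isPrimitiveRoot_rho.zpow_eq_one_iff_dvd i).mp h3
      have hj0 : 0 ≤ j := by push_cast at hj; omega
      lift j to ℕ using hj0
      refine ⟨(⇑E₆ : ℍ → ℂ) ^ j, ?_, pow_ne_zero _ (l1_E₆_ne_of_E₄_eq l1_E₄_rho)⟩
      have := pow_mem_MFs E6_mem j
      rwa [show (j : ℤ) * 6 = n by rw [hi, hj]; push_cast; ring] at this

/-! ### `Γ₀(N)` -/

theorem sep4_Gamma0 (N : ℕ) [NeZero N] :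
    ∃ A ∈ MFs (Gamma0 N) 4, ∀ g : SL(2, ℤ), A ∣[(4 : ℤ)] g = A → g ∈ Gamma0 N := by
  refine ⟨⇑(Fermat.Agent.S23.sepX N), mf_coe_mem_MFs _ _, fun g hg => ?_⟩
  refine Fermat.Agent.S23.sep_separation N (Fermat.Agent.S23.sepAlpha N) ?_ g ?_
  · rw [Fermat.Agent.S23.sepAlpha, ModularForm.val_heckeDiagMatrix (NeZero.ne N)]
  · rw [← Fermat.Agent.S23.coe_sepX]; exact hg

theorem neg_one_mem_Gamma0' (N : ℕ) : (-1 : SL(2, ℤ)) ∈ Gamma0 N := by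
  simp [Gamma0_mem]

/-- **Base point freeness in weights `12 k'` at the points of `ℍ`** (generic points, `i`, `ρ`). -/
theorem exists_form_ne_zero_at {N : ℕ} [NeZero N] {χ : Gamma0 N →* ℂˣ} {m : ℕ} (hm : 0 < m)
    (hχ : ∀ γ, χ γ ^ m = 1)
    (hpar : ∀ (a : SL(2, ℤ)) (γ : Gamma0 N), (a⁻¹ * (γ : SL(2, ℤ)) * a) 1 0 = 0 → χ γ = 1)
    (hell : ∀ γ : Gamma0 N, IsOfFinOrder γ → χ γ = 1)
    (z₀ : ℍ) (hz : (E₄ z₀ ≠ 0 ∧ E₆ z₀ ≠ 0) ∨ z₀ = UpperHalfPlane.I ∨ z₀ = l1rho) :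
    ∃ (k' : ℕ) (h : ℍ → ℂ), MDiff h ∧
      (∀ γ : Gamma0 N, h ∣[(12 * k' : ℤ)] (γ : SL(2, ℤ)) = (χ γ : ℂ) • h) ∧
      (∀ g : SL(2, ℤ), IsBoundedAtImInfty (h ∣[(12 * k' : ℤ)] g)) ∧
      ∀ g : SL(2, ℤ), (h ∣[(12 * k' : ℤ)] g) z₀ ≠ 0 :=
  exists_form_ne_zero_at_gen hm hχ
    (fun γ hγ => hpar 1 γ (by rw [inv_one, one_mul, mul_one]; exact hγ)) hell
    (neg_one_mem_Gamma0' N) (sep4_Gamma0 N) z₀ hz

/-- **Base point freeness in weights `12 k'` at the cusps.** -/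
theorem exists_form_ne_zero_at_cusps {N : ℕ} [NeZero N] {χ : Gamma0 N →* ℂˣ} {m : ℕ} (hm : 0 < m)
    (hχ : ∀ γ, χ γ ^ m = 1)
    (hpar : ∀ (a : SL(2, ℤ)) (γ : Gamma0 N), (a⁻¹ * (γ : SL(2, ℤ)) * a) 1 0 = 0 → χ γ = 1) :
    ∃ (k' : ℕ) (h : ℍ → ℂ), MDiff h ∧
      (∀ γ : Gamma0 N, h ∣[(12 * k' : ℤ)] (γ : SL(2, ℤ)) = (χ γ : ℂ) • h) ∧
      (∀ g : SL(2, ℤ), IsBoundedAtImInfty (h ∣[(12 * k' : ℤ)] g)) ∧
      ∀ g : SL(2, ℤ), ∃ c : ℂ, c ≠ 0 ∧ Tendsto (h ∣[(12 * k' : ℤ)] g) atImInfty (𝓝 c) :=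
  exists_form_cusp hm hχ hpar (neg_one_mem_Gamma0' N) (sep4_Gamma0 N)

end Fermat.Agent.S29
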