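import Fermat.Agent.S29.ANOrd
import Fermat.Agent.S29.BPF
import Fermat.Agent.S29.AlgForms
import Fermat.Agent.S24.Final

/-!
# S29 [AN], piece ORD1: `m ∣ ord_P u` from base point freeness in weights `12 k'` (`BPF.lean`)

`BPF.lean` gives one complex form of weight `12 k'` with character `χ` which does not vanish on a whole
fibre; `Mchi_span_algebraic` and a Vandermonde trick make it algebraic; ORD0
(`IsKumChi.dvd_mul_ord_of_form`) concludes.
-/

set_option autoImplicit false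

namespace Fermat.Agent.S29

open UpperHalfPlane ModularForm Filter Topology CongruenceSubgroup ModularCurve AlgebraicCurve
open Fermat.Agent.S20 Fermat.Agent.S23 Fermat.Agent.S24
open scoped MatrixGroups Manifold ModularForm

/-- `IsAlgQ` is stable under `ℚ̄`-linear combinations. -/
theorem ord1_isAlgQ_sum {n : ℕ} {f : Fin n → ℍ → ℂ} (hf : ∀ i, f i ∈ Nice)
    (ha : ∀ i, IsAlgQ (f i)) (c : Fin n → Kb) : IsAlgQ (∑ i, iota (c i) • f i) := by
  choose s hs using ha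
  refine ⟨∑ i, c i • s i, fun k => ?_⟩
  have h1 : qExpansion 1 (∑ i, iota (c i) • f i) = ∑ i, iota (c i) • qExpansion 1 (f i) := by
    have h2 := map_sum qHom (fun i => iota (c i) • (⟨f i, hf i⟩ : Nice)) Finset.univ
    simp only [map_smul, qHom_apply] at h2
    rw [← h2]
    congr 1
    simp
  rw [h1, map_sum, map_sum, map_sum]
  refine Finset.sum_congr rfl fun i _ => ?_
  rw [PowerSeries.coeff_smul, PowerSeries.coeff_smul, hs, smul_eq_mul, smul_eq_mul, map_mul]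

/-- finitely many nonzero vectors: some `(1, t, t², …)`, `t ∈ ℕ`, is orthogonal to none of them. -/
theorem ord1_exists_nat {X : Type*} {n : ℕ} (a : X → Fin n → ℂ) (G : Finset X)
    (ha : ∀ x ∈ G, a x ≠ 0) : ∃ t : ℕ, ∀ x ∈ G, ∑ i : Fin n, (t : ℂ) ^ (i : ℕ) * a x i ≠ 0 := by
  classical
  let p : X → Polynomial ℂ := fun x => ∑ i : Fin n, Polynomial.C (a x i) * Polynomial.X ^ (i : ℕ)
  have hp : ∀ x ∈ G, p x ≠ 0 := by
    intro x hx h0
    apply ha x hx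
    funext i
    have := congrArg (fun q => Polynomial.coeff q (i : ℕ)) h0
    simp only [p, Polynomial.finsetSum_coeff, Polynomial.coeff_C_mul_X_pow,
      Polynomial.coeff_zero] at this
    rw [Finset.sum_eq_single i] at this
    · simpa using this
    · intro j _ hj
      rw [if_neg]
      intro h
      exact hj (Fin.ext h.symm)
    · intro h; exact absurd (Finset.mem_univ i) h
  have hP : ∏ x ∈ G, p x ≠ 0 := Finset.prod_ne_zero_iff.mpr hp
  by_contra hcon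
  push Not at hcon
  apply hP
  apply Polynomial.eq_zero_of_infinite_isRoot
  refine Set.Infinite.mono ?_ (Set.infinite_range_of_injective (Nat.cast_injective (R := ℂ)))
  rintro _ ⟨t, rfl⟩
  obtain ⟨x, hx, h0⟩ := hcon t
  show Polynomial.IsRoot _ _
  rw [Polynomial.IsRoot.def, Polynomial.eval_prod]
  refine Finset.prod_eq_zero hx ?_
  simp only [p, Polynomial.eval_finsetSum, Polynomial.eval_mul, Polynomial.eval_C,
    Polynomial.eval_pow, Polynomial.eval_X]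
  rw [← h0]
  exact Finset.sum_congr rfl fun i _ => mul_comm _ _

/-- From a complex form with nonzero limits to an algebraic one. -/
theorem ord1_exists_alg {V : Submodule ℂ (ℍ → ℂ)} (hV : ∀ f ∈ V, f ∈ Nice) {k : ℤ} {l : Filter ℍ}
    [l.NeBot] (hlim : ∀ f ∈ V, ∀ g : SL(2, ℤ), ∃ c, Tendsto (f ∣[k] g) l (𝓝 c))
    {h : ℍ → ℂ} (hh : h ∈ Submodule.span ℂ {f | f ∈ V ∧ IsAlgQ f}) (G : Finset SL(2, ℤ))
    (hne : ∀ g ∈ G, ∃ c : ℂ, c ≠ 0 ∧ Tendsto (h ∣[k] g) l (𝓝 c)) :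
    ∃ W ∈ V, IsAlgQ W ∧ ∀ g ∈ G, ∃ c : ℂ, c ≠ 0 ∧ Tendsto (W ∣[k] g) l (𝓝 c) := by
  obtain ⟨n, c, f, rfl⟩ := Submodule.mem_span_set'.mp hh
  choose a ha using fun (g : SL(2, ℤ)) (i : Fin n) => hlim (f i) (f i).2.1 g
  have hsl : ∀ (d : Fin n → ℂ) (g : SL(2, ℤ)),
      Tendsto ((∑ i, d i • (f i : ℍ → ℂ)) ∣[k] g) l (𝓝 (∑ i, d i * a g i)) := by
    intro d g
    rw [SlashAction.sum_slash]
    have hfun : (∑ i, (d i • (f i : ℍ → ℂ)) ∣[k] g) =
        fun z => ∑ i, d i * ((f i : ℍ → ℂ) ∣[k] g) z := by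
      funext z
      rw [Finset.sum_apply]
      refine Finset.sum_congr rfl fun i _ => ?_
      rw [ModularForm.SL_smul_slash]
      rfl
    rw [hfun]
    exact tendsto_finsetSum _ fun i _ => (ha g i).const_mul _
  have hane : ∀ g ∈ G, a g ≠ 0 := by
    intro g hg h0
    obtain ⟨c₀, hc₀, ht⟩ := hne g hg
    have := tendsto_nhds_unique ht (hsl c g)
    rw [h0] at this
    simp at this
    exact hc₀ this
  obtain ⟨t, ht⟩ := ord1_exists_nat a G hane
  refine ⟨∑ i : Fin n, iota ((t : Kb) ^ (i : ℕ)) • (f i : ℍ → ℂ), ?_, ?_, fun g hg => ?_⟩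
  · exact Submodule.sum_mem _ fun i _ => Submodule.smul_mem _ _ (f i).2.1
  · exact ord1_isAlgQ_sum (fun i => hV _ (f i).2.1) (fun i => (f i).2.2) _
  · refine ⟨_, ?_, hsl _ g⟩
    have := ht g hg
    simpa using this

variable {N : ℕ} [NeZero N] {m : ℕ} {χ : Gamma0 N →* ℂˣ} {u : FN N}

/-- all conjugates of a form with character have a limit at `i∞`. -/
theorem ord1_lim_cusp (hm : 0 < m) (hχ : ∀ γ, χ γ ^ m = 1) {k : ℤ} {f : ℍ → ℂ}
    (hf : f ∈ Mchi (Gamma0 N) χ k) (g : SL(2, ℤ)) : ∃ c, Tendsto (f ∣[k] g) atImInfty (𝓝 c) := by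
  have hf' : f ∈ MFs (kerSub (Gamma0 N) χ) k := Mchi_le_MFs_kerS hf
  have hfi : (kerSub (Gamma0 N) χ).FiniteIndex := finiteIndex_kerSub hm hχ
  have hfin : Finite (Cos (kerSub (Gamma0 N) χ)) := Subgroup.finite_quotient_of_finiteIndex
  obtain ⟨c, hc⟩ := hasLims_atImInfty (kerSub (Gamma0 N) χ) k f hf' ((g⁻¹ : SL(2, ℤ)) : Cos _)
  rw [vec_eq_slash hf' g⁻¹, inv_inv] at hc
  exact ⟨c, hc⟩

/-- finitely many conjugates suffice. -/
theorem ord1_reps (χ : Gamma0 N →* ℂˣ) (k : ℤ) (l : Filter ℍ) :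
    ∃ G : Finset SL(2, ℤ), ∀ W ∈ Mchi (Gamma0 N) χ k,
      (∀ g ∈ G, ∃ c : ℂ, c ≠ 0 ∧ Tendsto (W ∣[k] g) l (𝓝 c)) →
      ∀ g : SL(2, ℤ), ∃ c : ℂ, c ≠ 0 ∧ Tendsto (W ∣[k] g) l (𝓝 c) := by
  classical
  have hfin : Finite (SL(2, ℤ) ⧸ Gamma0 N) := Subgroup.finite_quotient_of_finiteIndex
  have : Fintype (SL(2, ℤ) ⧸ Gamma0 N) := Fintype.ofFinite _
  refine ⟨Finset.univ.image fun q : SL(2, ℤ) ⧸ Gamma0 N => q.out⁻¹, fun W hW h g => ?_⟩
  obtain ⟨γ, hγ⟩ := QuotientGroup.mk_out_eq_mul (Gamma0 N) g⁻¹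
  obtain ⟨c, hc0, hc⟩ := h _ (Finset.mem_image_of_mem _ (Finset.mem_univ ((g⁻¹ : SL(2, ℤ)) :
    SL(2, ℤ) ⧸ Gamma0 N)))
  have hg : g = (γ : SL(2, ℤ)) * (((g⁻¹ : SL(2, ℤ)) : SL(2, ℤ) ⧸ Gamma0 N).out)⁻¹ := by
    rw [hγ, mul_inv_rev, inv_inv, mul_inv_cancel_left]
  refine ⟨(χ γ : ℂ) * c, mul_ne_zero (Units.ne_zero _) hc0, ?_⟩
  rw [hg, SlashAction.slash_mul, hW.2.1 γ, ModularForm.SL_smul_slash]
  exact hc.const_mul _

/-- **Algebraic base point freeness.** -/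
theorem ord1_exists_W (hpar : IsPar N χ)
    (hspan : ∀ k : ℤ, Mchi (Gamma0 N) χ k ≤
      Submodule.span ℂ {f | f ∈ Mchi (Gamma0 N) χ k ∧ IsAlgQ f})
    {l : Filter ℍ} [l.NeBot]
    (hlim : ∀ (k : ℤ), ∀ f ∈ Mchi (Gamma0 N) χ k, ∀ g : SL(2, ℤ), ∃ c, Tendsto (f ∣[k] g) l (𝓝 c))
    (hbpf : ∃ (k' : ℕ) (h : ℍ → ℂ), h ∈ Mchi (Gamma0 N) χ (12 * k') ∧
      ∀ g : SL(2, ℤ), ∃ c : ℂ, c ≠ 0 ∧ Tendsto (h ∣[(12 * k' : ℤ)] g) l (𝓝 c)) :
    ∃ (R : ℕ) (W : ℍ → ℂ), W ∈ Mchi (Gamma0 N) χ (12 * R) ∧ IsAlgQ W ∧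
      ∀ g : SL(2, ℤ), ∃ c : ℂ, c ≠ 0 ∧ Tendsto (W ∣[(12 * R : ℤ)] g) l (𝓝 c) := by
  obtain ⟨k', h, hh, hne⟩ := hbpf
  obtain ⟨G, hG⟩ := ord1_reps χ (12 * k') l
  obtain ⟨W, hW, hWa, hWG⟩ := ord1_exists_alg (V := Mchi (Gamma0 N) χ (12 * k'))
    (fun f hf => hpar.nice hf) (hlim _) (hspan _ hh) G fun g _ => hne g
  exact ⟨k', W, hW, hWa, hG W hW hWG⟩

/-- **ORD1**, with `Mchi_span_algebraic` as a hypothesis. -/
theorem IsKumChi.dvd_ord_of_span (hm : 0 < m) (h : IsKumChi N m χ u)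
    (htor : ∀ g : Gamma0 N, IsOfFinOrder g → χ g = 1)
    (hspan : ∀ k : ℤ, Mchi (Gamma0 N) χ k ≤
      Submodule.span ℂ {f | f ∈ Mchi (Gamma0 N) χ k ∧ IsAlgQ f})
    (P : Place Kb (FN N)) : (m : ℤ) ∣ P.ord u := by
  have hχm : ∀ γ, χ γ ^ m = 1 := fun γ => by
    have := DFunLike.congr_fun h.1 γ
    simpa using this
  have hpar : IsPar N χ := h.2.1
  have e1 : χ ^ 1 = χ := pow_one χ
  have hjtr : Transcendental Kb (jBar N) := by
    intro halg
    have h1 : IsAlgebraic Kb ((jBar N : FN N) : LaurentSeries Kb) :=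
      (IntermediateField.isAlgebraic_iff).1 halg
    rw [coe_jBar] at h1
    exact transcendental_jS h1
  rcases (isFF_FN N).rh_cover hjtr P with ⟨c, hc⟩ | hinf
  · -- a finite fibre
    obtain ⟨pr, hP, hQ, ht⟩ := exists_pairFin
    obtain ⟨z, hz, hz3⟩ : ∃ z : ℍ, E₄ z ^ 3 = iota c * discriminant z ∧
        ((E₄ z ≠ 0 ∧ E₆ z ≠ 0) ∨ z = UpperHalfPlane.I ∨ z = l1rho) := by
      by_cases h0 : c = 0
      · refine ⟨l1rho, ?_, Or.inr (Or.inr rfl)⟩
        rw [h0, map_zero, zero_mul, l1_E₄_rho]; norm_num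
      by_cases h1 : c = 1728
      · refine ⟨UpperHalfPlane.I, ?_, Or.inr (Or.inl rfl)⟩
        have := E6_sq_eq UpperHalfPlane.I
        rw [l1_E₆_I] at this
        rw [h1, map_ofNat]
        linear_combination -this
      · obtain ⟨z, hz⟩ := exists_j_eq (iota c)
        refine ⟨z, hz, Or.inl ?_⟩
        have hΔ := discriminant_ne_zero z
        have hc0 : iota c ≠ 0 := by rwa [Ne, map_eq_zero]
        have hc1 : iota c - 1728 ≠ 0 := by
          intro h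
          apply h1
          apply iota_injective
          rw [sub_eq_zero.mp h]; exact (map_ofNat iota 1728).symm
        constructor
        · intro h
          rw [h] at hz
          exact mul_ne_zero hc0 hΔ (by rw [← hz]; ring)
        · intro h
          have := E6_sq_eq z
          rw [h, hz] at this
          exact mul_ne_zero hc1 hΔ (by linear_combination -this)
    obtain ⟨R, W, hW, hWa, hWl⟩ := ord1_exists_W (l := pure z) hpar hspan
      (fun k f _ g => ⟨_, tendsto_pure_nhds _ _⟩) (by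
        obtain ⟨k', h', h1, h2, h3, h4⟩ := exists_form_ne_zero_at hm hχm hpar htor z hz3
        exact ⟨k', h', ⟨h1, h2, h3⟩, fun g => ⟨_, h4 g, tendsto_pure_nhds _ _⟩⟩)
    have key := h.dvd_mul_ord_of_form hm pr (Or.inl ht) (pure z) (hasLims_pure _ z)
      (p₀ := discriminant z) (q₀ := E₄ z ^ 3)
      (by rw [hP]; exact tendsto_pure_nhds _ _)
      (by rw [hQ]; exact tendsto_pure_nhds (fun z => (⇑E₄ ^ 3 : ℍ → ℂ) z) z)
      (discriminant_ne_zero z) (c := c) hz.symm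
      (y := jBar N - algebraMap Kb (FN N) c)
      (by rw [ht, ← coe_jBar N]; rfl) (a := 1) (R := R) (W := W) (by rw [e1]; exact hW) hWa hWl P hc
    simpa using key
  · -- the fibre over `∞`
    obtain ⟨pr, hP, hQ, ht⟩ := exists_pairInf
    have hΔ : Tendsto (discriminant : ℍ → ℂ) atImInfty (𝓝 0) := by
      have := Delta_mem.2.2 1
      rwa [SlashAction.slash_one] at this
    obtain ⟨R, W, hW, hWa, hWl⟩ := ord1_exists_W (l := atImInfty) hpar hspan
      (fun k f hf g => ord1_lim_cusp hm hχm hf g) (by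
        obtain ⟨k', h', h1, h2, h3, h4⟩ := exists_form_ne_zero_at_cusps hm hχm hpar
        exact ⟨k', h', ⟨h1, h2, h3⟩, h4⟩)
    have key := h.dvd_mul_ord_of_form hm pr (Or.inr ht) atImInfty (hasLims_atImInfty (Gamma0 N))
      (p₀ := 1) (q₀ := 0)
      (by rw [hP]; have := sep_E₄_tendsto.pow 3; rw [one_pow] at this; exact this)
      (by rw [hQ]; exact hΔ)
      one_ne_zero (c := 0) (by simp)
      (y := (jBar N)⁻¹)
      (by rw [ht, ← coe_jBar N, map_zero, sub_zero]; rfl) (a := 1) (R := R) (W := W)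
      (by rw [e1]; exact hW) hWa hWl P hinf
    simpa using key

/-- **ORD1**: if `χ` also kills the elements of finite order then `m ∣ ord_P u` at every place. -/
theorem IsKumChi.dvd_ord (hm : 0 < m) (h : IsKumChi N m χ u)
    (htor : ∀ g : Gamma0 N, IsOfFinOrder g → χ g = 1) (P : Place Kb (FN N)) :
    (m : ℤ) ∣ P.ord u :=
  h.dvd_ord_of_span hm htor (fun k => (Mchi_span_algebraic hm h.1 h.2.1 k).le) P

end Fermat.Agent.S29
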