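import Fermat.Agent.S24.Expand
import Fermat.Agent.S24.RatFam

/-!
# S29, piece AN-Q: a `ℚ̄`-series which is a quotient of two modular forms for `Γ₀(N)` lies in `F_N`
-/

set_option autoImplicit false

namespace Fermat.Agent.S29

open UpperHalfPlane ModularForm EisensteinSeries Filter Topology CongruenceSubgroup ModularCurve
open Fermat.Agent.S20 Fermat.Agent.S23 Fermat.Agent.S24 IntermediateField
open scoped MatrixGroups Manifold ModularForm

/-- normal form of a quotient: level one denominator of weight `12 M`. -/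
theorem anq_exists_quot (N : ℕ) [NeZero N] {s : LaurentSeries Kb} (hs : IsQuot N s) :
    ∃ (M : ℕ) (G D : ℍ → ℂ), G ∈ MFs (Gamma0 N) (12 * M) ∧ D ∈ MFs ⊤ (12 * M) ∧ D ≠ 0 ∧
      iotaL s * qLf D = qLf G := by
  classical
  let _ : Fintype (Cos (Gamma0 N)) := Fintype.ofFinite _
  obtain ⟨k, G, D, hG, hD, hD0, hs⟩ := hs
  obtain ⟨D', hD', D₀, hD₀, hD₀0, hDD⟩ := exists_cofactor hD hD0
  obtain ⟨μ, hμ⟩ : ∃ μ : ℤ, μ = (Fintype.card (Cos (Gamma0 N)) : ℤ) := ⟨_, rfl⟩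
  rw [← hμ] at hD' hD₀
  have hnonneg : 0 ≤ μ * k := by
    by_contra hlt
    rw [not_le] at hlt
    rw [MFs_neg hlt, Submodule.mem_bot] at hD₀
    exact hD₀0 hD₀
  have hM : (12 : ℤ) * ((μ * k).toNat : ℤ) = 12 * (μ * k) := by
    rw [Int.toNat_of_nonneg hnonneg]
  have nG := mem_Nice_of_mem_MFs_Gamma0 hG
  have nD := mem_Nice_of_mem_MFs_Gamma0 hD
  have nD' := mem_Nice_of_mem_MFs_Gamma0 hD'
  have nD₀ := mem_Nice_of_mem_MFs_top hD₀
  refine ⟨(μ * k).toNat, G * D' * D₀ ^ 11, D₀ ^ 12, ?_, ?_, pow_ne_zero _ hD₀0, ?_⟩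
  · have h1 := mul_mem_MFs (mul_mem_MFs hG hD') (MFs_top_le (H := Gamma0 N) (pow_mem_MFs hD₀ 11))
    convert h1 using 2
    rw [hM]; push_cast; ring
  · have h1 := pow_mem_MFs hD₀ 12
    convert h1 using 2
    rw [hM]; push_cast; ring
  · rw [qLf_mul (Nice.mul_mem nG nD') (Nice.pow_mem nD₀ 11), qLf_mul nG nD', qLf_pow nD₀,
      qLf_pow nD₀, ← hs, pow_succ (qLf D₀) 11]
    nth_rewrite 2 [← hDD]
    rw [qLf_mul nD nD']
    ring

section

variable {N : ℕ} [NeZero N] (pr : Pair) {w : Cos (Gamma0 N) → ℤ} {B : Cos (Gamma0 N) → ℍ → ℂ}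
variable [Fintype (Cos (Gamma0 N))] {bS : Cos (Gamma0 N) → LaurentSeries Kb}

theorem anq_exists_frac_expansion (hfam : IsFam (Gamma0 N) w B) (hw : ∀ i, 0 ≤ w i)
    (hw2 : ∀ i, Even (w i))
    (hbS : ∀ i, IsRep pr (Gamma0 N) (bS i) (nExp (w i)) (B i * mono (w i)))
    {s : LaurentSeries Kb} (hs : IsQuot N s) :
    ∃ (d : Polynomial Kb) (p : Cos (Gamma0 N) → Polynomial Kb), d ≠ 0 ∧
      Polynomial.aeval pr.t d * s = ∑ i, Polynomial.aeval pr.t (p i) * bS i := by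
  obtain ⟨M, G, D, hG, hD, hD0, hsGD⟩ := anq_exists_quot N hs
  obtain ⟨c, hc⟩ := expand_core pr hfam hw hw2 hbS hG
  obtain ⟨d, ⟨l0, hl0, hdl0⟩, hd⟩ := pr.exists_qLf_levelOne_ne hD hD0
  have h1 : ∑ l ∈ Finset.range (M + 1), d l • iotaL (pr.t ^ l * s) =
      ∑ i, ∑ l ∈ Finset.range (M + 1), c i l • iotaL (pr.t ^ l * bS i) := by
    apply mul_left_cancel₀ (pow_ne_zero M pr.qP_ne)
    rw [← hc, ← hsGD, hd, Finset.mul_sum, Finset.mul_sum, Finset.mul_sum]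
    refine Finset.sum_congr rfl fun l _ => ?_
    rw [map_mul, smul_eq_C_mul, smul_eq_C_mul]
    ring
  let S : Fin (M + 1) ⊕ (Cos (Gamma0 N) × Fin (M + 1)) → LaurentSeries Kb :=
    Sum.elim (fun l => pr.t ^ (l : ℕ) * s) (fun x => pr.t ^ (x.2 : ℕ) * bS x.1)
  let C : Fin (M + 1) ⊕ (Cos (Gamma0 N) × Fin (M + 1)) → ℂ :=
    Sum.elim (fun l => d l) (fun x => - c x.1 x.2)
  have h2 : ∑ i, C i • iotaL (S i) = 0 := by
    rw [Fintype.sum_sum_type]
    simp only [S, C, Sum.elim_inl, Sum.elim_inr]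
    rw [← Finset.sum_range (fun l => d l • iotaL (pr.t ^ l * s)), h1, Fintype.sum_prod_type,
      ← Finset.sum_add_distrib]
    refine Finset.sum_eq_zero fun i _ => ?_
    rw [Finset.sum_range, ← Finset.sum_add_distrib]
    refine Finset.sum_eq_zero fun l _ => ?_
    rw [smul_eq_C_mul, smul_eq_C_mul, map_neg]
    ring
  obtain ⟨c', hc'0, hc'⟩ := descent_ne S C h2 (Sum.inl ⟨l0, Finset.mem_range.mp hl0⟩) hdl0
  refine ⟨∑ l : Fin (M + 1), Polynomial.C (c' (Sum.inl l)) * Polynomial.X ^ (l : ℕ),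
    fun i => ∑ l : Fin (M + 1), Polynomial.C (- c' (Sum.inr (i, l))) * Polynomial.X ^ (l : ℕ),
    ?_, ?_⟩
  · intro h0
    apply hc'0
    rw [← expand_coeff (M + 1) (fun l => c' (Sum.inl l)) ⟨l0, Finset.mem_range.mp hl0⟩, h0]
    simp
  · rw [Fintype.sum_sum_type] at hc'
    simp only [S, Sum.elim_inl, Sum.elim_inr] at hc'
    rw [Fintype.sum_prod_type] at hc'
    rw [expand_aeval, Finset.sum_mul]
    have h3 : ∑ l : Fin (M + 1), c' (Sum.inl l) • pr.t ^ (l : ℕ) * s =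
        ∑ l : Fin (M + 1), c' (Sum.inl l) • (pr.t ^ (l : ℕ) * s) := by
      refine Finset.sum_congr rfl fun l _ => ?_
      rw [smul_eq_C_mul, smul_eq_C_mul]
      ring
    rw [h3, eq_neg_of_add_eq_zero_left hc', ← Finset.sum_neg_distrib]
    refine Finset.sum_congr rfl fun i _ => ?_
    rw [expand_aeval, Finset.sum_mul, ← Finset.sum_neg_distrib]
    refine Finset.sum_congr rfl fun l _ => ?_
    rw [smul_eq_C_mul, smul_eq_C_mul, map_neg]
    ring

end

theorem mem_FN_of_isQuot (N : ℕ) [NeZero N] {s : LaurentSeries Kb} (hs : IsQuot N s) :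
    s ∈ FN N := by
  classical
  let _ : Fintype (Cos (Gamma0 N)) := Fintype.ofFinite _
  obtain ⟨w, B, hfam, hrat, hw, hw2⟩ := exists_ratFam N
  obtain ⟨pr, -, -, ht⟩ := exists_pairFin
  obtain ⟨bS, hbS⟩ := exists_bS pr hfam hrat hw hw2
  obtain ⟨d, p, hd, hdp⟩ := anq_exists_frac_expansion pr hfam hw hw2 hbS hs
  have hjS : jS ∈ FN N := jS_mem N
  have haev : ∀ q : Polynomial Kb, Polynomial.aeval pr.t q ∈ FN N := by
    intro q
    rw [ht]
    have h1 : Algebra.adjoin Kb {jS} ≤ (FN N).toSubalgebra :=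
      Algebra.adjoin_le (by simpa using hjS)
    exact h1 (Polynomial.aeval_mem_adjoin_singleton Kb jS)
  have ha : Polynomial.aeval pr.t d ≠ 0 := by
    rw [ht]
    exact fun h0 => hd (transcendental_iff.mp transcendental_jS d h0)
  have hs2 : s = (Polynomial.aeval pr.t d)⁻¹ * ∑ i, Polynomial.aeval pr.t (p i) * bS i := by
    rw [← hdp, inv_mul_cancel_left₀ ha]
  rw [hs2]
  exact mul_mem (inv_mem (haev d)) (sum_mem fun i _ => mul_mem (haev _)
    (bS_mem pr hfam hw hw2 (Or.inl ht) hbS i))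

end Fermat.Agent.S29
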