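import Fermat.Agent.S29.ANDefs
import Fermat.Agent.S24.Expand
import Fermat.Agent.S24.RatFam
import Fermat.Agent.S29.ANQ
import Fermat.Agent.S29.ANRoot

/-!
# S29 [AN], pieces Q and ROOT
-/

set_option autoImplicit false

namespace Fermat.Agent.S29

open UpperHalfPlane ModularForm Filter Topology CongruenceSubgroup ModularCurve
open Fermat.Agent.S20 Fermat.Agent.S24
open scoped MatrixGroups Manifold ModularForm

/-- **Q.** A series with algebraic coefficients which is a quotient of two (complex) modular forms of the same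
weight on `Γ₀(N)` lies in `FN N`.  (`= S24.IsQuot N s → s ∈ FN N`, the converse of `S24.isQuot_of_mem`.)

Proof.  As in `S24.exists_quot` (only `IsQuot` is used there) `s = G / D₁` with `G ∈ MFs (Gamma0 N) (12 M)`,
`D₁ ∈ MFs ⊤ (12 M)`.  The proof of `S24.exists_frac_expansion` only uses this: `d(t) s = ∑ p_i(t) bS_i`, `d ≠ 0`, `t = jS`,
`bS_i ∈ FN N` (`S24.bS_mem`) for a rational family `B` (`S24.exists_ratFam`). -/
theorem mem_FN_of_quot (N : ℕ) [NeZero N] {k : ℤ} {E D : ℍ → ℂ} (hE : E ∈ MFs (Gamma0 N) k)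
    (hD : D ∈ MFs (Gamma0 N) k) (hD0 : D ≠ 0) {s : LaurentSeries Kb}
    (h : iotaL s * qLf D = qLf E) : s ∈ FN N :=
  mem_FN_of_isQuot N ⟨k, E, D, hE, hD, hD0, h⟩

/-- **ROOT.** An `m`-th root in `ℂ((q))` of a series with algebraic coefficients has algebraic coefficients.

Proof A: `X^m - s` has a root `t₀` in `ℚ̄((q))` (`s = c q^{m a} (1 + …)`, `m ∣ ord s` because `ord (iotaL s) = m ord y`;
`c` has an `m`-th root in `ℚ̄`; `(1 + …)^{1/m}` by Hensel / recursion), then `y^m = (iotaL t₀)^m` in a field, so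
`y = ζ iotaL t₀`, `ζ^m = 1`, `ζ = iota ζ'`.
Proof B: every derivation `d` of `ℂ` acts coefficientwise as a derivation of `ℂ((q))` killing `iotaL s`, so
`m y^{m-1} d y = 0`, `d y = 0`; `Deriv.lean: isAlgebraic_of_forall_derivation`. -/
theorem exists_iotaL_eq_of_pow {m : ℕ} (hm : 0 < m) {y : LaurentSeries ℂ} {s : LaurentSeries Kb}
    (h : y ^ m = iotaL s) : ∃ t : LaurentSeries Kb, y = iotaL t := by
  obtain ⟨t, ht, -⟩ := exists_iotaL_eq_of_pow_eq hm y s h
  exact ⟨t, ht.symm⟩

end Fermat.Agent.S29
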