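import Mathlib

/-!
# S29 [ALG]: quadratic relations force a two-dimensional representation

`G` a group, `K` an algebraically closed field, `W ≠ 0` a finite dimensional representation of `G`,
`δ : G →* Kˣ` a character and `a : G → K` a function such that every `g` satisfies
`ρ(g)² - a(g) ρ(g) + δ(g) = 0` on `W`.  Then there is a representation `ρ'` on `K²` with
`charpoly ρ'(g) = X² - a(g) X + δ(g)` for ALL `g`, and `ρ' g = 1` whenever `ρ g = 1` and `δ g = 1`.

## Paper proof
Let `W₁ ⊆ W` be a minimal nonzero `G`-stable subspace (exists: finite dimension).  So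
`span {ρ(g) w} = W₁` for every `0 ≠ w ∈ W₁`.  Write `g` for `ρ(g)|W₁`.
* (POL) `g + δ(g) g⁻¹ = a(g)`.  Hence for `g h`:  `gh + δ(gh) h⁻¹ g⁻¹ = a(gh)` and
  `δ(g) g⁻¹ = a(g) - g`, `δ(h) h⁻¹ = a(h) - h` give
  `g h + h g = a(h) g + a(g) h + (a(gh) - a(g) a(h))`.
  By bilinearity (`MonoidAlgebra.induction_on` or `Finsupp.induction` twice): with
  `π : MonoidAlgebra K G → End W₁` and `τ : MonoidAlgebra K G → K` linear, `τ(g) = a(g)`:
  `∀ x y, ∃ c : K, π x π y + π y π x = τ(y) π x + τ(x) π y + c`.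
* dim `W₁ = 1`: `g` acts by a character `ψ`; take `ρ' = diag(ψ, δ ψ⁻¹)`;
  `ψ² - a ψ + δ = 0` gives `ψ + δ/ψ = a`.
* Otherwise some `g` is not a scalar on `W₁`.  Let `α, β` be the roots of `X² - a(g) X + δ(g)`.
  - `α ≠ β`: `e = (g - β)/(α - β)` is an idempotent `≠ 0, 1`, `τ(e) = 1` (`τ(1) = a(1) = 2`
    because `1 - a(1) + 1 = 0`).  (POL) for `(e, x)` multiplied by `e` on both sides:
    `e x e = (τ x + c) e`.  For `0 ≠ u ∈ e W₁`:  `e W₁ = e π(K[G]) u = e π(K[G]) e u ⊆ K u`.  So
    `dim e W₁ = 1`; same for `1 - e`.  So `dim W₁ = 2`.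
  - `α = β`: `n = g - α ≠ 0`, `n² = 0`, `τ(n) = 0`.  (POL) for `(n, x)`: `n x + x n = τ(x) n + c(x)`;
    multiply by `n` on the left: `n x n = c(x) n`.  Take `u` with `w₁ = n u ≠ 0`:
    `n x w₁ = c(x) w₁`, so `n W₁ = n π(K[G]) w₁ ⊆ K w₁`: rank `n` = 1.  For `y ∈ ker n`:
    `n x y = c(x) y`, so `c(x) y ∈ K w₁` for all `x`; if `y ∉ K w₁` then `c = 0`, so `n x w₁ = 0`
    for all `x`, so `n W₁ = 0`, contradiction.  So `ker n = K w₁` and `dim W₁ = 2`.
* dim `W₁ = 2`: for `g` not scalar the minimal polynomial has degree 2 and divides both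
  `X² - a X + δ` and the characteristic polynomial: they are equal.  For `g = c` scalar choose `h` not
  scalar; `g h` is not scalar, so `det(gh) = δ(g) δ(h)`, i.e. `c² δ(h) = δ(g) δ(h)`, so `δ(g) = c²`
  and `a(g) = c + δ(g)/c = 2c`.
Transport `W₁` to `Fin 2 → K` by a basis.
-/

set_option autoImplicit false

namespace Fermat.Agent.S29

open Polynomial

namespace Alg

section Ops

variable {G : Type*} [Group G] {K : Type*} [Field K] {W : Type*} [AddCommGroup W] [Module K W]
  (ρ : G →* Module.End K W) (δ : G →* Kˣ) (a : G → K)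
  (h : ∀ g, ρ g * ρ g - a g • ρ g + ((δ g : Kˣ) : K) • (1 : Module.End K W) = 0)

include h in
theorem inv_rel (g : G) : a g • (1 : Module.End K W) - ρ g = ((δ g : Kˣ) : K) • ρ g⁻¹ := by
  have h1 := congrArg (· * ρ g⁻¹) (h g)
  simp only [add_mul, sub_mul, mul_assoc, smul_mul_assoc, ← map_mul, mul_inv_cancel, map_one,
    mul_one, one_mul, zero_mul] at h1
  linear_combination (norm := module) -h1

include h in
theorem pol (g k : G) : ρ g * ρ k + ρ k * ρ g =
    a k • ρ g + a g • ρ k + (a (g * k) - a g * a k) • (1 : Module.End K W) := by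
  have h1 := inv_rel ρ δ a h (g * k)
  rw [mul_inv_rev, map_mul, map_mul, map_mul, Units.val_mul] at h1
  have h2 : (((δ g : Kˣ) : K) * ((δ k : Kˣ) : K)) • (ρ k⁻¹ * ρ g⁻¹) =
      (a k • (1 : Module.End K W) - ρ k) * (a g • (1 : Module.End K W) - ρ g) := by
    rw [inv_rel ρ δ a h g, inv_rel ρ δ a h k, smul_mul_smul_comm, mul_comm]
  rw [h2] at h1
  simp only [mul_sub, sub_mul, smul_mul_assoc, mul_smul_comm, one_mul, mul_one] at h1
  linear_combination (norm := module) -h1

include h in
theorem mm (g : G) (α β : K) (hs : a g = α + β) (hp : ((δ g : Kˣ) : K) = α * β) :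
    (ρ g - β • (1 : Module.End K W)) * (ρ g - β • (1 : Module.End K W)) =
      (α - β) • (ρ g - β • (1 : Module.End K W)) := by
  have h1 := h g
  rw [hs, hp] at h1
  simp only [mul_sub, sub_mul, smul_mul_assoc, mul_smul_comm, one_mul, mul_one]
  linear_combination (norm := module) h1

include h in
theorem mk (g k : G) (α β : K) (hs : a g = α + β) :
    (ρ g - β • (1 : Module.End K W)) * ρ k + ρ k * (ρ g - β • (1 : Module.End K W)) =
      a k • (ρ g - β • (1 : Module.End K W)) + (α - β) • ρ k +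
        (a (g * k) - a g * a k + a k * β) • (1 : Module.End K W) := by
  have h1 := pol ρ δ a h g k
  simp only [mul_sub, sub_mul, smul_mul_assoc, mul_smul_comm, one_mul, mul_one]
  rw [hs] at h1 ⊢
  linear_combination (norm := module) h1

include h in
theorem mkm (g k : G) (α β : K) (hs : a g = α + β) (hp : ((δ g : Kˣ) : K) = α * β) :
    (ρ g - β • (1 : Module.End K W)) * ρ k * (ρ g - β • (1 : Module.End K W)) =
      (a k * (α - β) + (a (g * k) - a g * a k + a k * β)) • (ρ g - β • (1 : Module.End K W)) := by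
  set m := ρ g - β • (1 : Module.End K W) with hm
  have h1 := congrArg (m * ·) (mk ρ δ a h g k α β hs)
  have h2 := mm ρ δ a h g α β hs hp
  rw [← hm] at h1 h2
  simp only [mul_add, ← mul_assoc, h2, mul_smul_comm, mul_one, smul_mul_assoc] at h1
  linear_combination (norm := module) h1


/-- irreducibility. -/
def Irr : Prop := ∀ U : Submodule K W, (∀ g, ∀ u ∈ U, ρ g u ∈ U) → U = ⊥ ∨ U = ⊤

variable {ρ} in
theorem Irr.span_top (hirr : Irr ρ) {w : W} (hw : w ≠ 0) :
    Submodule.span K (Set.range fun g => ρ g w) = ⊤ := by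
  have hst : ∀ g, ∀ u ∈ Submodule.span K (Set.range fun g => ρ g w),
      ρ g u ∈ Submodule.span K (Set.range fun g => ρ g w) := by
    intro g u hu
    induction hu using Submodule.span_induction with
    | mem x hx =>
      obtain ⟨k, rfl⟩ := hx
      refine Submodule.subset_span ⟨g * k, ?_⟩
      simp only [map_mul, Module.End.mul_apply]
    | zero => rw [map_zero]; exact zero_mem _
    | add x y _ _ hx hy => rw [map_add]; exact add_mem hx hy
    | smul c x _ hx => rw [map_smul]; exact Submodule.smul_mem _ _ hx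
  rcases hirr _ hst with h0 | h0
  · exfalso
    have : w ∈ Submodule.span K (Set.range fun g => ρ g w) :=
      Submodule.subset_span ⟨1, by simp⟩
    rw [h0] at this
    exact hw (by simpa using this)
  · exact h0

include h in
theorem rank_one (hirr : Irr ρ) (g : G) (α β : K) (hs : a g = α + β)
    (hp : ((δ g : Kˣ) : K) = α * β) (hm : ρ g - β • (1 : Module.End K W) ≠ 0) :
    ∃ w₁ : W, w₁ ≠ 0 ∧ ∀ w, ∃ c : K, (ρ g - β • (1 : Module.End K W)) w = c • w₁ := by
  obtain ⟨u, hu⟩ : ∃ u, (ρ g - β • (1 : Module.End K W)) u ≠ 0 := by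
    by_contra hcon
    push Not at hcon
    exact hm (LinearMap.ext hcon)
  refine ⟨_, hu, fun w => ?_⟩
  have hw : w ∈ Submodule.span K (Set.range fun k => ρ k ((ρ g - β • (1 : Module.End K W)) u)) := by
    rw [hirr.span_top hu]; trivial
  induction hw using Submodule.span_induction with
  | mem x hx =>
    obtain ⟨k, rfl⟩ := hx
    have := congrArg (· u) (mkm ρ δ a h g k α β hs hp)
    exact ⟨_, this⟩
  | zero => exact ⟨0, by simp⟩
  | add x y _ _ hx hy =>
    obtain ⟨c, hc⟩ := hx
    obtain ⟨d, hd⟩ := hy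
    exact ⟨c + d, by rw [map_add, hc, hd, add_smul]⟩
  | smul c x _ hx =>
    obtain ⟨d, hd⟩ := hx
    exact ⟨c * d, by rw [map_smul, hd, smul_smul]⟩

include h in
theorem ker_le (hirr : Irr ρ) (g : G) (α β : K) (hs : a g = α + β)
    (w' : W) (hw' : ∀ w, ∃ c : K, (ρ g - α • (1 : Module.End K W)) w = c • w')
    (hm' : ρ g - α • (1 : Module.End K W) ≠ 0) (y : W)
    (hy : (ρ g - β • (1 : Module.End K W)) y = 0) : ∃ c : K, y = c • w' := by
  by_contra hcon
  have hy0 : y ≠ 0 := fun h0 => hcon ⟨0, by simp [h0]⟩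
  apply hm'
  have key : ∀ k, (ρ g - α • (1 : Module.End K W)) (ρ k y) = 0 := by
    intro k
    have h1 := congrArg (· y) (mk ρ δ a h g k α β hs)
    simp only [LinearMap.add_apply, Module.End.mul_apply, hy, map_zero, add_zero,
      LinearMap.smul_apply, smul_zero, zero_add, Module.End.one_apply] at h1
    have h2 : (ρ g - α • (1 : Module.End K W)) (ρ k y) =
        (a (g * k) - a g * a k + a k * β) • y := by
      simp only [LinearMap.sub_apply, LinearMap.smul_apply, Module.End.one_apply] at h1 ⊢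
      linear_combination (norm := module) h1
    obtain ⟨c, hc⟩ := hw' (ρ k y)
    rw [h2] at hc ⊢
    by_cases h0 : (a (g * k) - a g * a k + a k * β) = 0
    · rw [h0, zero_smul]
    · exfalso
      apply hcon
      refine ⟨(a (g * k) - a g * a k + a k * β)⁻¹ * c, ?_⟩
      rw [mul_smul, ← hc, smul_smul, inv_mul_cancel₀ h0, one_smul]
  ext w
  have hw : w ∈ Submodule.span K (Set.range fun k => ρ k y) := by
    rw [hirr.span_top hy0]; trivial
  induction hw using Submodule.span_induction with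
  | mem x hx =>
    obtain ⟨k, rfl⟩ := hx
    exact key k
  | zero => simp
  | add x y _ _ hx hy => rw [map_add, hx, hy]; simp
  | smul c x _ hx => rw [map_smul, hx]; simp

include h in
theorem finrank_le_two [FiniteDimensional K W] (hirr : Irr ρ) (g : G) (α β : K) (hs : a g = α + β)
    (hp : ((δ g : Kˣ) : K) = α * β) (hns : ∀ c : K, ρ g ≠ c • (1 : Module.End K W)) :
    Module.finrank K W ≤ 2 := by
  have hm : ρ g - β • (1 : Module.End K W) ≠ 0 := fun h0 => hns β (sub_eq_zero.mp h0)
  have hm' : ρ g - α • (1 : Module.End K W) ≠ 0 := fun h0 => hns α (sub_eq_zero.mp h0)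
  obtain ⟨w₁, hw₁, h1⟩ := rank_one ρ δ a h hirr g α β hs hp hm
  obtain ⟨w₂, hw₂, h2⟩ := rank_one ρ δ a h hirr g β α (by rw [hs, add_comm])
    (by rw [hp, mul_comm]) hm'
  have h3 := ker_le ρ δ a h hirr g α β hs w₂ h2 hm'
  have e := LinearMap.finrank_range_add_finrank_ker (ρ g - β • (1 : Module.End K W))
  have r1 : Module.finrank K (LinearMap.range (ρ g - β • (1 : Module.End K W))) ≤ 1 := by
    rw [← finrank_span_singleton (K := K) hw₁]
    apply Submodule.finrank_mono
    rintro _ ⟨w, rfl⟩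
    obtain ⟨c, hc⟩ := h1 w
    rw [hc]
    exact Submodule.smul_mem _ _ (Submodule.mem_span_singleton_self _)
  have r2 : Module.finrank K (LinearMap.ker (ρ g - β • (1 : Module.End K W))) ≤ 1 := by
    rw [← finrank_span_singleton (K := K) hw₂]
    apply Submodule.finrank_mono
    intro y hy
    obtain ⟨c, hc⟩ := h3 y hy
    rw [hc]
    exact Submodule.smul_mem _ _ (Submodule.mem_span_singleton_self _)
  omega

theorem two_le_finrank [FiniteDimensional K W] [Nontrivial W] (f : Module.End K W)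
    (hns : ∀ c : K, f ≠ c • (1 : Module.End K W)) : 2 ≤ Module.finrank K W := by
  by_contra hcon
  have hpos : 0 < Module.finrank K W := Module.finrank_pos
  have h1 : Module.finrank K W = 1 := by omega
  obtain ⟨v, hv⟩ := exists_ne (0 : W)
  have h2 := (finrank_eq_one_iff_of_nonzero' v hv).mp h1
  obtain ⟨c, hc⟩ := h2 (f v)
  apply hns c
  ext w
  obtain ⟨d, rfl⟩ := h2 w
  rw [map_smul, ← hc, LinearMap.smul_apply, Module.End.one_apply, smul_comm]

end Ops

section Mat

variable {K : Type*} [Field K]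

theorem cayley_two (N : Matrix (Fin 2) (Fin 2) K) :
    N * N - N.trace • N + N.det • (1 : Matrix (Fin 2) (Fin 2) K) = 0 := by
  ext i j
  fin_cases i <;> fin_cases j <;>
    simp [Matrix.mul_apply, Fin.sum_univ_two, Matrix.trace_fin_two, Matrix.det_fin_two] <;> ring

theorem tr_det_of_nonscalar (N : Matrix (Fin 2) (Fin 2) K) (a d : K)
    (hN : N * N - a • N + d • (1 : Matrix (Fin 2) (Fin 2) K) = 0)
    (hns : ∀ c : K, N ≠ c • (1 : Matrix (Fin 2) (Fin 2) K)) : N.trace = a ∧ N.det = d := by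
  have h1 : (N.trace - a) • N = (N.det - d) • (1 : Matrix (Fin 2) (Fin 2) K) := by
    linear_combination (norm := module) hN - cayley_two N
  have h2 : N.trace = a := by
    by_contra hne
    have hne' : N.trace - a ≠ 0 := sub_ne_zero.mpr hne
    apply hns ((N.trace - a)⁻¹ * (N.det - d))
    rw [mul_smul, ← h1, smul_smul, inv_mul_cancel₀ hne', one_smul]
  refine ⟨h2, ?_⟩
  rw [h2, sub_self, zero_smul] at h1
  have h3 := congrFun (congrFun h1 0) 0
  simp only [Matrix.zero_apply, Matrix.smul_apply, Matrix.one_apply_eq, smul_eq_mul, mul_one] at h3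
  exact (sub_eq_zero.mp h3.symm)

theorem of_matrix {G : Type*} [Group G] (M : G →* Matrix (Fin 2) (Fin 2) K) (a : G → K)
    (δ : G →* Kˣ) (htr : ∀ g, (M g).trace = a g) (hdet : ∀ g, (M g).det = ((δ g : Kˣ) : K)) :
    ∃ ρ' : G →* Module.End K (Fin 2 → K),
      (∀ g, LinearMap.charpoly (ρ' g) = X ^ 2 - C (a g) * X + C ((δ g : Kˣ) : K)) ∧
      (∀ g, M g = 1 → ρ' g = 1) := by
  refine ⟨{ toFun := fun g => Matrix.toLin' (M g)
            map_one' := by rw [map_one, Matrix.toLin'_one]; rfl
            map_mul' := fun g k => by rw [map_mul, Matrix.toLin'_mul]; rfl }, fun g => ?_,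
          fun g hg => ?_⟩
  · show LinearMap.charpoly (Matrix.toLin' (M g)) = _
    rw [Matrix.charpoly_toLin', Matrix.charpoly_fin_two, htr, hdet]
  · show Matrix.toLin' (M g) = 1
    rw [hg, Matrix.toLin'_one]; rfl

end Mat

section Cases

variable {G : Type*} [Group G] {K : Type*} [Field K] {W : Type*} [AddCommGroup W] [Module K W]
  [FiniteDimensional K W] [Nontrivial W]
  (ρ : G →* Module.End K W) (δ : G →* Kˣ) (a : G → K)
  (h : ∀ g, ρ g * ρ g - a g • ρ g + ((δ g : Kˣ) : K) • (1 : Module.End K W) = 0)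

omit [FiniteDimensional K W] in
include h in
theorem scalar_case (hsc : ∀ g, ∃ c : K, ρ g = c • (1 : Module.End K W)) :
    ∃ ρ' : G →* Module.End K (Fin 2 → K),
      (∀ g, LinearMap.charpoly (ρ' g) = X ^ 2 - C (a g) * X + C ((δ g : Kˣ) : K)) ∧
      (∀ g, ρ g = 1 → δ g = 1 → ρ' g = 1) := by
  choose ψ hψ using hsc
  have inj : ∀ c d : K, c • (1 : Module.End K W) = d • (1 : Module.End K W) → c = d :=
    fun c d hcd => smul_left_injective K (one_ne_zero (α := Module.End K W)) hcd
  have ψ1 : ∀ g, ρ g = 1 → ψ g = 1 := by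
    intro g hg
    apply inj
    rw [← hψ, hg, one_smul]
  have ψmul : ∀ g k, ψ (g * k) = ψ g * ψ k := by
    intro g k
    apply inj
    rw [← hψ, map_mul, hψ g, hψ k, smul_mul_smul_comm, one_mul]
  have ψrel : ∀ g, ψ g * ψ g - a g * ψ g + ((δ g : Kˣ) : K) = 0 := by
    intro g
    apply inj
    have h1 := h g
    rw [hψ g, smul_mul_smul_comm, one_mul, smul_smul] at h1
    rw [zero_smul, ← h1]
    module
  have ψne : ∀ g, ψ g ≠ 0 := by
    intro g h0
    have h1 := ψrel g
    rw [h0] at h1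
    simp at h1
  let M : G →* Matrix (Fin 2) (Fin 2) K :=
    { toFun := fun g => Matrix.diagonal ![ψ g, ((δ g : Kˣ) : K) * (ψ g)⁻¹]
      map_one' := by
        rw [ψ1 1 (map_one ρ), map_one, ← Matrix.diagonal_one]
        congr 1
        ext i
        fin_cases i <;> simp
      map_mul' := fun g k => by
        rw [Matrix.diagonal_mul_diagonal]
        congr 1
        ext i
        fin_cases i
        · simp [ψmul]
        · simp [ψmul]
          ring }
  have htr : ∀ g, (M g).trace = a g := by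
    intro g
    show (Matrix.diagonal ![ψ g, ((δ g : Kˣ) : K) * (ψ g)⁻¹]).trace = a g
    rw [Matrix.trace_diagonal, Fin.sum_univ_two]
    simp only [Matrix.cons_val_zero, Matrix.cons_val_one]
    have := ψne g
    field_simp
    linear_combination ψrel g
  have hdet : ∀ g, (M g).det = ((δ g : Kˣ) : K) := by
    intro g
    show (Matrix.diagonal ![ψ g, ((δ g : Kˣ) : K) * (ψ g)⁻¹]).det = _
    rw [Matrix.det_diagonal, Fin.prod_univ_two]
    simp only [Matrix.cons_val_zero, Matrix.cons_val_one]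
    have := ψne g
    field_simp
  obtain ⟨ρ', h1, h2⟩ := of_matrix M a δ htr hdet
  refine ⟨ρ', h1, fun g hg hd => h2 g ?_⟩
  show Matrix.diagonal ![ψ g, ((δ g : Kˣ) : K) * (ψ g)⁻¹] = 1
  rw [ψ1 g hg, hd, ← Matrix.diagonal_one]
  congr 1
  ext i
  fin_cases i <;> simp

include h in
theorem nonscalar_case [IsAlgClosed K] (hirr : Irr ρ) (g₀ : G)
    (hns : ∀ c : K, ρ g₀ ≠ c • (1 : Module.End K W)) :
    ∃ ρ' : G →* Module.End K (Fin 2 → K),
      (∀ g, LinearMap.charpoly (ρ' g) = X ^ 2 - C (a g) * X + C ((δ g : Kˣ) : K)) ∧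
      (∀ g, ρ g = 1 → δ g = 1 → ρ' g = 1) := by
  obtain ⟨α, hα⟩ : ∃ α : K, α * α - a g₀ * α + ((δ g₀ : Kˣ) : K) = 0 := by
    obtain ⟨α, hα⟩ := IsAlgClosed.exists_root
      (C (1 : K) * X ^ 2 + C (- a g₀) * X + C ((δ g₀ : Kˣ) : K))
      (by rw [degree_quadratic one_ne_zero]; norm_num)
    refine ⟨α, ?_⟩
    simp only [IsRoot.def, eval_add, eval_mul, eval_C, eval_pow, eval_X] at hα
    linear_combination hα
  have h2 : Module.finrank K W = 2 :=
    le_antisymm (finrank_le_two ρ δ a h hirr g₀ α (a g₀ - α) (by ring)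
      (by linear_combination hα) hns) (two_le_finrank (ρ g₀) hns)
  let b := Module.finBasisOfFinrankEq K W h2
  let Φ := LinearMap.toMatrixAlgEquiv b
  let M : G →* Matrix (Fin 2) (Fin 2) K := (MonoidHomClass.toMonoidHom Φ).comp ρ
  have hM : ∀ g, M g = Φ (ρ g) := fun g => rfl
  have hrel : ∀ g, M g * M g - a g • M g + ((δ g : Kˣ) : K) • (1 : Matrix (Fin 2) (Fin 2) K) = 0 := by
    intro g
    have := congrArg Φ (h g)
    simpa only [map_add, map_sub, map_mul, map_smul, map_one, map_zero, hM] using this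
  have hsc : ∀ g (c : K), M g = c • (1 : Matrix (Fin 2) (Fin 2) K) → ρ g = c • (1 : Module.End K W) := by
    intro g c hc
    apply Φ.injective
    rw [← hM, hc, map_smul, map_one]
  have hns₀ : ∀ c : K, M g₀ ≠ c • (1 : Matrix (Fin 2) (Fin 2) K) := fun c hc => hns c (hsc g₀ c hc)
  have key : ∀ g, (M g).trace = a g ∧ (M g).det = ((δ g : Kˣ) : K) := by
    intro g
    by_cases hg : ∃ c : K, M g = c • (1 : Matrix (Fin 2) (Fin 2) K)
    · obtain ⟨c, hc⟩ := hg
      have hrc : c * c - a g * c + ((δ g : Kˣ) : K) = 0 := by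
        have h1 := hrel g
        rw [hc, smul_mul_smul_comm, one_mul, smul_smul] at h1
        have h3 := congrFun (congrFun h1 0) 0
        simpa using h3
      have hc0 : c ≠ 0 := by
        intro h0
        rw [h0] at hrc
        simp at hrc
      have hns₁ : ∀ d : K, M (g * g₀) ≠ d • (1 : Matrix (Fin 2) (Fin 2) K) := by
        intro d hd
        apply hns₀ (c⁻¹ * d)
        rw [map_mul, hc, smul_mul_assoc, one_mul] at hd
        rw [mul_smul, ← hd, smul_smul, inv_mul_cancel₀ hc0, one_smul]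
      have d1 := (tr_det_of_nonscalar _ _ _ (hrel (g * g₀)) hns₁).2
      have d0 := (tr_det_of_nonscalar _ _ _ (hrel g₀) hns₀).2
      rw [map_mul, hc, smul_mul_assoc, one_mul, Matrix.det_smul, d0, map_mul, Units.val_mul,
        Fintype.card_fin] at d1
      have hd : c ^ 2 = ((δ g : Kˣ) : K) := mul_right_cancel₀ (Units.ne_zero (δ g₀)) d1
      constructor
      · rw [hc, Matrix.trace_smul, Matrix.trace_one, Fintype.card_fin]
        apply mul_right_cancel₀ hc0
        simp only [smul_eq_mul, Nat.cast_ofNat]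
        linear_combination hrc + hd
      · rw [hc, Matrix.det_smul, Matrix.det_one, Fintype.card_fin, mul_one, hd]
    · push Not at hg
      exact tr_det_of_nonscalar _ _ _ (hrel g) hg
  obtain ⟨ρ', h1, h3⟩ := of_matrix M a δ (fun g => (key g).1) (fun g => (key g).2)
  exact ⟨ρ', h1, fun g hg _ => h3 g (by rw [hM, hg, map_one])⟩

end Cases

universe w

theorem aux {G : Type*} [Group G] {K : Type*} [Field K] [IsAlgClosed K] (δ : G →* Kˣ) (a : G → K)
    (n : ℕ) : ∀ (W : Type w) [AddCommGroup W] [Module K W] [FiniteDimensional K W] [Nontrivial W]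
    (ρ : G →* Module.End K W),
    (∀ g, ρ g * ρ g - a g • ρ g + ((δ g : Kˣ) : K) • (1 : Module.End K W) = 0) →
    Module.finrank K W = n →
    ∃ ρ' : G →* Module.End K (Fin 2 → K),
      (∀ g, LinearMap.charpoly (ρ' g) = X ^ 2 - C (a g) * X + C ((δ g : Kˣ) : K)) ∧
      (∀ g, ρ g = 1 → δ g = 1 → ρ' g = 1) := by
  induction n using Nat.strong_induction_on with
  | _ n ih =>
    intro W _ _ _ _ ρ h hn
    by_cases hirr : Irr ρ
    · by_cases hsc : ∀ g, ∃ c : K, ρ g = c • (1 : Module.End K W)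
      · exact scalar_case ρ δ a h hsc
      · push Not at hsc
        obtain ⟨g₀, hg₀⟩ := hsc
        exact nonscalar_case ρ δ a h hirr g₀ hg₀
    · unfold Irr at hirr
      push Not at hirr
      obtain ⟨U, hU, hbot, htop⟩ := hirr
      have hlt : Module.finrank K U < n := hn ▸ Submodule.finrank_lt htop
      have : Nontrivial U := (Submodule.nontrivial_iff_ne_bot).mpr hbot
      let ρU : G →* Module.End K U :=
        { toFun := fun g => (ρ g).restrict (hU g)
          map_one' := by ext u; simp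
          map_mul' := fun g k => by ext u; simp }
      have hρU : ∀ g (u : U), ((ρU g u : U) : W) = ρ g u := fun g u => rfl
      obtain ⟨ρ', h1, h2⟩ := ih _ hlt U ρU (fun g => by
        ext u
        have := congrArg (· (u : W)) (h g)
        simpa [hρU] using this) rfl
      refine ⟨ρ', h1, fun g hg hd => h2 g ?_ hd⟩
      ext u
      rw [hρU, hg]
      rfl

end Alg

theorem exists_rep_of_quadratic {G : Type*} [Group G] {K : Type*} [Field K] [IsAlgClosed K]
    {W : Type*} [AddCommGroup W] [Module K W] [FiniteDimensional K W] [Nontrivial W]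
    (ρ : G →* Module.End K W) (δ : G →* Kˣ) (a : G → K)
    (h : ∀ g, ρ g * ρ g - a g • ρ g + ((δ g : Kˣ) : K) • (1 : Module.End K W) = 0) :
    ∃ ρ' : G →* Module.End K (Fin 2 → K),
      (∀ g, LinearMap.charpoly (ρ' g) = X ^ 2 - C (a g) * X + C ((δ g : Kˣ) : K)) ∧
      (∀ g, ρ g = 1 → δ g = 1 → ρ' g = 1) :=
  Alg.aux δ a _ W ρ h rfl

end Fermat.Agent.S29
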