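import Fermat.Agent.S29.AlgForms
import Fermat.Agent.S24.Ranks

/-!
# S29, piece AN-ALG (4): algebraic forms avoiding finitely many hyperplanes
-/

set_option autoImplicit false

namespace Fermat.Agent.S29

open UpperHalfPlane ModularForm Filter Topology CongruenceSubgroup
open Fermat.Agent.S20 Fermat.Agent.S23 Fermat.Agent.S24
open scoped MatrixGroups Manifold ModularForm

lemma isAlgQ_zero : IsAlgQ (0 : ℍ → ℂ) := ⟨0, fun n => by rw [qExpansion_zero]; simp⟩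

lemma IsAlgQ.add {F G : ℍ → ℂ} (hF : IsAlgQ F) (hG : IsAlgQ G) (nF : F ∈ Nice) (nG : G ∈ Nice) :
    IsAlgQ (F + G) := by
  obtain ⟨s, hs⟩ := hF
  obtain ⟨t, ht⟩ := hG
  exact ⟨s + t, fun n => by rw [qE_add nF nG, map_add, map_add, hs, ht, map_add]⟩

lemma IsAlgQ.mul {F G : ℍ → ℂ} (hF : IsAlgQ F) (hG : IsAlgQ G) (nF : F ∈ Nice) (nG : G ∈ Nice) :
    IsAlgQ (F * G) := by
  obtain ⟨s, hs⟩ := hF
  obtain ⟨t, ht⟩ := hG
  refine ⟨s * t, fun n => ?_⟩
  rw [qE_mul nF nG, PowerSeries.coeff_mul, PowerSeries.coeff_mul, map_sum]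
  exact Finset.sum_congr rfl fun x _ => by rw [hs, ht, map_mul]

lemma IsAlgQ.smul {F : ℍ → ℂ} (hF : IsAlgQ F) (nF : F ∈ Nice) (a : Kb) : IsAlgQ (iota a • F) := by
  obtain ⟨s, hs⟩ := hF
  exact ⟨a • s, fun n => by
    rw [qE_smul _ nF, PowerSeries.coeff_smul, PowerSeries.coeff_smul, hs, smul_eq_mul, smul_eq_mul,
      map_mul]⟩

lemma IsAlgQ.natCast_smul {F : ℍ → ℂ} (hF : IsAlgQ F) (nF : F ∈ Nice) (n : ℕ) :
    IsAlgQ ((n : ℂ) • F) := by
  have := hF.smul nF (n : Kb)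
  rwa [map_natCast] at this

variable {N : ℕ} [NeZero N] {χ : Gamma0 N →* ℂˣ} {m : ℕ}

theorem span_algQ_eq_top (hm : 0 < m) (hχ : χ ^ m = 1) (hpar : IsPar N χ) (k : ℤ) :
    Submodule.span ℂ {F : Mchi (Gamma0 N) χ k | IsAlgQ (F : ℍ → ℂ)} = ⊤ := by
  apply Submodule.map_injective_of_injective (Mchi (Gamma0 N) χ k).injective_subtype
  rw [Submodule.map_span, Submodule.map_top, Submodule.range_subtype]
  conv_rhs => rw [Mchi_span_algebraic hm hχ hpar k]
  congr 1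
  ext f
  constructor
  · rintro ⟨F, hF, rfl⟩
    exact ⟨F.2, hF⟩
  · rintro ⟨h1, h2⟩
    exact ⟨⟨f, h1⟩, h2, rfl⟩

theorem exists_algQ_ne_zero_of_linear (hm : 0 < m) (hχ : χ ^ m = 1) (hpar : IsPar N χ) {k : ℤ}
    (φ : Mchi (Gamma0 N) χ k →ₗ[ℂ] ℂ) (hφ : φ ≠ 0) :
    ∃ h : Mchi (Gamma0 N) χ k, IsAlgQ (h : ℍ → ℂ) ∧ φ h ≠ 0 := by
  by_contra hcon
  push Not at hcon
  apply hφ
  have : Submodule.span ℂ {F : Mchi (Gamma0 N) χ k | IsAlgQ (F : ℍ → ℂ)} ≤ LinearMap.ker φ :=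
    Submodule.span_le.mpr fun F hF => hcon F hF
  rw [span_algQ_eq_top hm hχ hpar k, top_le_iff, LinearMap.ker_eq_top] at this
  exact this

/-- Finitely many nonzero functionals on `Mchi (Gamma0 N) χ k` are simultaneously nonzero on some form
with algebraic `q`-expansion. -/
theorem exists_algQ_forall_ne_zero (hm : 0 < m) (hχ : χ ^ m = 1) (hpar : IsPar N χ) {k : ℤ}
    {ι : Type*} (s : Finset ι) (φ : ι → (Mchi (Gamma0 N) χ k →ₗ[ℂ] ℂ)) (hφ : ∀ i ∈ s, φ i ≠ 0) :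
    ∃ h : Mchi (Gamma0 N) χ k, IsAlgQ (h : ℍ → ℂ) ∧ ∀ i ∈ s, φ i h ≠ 0 := by
  classical
  have hT := hpar.chi_T
  induction s using Finset.induction_on with
  | empty => exact ⟨0, isAlgQ_zero, by simp⟩
  | insert j s hj ih =>
    obtain ⟨h, hh, hne⟩ := ih fun i hi => hφ i (Finset.mem_insert_of_mem hi)
    obtain ⟨h', hh', hne'⟩ :=
      exists_algQ_ne_zero_of_linear hm hχ hpar (φ j) (hφ j (Finset.mem_insert_self j s))
    have hbad : ∀ i ∈ insert j s, {n : ℕ | φ i h + (n : ℂ) * φ i h' = 0}.Subsingleton := by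
      intro i hi n hn n' hn'
      simp only [Set.mem_ofPred_eq] at hn hn'
      have h0 : φ i h' ≠ 0 := by
        intro h0
        rcases Finset.mem_insert.mp hi with rfl | hi'
        · exact hne' h0
        · rw [h0, mul_zero, add_zero] at hn
          exact hne i hi' hn
      have : ((n : ℂ) - n') * φ i h' = 0 := by linear_combination hn - hn'
      have := (mul_eq_zero.mp this).resolve_right h0
      exact_mod_cast sub_eq_zero.mp this
    have hfin : (⋃ i ∈ insert j s, {n : ℕ | φ i h + (n : ℂ) * φ i h' = 0}).Finite :=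
      Set.Finite.biUnion (Finset.finite_toSet _) fun i hi => (hbad i hi).finite
    obtain ⟨n, hn⟩ := hfin.exists_notMem
    refine ⟨h + (n : ℂ) • h', ?_, fun i hi h0 => hn ?_⟩
    · exact hh.add (hh'.natCast_smul (nice_of_Mchi hT h'.2) n) (nice_of_Mchi hT h.2)
        (Subalgebra.smul_mem _ (nice_of_Mchi hT h'.2) _)
    · rw [map_add, map_smul, smul_eq_mul] at h0
      exact Set.mem_biUnion hi h0

theorem finiteIndex_kerS (hm : 0 < m) (hχ : χ ^ m = 1) : (kerS χ).FiniteIndex := by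
  have : NeZero m := ⟨hm.ne'⟩
  have hle : χ.range ≤ rootsOfUnity m ℂ := by
    rintro _ ⟨γ, rfl⟩
    refine (mem_rootsOfUnity _ _).mpr ?_
    have := congrArg (fun f : Gamma0 N →* ℂˣ => f γ) hχ
    simpa using this
  have : Finite χ.range := Finite.of_injective _ (Subgroup.inclusion_injective hle)
  have := Subgroup.finiteIndex_ker χ
  constructor
  rw [kerS, Subgroup.index_map_subtype]
  exact mul_ne_zero Subgroup.FiniteIndex.index_ne_zero Subgroup.FiniteIndex.index_ne_zero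

/-- All conjugates of a form with character have a limit at `i∞`. -/
theorem Mchi_tendsto_atImInfty (hm : 0 < m) (hχ : χ ^ m = 1) {k : ℤ} {h : ℍ → ℂ}
    (hh : h ∈ Mchi (Gamma0 N) χ k) (g : SL(2, ℤ)) :
    ∃ c : ℂ, Tendsto (h ∣[k] g) atImInfty (𝓝 c) := by
  have := finiteIndex_kerS hm hχ
  have : Finite (Cos (kerS χ)) := Subgroup.finite_quotient_of_finiteIndex
  obtain ⟨c, hc⟩ := hasLims_atImInfty (kerS χ) k h (Mchi_le_MFs_kerS hh)
    (QuotientGroup.mk (g⁻¹ : SL(2, ℤ)))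
  refine ⟨c, ?_⟩
  have e := vec_eq_slash (Mchi_le_MFs_kerS hh) g⁻¹
  rw [inv_inv] at e
  rw [← e]
  exact hc

/-- **Algebraic forms with nonvanishing limits of all conjugates.**  `l = pure z` or `l = atImInfty`.
If all conjugates of all forms in `Mchi (Gamma0 N) χ k` have a limit along `l`, and for every `g` some form
has a conjugate `h ∣ g` with nonzero limit, then there is ONE form with algebraic `q`-expansion all of whose
conjugates have a nonzero limit along `l`. -/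
theorem exists_algQ_lims_ne_zero (hm : 0 < m) (hχ : χ ^ m = 1) (hpar : IsPar N χ) {k : ℤ}
    (l : Filter ℍ) [l.NeBot]
    (hl : ∀ h ∈ Mchi (Gamma0 N) χ k, ∀ g : SL(2, ℤ), ∃ c : ℂ, Tendsto (h ∣[k] g) l (𝓝 c))
    (H : ∀ g : SL(2, ℤ), ∃ h ∈ Mchi (Gamma0 N) χ k, ∃ c : ℂ, c ≠ 0 ∧ Tendsto (h ∣[k] g) l (𝓝 c)) :
    ∃ W ∈ Mchi (Gamma0 N) χ k, IsAlgQ W ∧
      ∀ g : SL(2, ℤ), ∃ w₀ : ℂ, w₀ ≠ 0 ∧ Tendsto (W ∣[k] g) l (𝓝 w₀) := by
  classical
  choose L hL using hl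
  let φ : SL(2, ℤ) → (Mchi (Gamma0 N) χ k →ₗ[ℂ] ℂ) := fun g =>
    { toFun := fun h => L h.1 h.2 g
      map_add' := fun h h' => by
        refine tendsto_nhds_unique (hL _ (h + h').2 g) ?_
        have := (hL _ h.2 g).add (hL _ h'.2 g)
        rw [Submodule.coe_add, SlashAction.add_slash]
        exact this
      map_smul' := fun c h => by
        refine tendsto_nhds_unique (hL _ (c • h).2 g) ?_
        have := (hL _ h.2 g).const_smul c
        rw [Submodule.coe_smul, ModularForm.SL_smul_slash]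
        exact this }
  have hφ : ∀ g, φ g ≠ 0 := by
    intro g h0
    obtain ⟨h, hh, c, hc, hlim⟩ := H g
    have h1 : φ g ⟨h, hh⟩ = 0 := by rw [h0]; rfl
    exact hc (tendsto_nhds_unique hlim (h1 ▸ hL h hh g))
  have : Finite (Cos (Gamma0 N)) := Subgroup.finite_quotient_of_finiteIndex
  have := Fintype.ofFinite (Cos (Gamma0 N))
  obtain ⟨W, hWalg, hW⟩ := exists_algQ_forall_ne_zero hm hχ hpar (Finset.univ : Finset (Cos (Gamma0 N)))
    (fun x => φ (x.out)⁻¹) (fun x _ => hφ _)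
  refine ⟨W.1, W.2, hWalg, fun g => ?_⟩
  obtain ⟨γ, hγ⟩ := QuotientGroup.mk_out_eq_mul (Gamma0 N) g⁻¹
  set x : Cos (Gamma0 N) := QuotientGroup.mk (g⁻¹ : SL(2, ℤ)) with hx
  have hg : g = (γ : SL(2, ℤ)) * (x.out)⁻¹ := by
    rw [hγ]; group
  refine ⟨(χ γ : ℂ) * φ (x.out)⁻¹ W, mul_ne_zero (Units.ne_zero _) (hW x (Finset.mem_univ x)), ?_⟩
  have h1 : (W : ℍ → ℂ) ∣[k] g = (χ γ : ℂ) • ((W : ℍ → ℂ) ∣[k] (x.out)⁻¹) := by
    conv_lhs => rw [hg]
    rw [SlashAction.slash_mul, W.2.2.1 γ, ModularForm.SL_smul_slash]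
  rw [h1]
  exact (hL _ W.2 (x.out)⁻¹).const_smul (χ γ : ℂ)

end Fermat.Agent.S29
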