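import Fermat.Agent.S29.Core
import Fermat.Prelude.Def_FreyPackage_EigenformResidualAttachment
import Fermat.Agent.S13.Glue

/-!
# S42 glue [S42:GLUE]

* `frey_level`: the representation on `E[p]` of the Frey curve has finite level.
  Proof: `E[p]` is finite (`S13/LadderCore.lean torsion_finite_card_le` or `S13` `Tor` API), every point has an open
  stabiliser (`S13/FreyModel.lean isOpen_stabilizer_point`: its coordinates generate a number field); take the compositum.
* `exists_galois_numberField`: a number field `L ⊆ ℚ̄` is contained in a finite Galois `F ⊆ ℚ̄`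
  (`IntermediateField.normalClosure ℚ L ℚ̄`), presented as an abstract type with the instances wanted by S42.
* `trace_det_of_charpoly`: `charpoly f = X² - a X + d` on a 2-dimensional space gives `trace f = a`, `det f = d`
  (`LinearMap.trace_eq_neg_charpoly_coeff`, `LinearMap.det_eq_sign_charpoly_coeff`; see also `S54/Charpoly.lean`).
-/

set_option autoImplicit false

namespace Fermat.Agent.S29

open Polynomial WeierstrassCurve WeierstrassCurve.Affine.Point

noncomputable local instance : DecidableEq (AlgebraicClosure ℚ) := Classical.decEq _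

theorem frey_level (P : FreyPackage) :
    GaloisFactorsThroughFiniteLevel
      (galoisRepModuleEnd (S := ℚ) (K := AlgebraicClosure ℚ) P.freyCurve P.p) := by
  obtain ⟨X, hI⟩ := S13.exists_inputs (P := P)
  have hfin : Finite (S13.Tor P) := hI.finite_tor
  let T : Set (AlgebraicClosure ℚ) := Set.range (fun Q : S13.Tor P => S13.xc P Q.1) ∪
    Set.range (fun Q : S13.Tor P => S13.yc P Q.1)
  have hT : T.Finite := (Set.finite_range _).union (Set.finite_range _)
  have hT' : Finite T := hT.to_subtype
  have halg : Algebra.IsAlgebraic ℚ (AlgebraicClosure ℚ) := AlgebraicClosure.isAlgebraic ℚ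
  refine ⟨IntermediateField.adjoin ℚ T, ?_, ?_⟩
  · exact IntermediateField.finiteDimensional_adjoin
      (fun x _ => (Algebra.IsAlgebraic.isAlgebraic x).isIntegral)
  · intro σ hσ
    refine LinearMap.ext fun Q => ?_
    rw [galoisRepModuleEnd_apply]
    apply Subtype.ext
    change σ • Q.1 = Q.1
    by_cases hQ : Q.1 = 0
    · rw [hQ]; rfl
    · refine S13.pt_ext (S13.smul_ne_zero_pt σ hQ) hQ ?_ ?_
      · rw [S13.xc_smul]
        exact hσ _ (IntermediateField.subset_adjoin ℚ T (Or.inl ⟨Q, rfl⟩))
      · rw [S13.yc_smul]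
        exact hσ _ (IntermediateField.subset_adjoin ℚ T (Or.inr ⟨Q, rfl⟩))

theorem exists_galois_numberField (L : IntermediateField ℚ (AlgebraicClosure ℚ))
    [FiniteDimensional ℚ L] :
    ∃ (F : Type) (_ : Field F) (_ : NumberField F) (_ : IsGalois ℚ F)
      (_ : Algebra F (AlgebraicClosure ℚ)) (_ : IsScalarTower ℚ F (AlgebraicClosure ℚ)),
      ∀ σ ∈ (AlgEquiv.restrictNormalHom (F := ℚ) (K₁ := AlgebraicClosure ℚ) F).ker,
        ∀ x ∈ L, σ x = x := by
  let F := IntermediateField.normalClosure ℚ L (AlgebraicClosure ℚ)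
  have hfd : FiniteDimensional ℚ F := normalClosure.is_finiteDimensional ℚ L _
  have halg : Algebra.IsAlgebraic ℚ (AlgebraicClosure ℚ) := AlgebraicClosure.isAlgebraic ℚ
  have hcl : IsAlgClosure ℚ (AlgebraicClosure ℚ) := ⟨inferInstance, inferInstance⟩
  have hnorQ : Normal ℚ (AlgebraicClosure ℚ) := IsAlgClosure.normal ℚ (AlgebraicClosure ℚ)
  have hnor : Normal ℚ F := normalClosure.normal ℚ L _
  refine ⟨F, inferInstance, ⟨⟩, ⟨⟩, inferInstance, inferInstance, ?_⟩
  intro σ hσ x hx
  have hxF : x ∈ F := IntermediateField.le_normalClosure L hx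
  have h1 : AlgEquiv.restrictNormalHom (F := ℚ) (K₁ := AlgebraicClosure ℚ) F σ = 1 := hσ
  have h2 := AlgEquiv.restrictNormal_commutes σ F ⟨x, hxF⟩
  have h3 : σ.restrictNormal F = 1 := h1
  rw [h3] at h2
  exact h2.symm

theorem trace_det_of_charpoly {K V : Type} [Field K] [AddCommGroup V] [Module K V]
    [Module.Finite K V] (h2 : Module.finrank K V = 2) (f : Module.End K V) (a d : K)
    (h : LinearMap.charpoly f = X ^ 2 - C a * X + C d) :
    LinearMap.trace K V f = a ∧ LinearMap.det f = d := by
  constructor
  · let b := Module.Free.chooseBasis K V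
    have hcard : Fintype.card (Module.Free.ChooseBasisIndex K V) = 2 := by
      rw [← Module.finrank_eq_card_chooseBasisIndex, h2]
    have hne : Nonempty (Module.Free.ChooseBasisIndex K V) := by
      rw [← Fintype.card_pos_iff, hcard]; norm_num
    rw [LinearMap.trace_eq_matrix_trace K b, Matrix.trace_eq_neg_charpoly_coeff, hcard,
      LinearMap.charpoly_toMatrix, h]
    simp [coeff_C]
  · rw [LinearMap.det_eq_sign_charpoly_coeff, h2, h]
    simp

end Fermat.Agent.S29
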