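import Fermat.Agent.S24.RatFam
import Fermat.Agent.S20.Serre

/-!
# S29, piece AN-ALG (2): modular forms with a character of the group `H`

`Mchi H χ k`: holomorphic functions with `F ∣[k] γ = χ γ • F` for `γ ∈ H`, bounded at all cusps.
Basic API: products, powers, trivial character, Serre derivative, base point freeness on `ℍ`.
-/

set_option autoImplicit false

namespace Fermat.Agent.S29

open UpperHalfPlane ModularForm Filter Topology CongruenceSubgroup
open Fermat.Agent.S20 Fermat.Agent.S23 Fermat.Agent.S24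
open scoped MatrixGroups Manifold ModularForm
open Derivative

/-- Modular forms of weight `k` for `H ≤ SL(2,ℤ)` with character `χ`, as a space of functions. -/
def Mchi (H : Subgroup SL(2, ℤ)) (χ : H →* ℂˣ) (k : ℤ) : Submodule ℂ (ℍ → ℂ) where
  carrier := {F | MDiff F ∧ (∀ γ : H, F ∣[k] (γ : SL(2, ℤ)) = (χ γ : ℂ) • F) ∧
    ∀ g : SL(2, ℤ), IsBoundedAtImInfty (F ∣[k] g)}
  add_mem' := by
    rintro F G ⟨hF1, hF2, hF3⟩ ⟨hG1, hG2, hG3⟩
    refine ⟨hF1.add hG1, fun γ => ?_, fun g => ?_⟩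
    · rw [SlashAction.add_slash, hF2 γ, hG2 γ, smul_add]
    · rw [SlashAction.add_slash]; exact (hF3 g).add (hG3 g)
  zero_mem' := by
    refine ⟨mdifferentiable_const, fun γ => ?_, fun g => ?_⟩
    · rw [SlashAction.zero_slash, smul_zero]
    · rw [SlashAction.zero_slash]; exact zero_form_isBoundedAtImInfty
  smul_mem' := by
    rintro c F ⟨hF1, hF2, hF3⟩
    refine ⟨hF1.const_smul c, fun γ => ?_, fun g => ?_⟩
    · rw [ModularForm.SL_smul_slash, hF2 γ, smul_comm]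
    · rw [ModularForm.SL_smul_slash]; exact (hF3 g).const_smul_left c

variable {H : Subgroup SL(2, ℤ)} {χ ψ : H →* ℂˣ} {k a b : ℤ} {F G : ℍ → ℂ}

lemma mem_Mchi : F ∈ Mchi H χ k ↔ MDiff F ∧ (∀ γ : H, F ∣[k] (γ : SL(2, ℤ)) = (χ γ : ℂ) • F) ∧
    ∀ g : SL(2, ℤ), IsBoundedAtImInfty (F ∣[k] g) := Iff.rfl

lemma Mchi_one : Mchi H 1 k = MFs H k := by
  ext F
  constructor
  · rintro ⟨h1, h2, h3⟩
    exact ⟨h1, fun γ hγ => by simpa using h2 ⟨γ, hγ⟩, h3⟩
  · rintro ⟨h1, h2, h3⟩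
    exact ⟨h1, fun γ => by simpa using h2 γ γ.2, h3⟩

lemma mem_MFs_of_mem_Mchi (hχ : χ = 1) (hF : F ∈ Mchi H χ k) : F ∈ MFs H k := by
  subst hχ; rwa [Mchi_one] at hF

lemma mul_mem_Mchi (hF : F ∈ Mchi H χ a) (hG : G ∈ Mchi H ψ b) : F * G ∈ Mchi H (χ * ψ) (a + b) := by
  refine ⟨hF.1.mul hG.1, fun γ => ?_, fun g => ?_⟩
  · rw [ModularForm.mul_slash_SL2, hF.2.1 γ, hG.2.1 γ]
    ext z
    simp only [Pi.mul_apply, Pi.smul_apply, smul_eq_mul, MonoidHom.mul_apply, Units.val_mul]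
    ring
  · rw [ModularForm.mul_slash_SL2]; exact (hF.2.2 g).mul (hG.2.2 g)

lemma pow_mem_Mchi (hF : F ∈ Mchi H χ a) (n : ℕ) : F ^ n ∈ Mchi H (χ ^ n) (n * a) := by
  induction n with
  | zero =>
    have e : χ ^ 0 = 1 := pow_zero χ
    simp only [pow_zero, Nat.cast_zero, zero_mul]
    rw [e, Mchi_one]; exact one_mem_MFs
  | succ n ih =>
    have := mul_mem_Mchi ih hF
    have e : χ ^ (n + 1) = χ ^ n * χ := pow_succ χ n
    rw [pow_succ, e]
    convert this using 2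
    push_cast; ring

lemma mul_mem_Mchi_of_MFs (hF : F ∈ MFs H a) (hG : G ∈ Mchi H ψ b) : F * G ∈ Mchi H ψ (a + b) := by
  rw [← Mchi_one] at hF
  have e : (1 : H →* ℂˣ) * ψ = ψ := one_mul ψ
  have := mul_mem_Mchi hF hG
  rwa [e] at this

/-- the kernel of `χ` as a subgroup of `SL(2,ℤ)`. -/
def kerS (χ : H →* ℂˣ) : Subgroup SL(2, ℤ) := χ.ker.map H.subtype

lemma mem_kerS {γ : SL(2, ℤ)} : γ ∈ kerS χ ↔ ∃ h : γ ∈ H, χ ⟨γ, h⟩ = 1 := by
  constructor
  · rintro ⟨x, hx, rfl⟩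
    exact ⟨x.2, hx⟩
  · rintro ⟨h, hx⟩
    exact ⟨⟨γ, h⟩, hx, rfl⟩

lemma Mchi_le_MFs_kerS : Mchi H χ k ≤ MFs (kerS χ) k := by
  rintro F ⟨h1, h2, h3⟩
  refine ⟨h1, fun γ hγ => ?_, h3⟩
  obtain ⟨h, hx⟩ := mem_kerS.mp hγ
  have := h2 ⟨γ, h⟩
  rw [hx] at this
  simpa using this

lemma mem_Nice_of_mem_Mchi (hT : ∃ h : ModularGroup.T ∈ H, χ ⟨_, h⟩ = 1) (hF : F ∈ Mchi H χ k) :
    F ∈ Nice :=
  mem_Nice_of_mem_MFs (mem_kerS.mpr hT) (Mchi_le_MFs_kerS hF)

/-- The Serre derivative preserves the character. -/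
lemma serre_mem_Mchi (hF : F ∈ Mchi H χ k) : serreDerivative k F ∈ Mchi H χ (k + 2) := by
  refine ⟨serreDerivative_mdifferentiable k hF.1, fun γ => ?_, fun g => ?_⟩
  · rw [serreDerivative_slash_equivariant hF.1, hF.2.1 γ, serreDerivative_smul _ _ _ hF.1]
  · rw [serreDerivative_slash_equivariant hF.1]
    exact isBoundedAtImInfty_serreDerivative _ (hF.1.slash k _) (hF.2.2 g)

lemma analyticAt_comp_ofComplex (hF : MDiff F) (x : ℍ) : AnalyticAt ℂ (F ∘ ofComplex) (x : ℂ) :=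
  (UpperHalfPlane.mdifferentiable_iff.mp hF).analyticAt (isOpen_upperHalfPlaneSet.mem_nhds x.im_pos)

lemma order_ne_top (hF : MDiff F) (hF0 : F ≠ 0) (x : ℍ) :
    analyticOrderAt (F ∘ ofComplex) (x : ℂ) ≠ ⊤ := by
  obtain ⟨y, hy⟩ : ∃ y, F y ≠ 0 := by
    by_contra h
    push Not at h
    exact hF0 (funext h)
  have han : AnalyticOnNhd ℂ (F ∘ ofComplex) upperHalfPlaneSet :=
    (UpperHalfPlane.mdifferentiable_iff.mp hF).analyticOnNhd isOpen_upperHalfPlaneSet
  refine han.analyticOrderAt_ne_top_of_isPreconnected (convex_halfSpace_im_gt 0).isPreconnected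
    (x := (y : ℂ)) y.im_pos x.im_pos ?_
  have : analyticOrderAt (F ∘ ofComplex) (y : ℂ) = 0 := by
    rw [(analyticAt_comp_ofComplex hF y).analyticOrderAt_eq_zero]
    simpa using hy
  rw [this]
  simp

lemma order_serre (hF : MDiff F) (κ : ℂ) (x : ℍ) (n : ℕ)
    (h : analyticOrderAt (F ∘ ofComplex) (x : ℂ) = n + 1) :
    analyticOrderAt (serreDerivative κ F ∘ ofComplex) (x : ℂ) = n := by
  set f := F ∘ ofComplex with hf
  have hfa := analyticAt_comp_ofComplex hF x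
  have hE := analyticAt_comp_ofComplex E2_mdifferentiable x
  set c : ℂ := (2 * Real.pi * Complex.I)⁻¹ with hc
  have hc0 : c ≠ 0 := inv_ne_zero Complex.two_pi_I_ne_zero
  have e : (serreDerivative κ F ∘ ofComplex) =ᶠ[𝓝 (x : ℂ)]
      ((fun _ => c) * deriv f) + ((fun w => -(κ * 12⁻¹ * (EisensteinSeries.E2 ∘ ofComplex) w)) * f) := by
    filter_upwards [isOpen_upperHalfPlaneSet.mem_nhds x.im_pos] with w hw
    simp only [Function.comp_apply, serreDerivative_apply, normalizedDerivOfComplex, Pi.add_apply,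
      Pi.mul_apply, hf, ofComplex_apply_of_im_pos hw]
    ring
  rw [analyticOrderAt_congr e]
  have h1 : analyticOrderAt ((fun _ => c) * deriv f) (x : ℂ) = n := by
    rw [analyticOrderAt_mul analyticAt_const hfa.deriv, analyticOrderAt_deriv_of_pos hfa h]
    have : analyticOrderAt (fun _ : ℂ => c) (x : ℂ) = 0 := by
      rw [analyticAt_const.analyticOrderAt_eq_zero]; exact hc0
    rw [this, zero_add]
  have h2 : (n : ℕ∞) < analyticOrderAt
      ((fun w => -(κ * 12⁻¹ * (EisensteinSeries.E2 ∘ ofComplex) w)) * f) (x : ℂ) := by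
    have hA : AnalyticAt ℂ (fun w => -(κ * 12⁻¹ * (EisensteinSeries.E2 ∘ ofComplex) w)) (x : ℂ) :=
      (analyticAt_const.mul hE).neg
    rw [analyticOrderAt_mul hA hfa, h]
    calc (n : ℕ∞) < n + 1 := by
          exact_mod_cast Nat.lt_succ_self n
      _ ≤ _ := le_add_self
  rw [analyticOrderAt_add_eq_left_of_lt (h1 ▸ h2), h1]

/-- Base point freeness on `ℍ` (in varying weight): a suitable iterated Serre derivative of a
non-zero form does not vanish at `x`. -/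
theorem exists_ne_zero_at (hF : F ∈ Mchi H χ k) (hF0 : F ≠ 0) (x : ℍ) :
    ∃ (a : ℕ) (h : ℍ → ℂ), h ∈ Mchi H χ (k + 2 * a) ∧ h x ≠ 0 := by
  obtain ⟨n, hn⟩ := ENat.ne_top_iff_exists.mp (order_ne_top hF.1 hF0 x)
  induction n generalizing k F with
  | zero =>
    refine ⟨0, F, by simpa using hF, ?_⟩
    have := (analyticAt_comp_ofComplex hF.1 x).analyticOrderAt_eq_zero.mp hn.symm
    simpa using this
  | succ n ih =>
    have h1 := order_serre hF.1 k x n (by rw [← hn]; push_cast; rfl)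
    have hne : serreDerivative k F ≠ 0 := by
      intro h0
      rw [h0] at h1
      have : analyticOrderAt ((0 : ℍ → ℂ) ∘ ofComplex) (x : ℂ) = ⊤ := by
        rw [analyticOrderAt_eq_top]
        exact Eventually.of_forall fun _ => rfl
      rw [this] at h1
      exact ENat.top_ne_natCast n h1
    obtain ⟨a, h, hh, hx⟩ := ih (serre_mem_Mchi hF) hne h1.symm
    refine ⟨a + 1, h, ?_, hx⟩
    convert hh using 2
    push_cast; ring

end Fermat.Agent.S29
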